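import Fermat.Prelude.Def_ModularCurve_LaurentCoeff
import Mathlib.RingTheory.Valuation.ValuationSubring
import Mathlib.RingTheory.LocalRing.ResidueField.Basic

/-!
# S18, package Dict/Qepo (Q0): the Gauss ring of a valuation subring (helper20)

`K` a field, `O : ValuationSubring K`, `κ = IsLocalRing.ResidueField O`.

* `gaussRing O : Subring (LaurentSeries K)` is
  `{x | ∃ a b : LaurentSeries O, red b ≠ 0 ∧ x * ι b = ι a}` where
  `ι = coeffMap O.subtype` and `red = coeffMap (IsLocalRing.residue O)`;
* `gaussRed O : gaussRing O →+* LaurentSeries κ`, `a / b ↦ red a / red b`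
  (API: `gaussRed_eq`).

This is the port of `S28/Alg/H1_Defs` (`OW`, `rhoW`, `rhoW_eq`) from `Z_(ℓ) ⊆ ℚ` to a general
valuation subring.
-/

set_option autoImplicit false
open ModularCurve

noncomputable section

namespace Fermat.Agent.S18x.Dict.H20

variable {K : Type*} [Field K] (O : ValuationSubring K)

theorem coeffMap_subtype_injective :
    Function.Injective (coeffMap (O.subtype : O →+* K)) := by
  intro a b h
  ext n
  have := congrArg (fun x : LaurentSeries K => x.coeff n) h
  simpa using this

/-- The Gauss ring `{a / b : a, b ∈ O((q)), red b ≠ 0}`, a subring of `K((q))`. -/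
def gaussRing : Subring (LaurentSeries K) where
  carrier := {x | ∃ a b : LaurentSeries O, coeffMap (IsLocalRing.residue O) b ≠ 0 ∧
    x * coeffMap (O.subtype : O →+* K) b = coeffMap (O.subtype : O →+* K) a}
  one_mem' := ⟨1, 1, by rw [map_one]; exact one_ne_zero, by rw [map_one, mul_one]⟩
  zero_mem' := ⟨0, 1, by rw [map_one]; exact one_ne_zero, by rw [map_zero, zero_mul]⟩
  mul_mem' := by
    rintro x y ⟨a, b, hb, h⟩ ⟨a', b', hb', h'⟩
    refine ⟨a * a', b * b', by rw [map_mul]; exact mul_ne_zero hb hb', ?_⟩
    rw [map_mul, map_mul, ← h, ← h']; ring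
  add_mem' := by
    rintro x y ⟨a, b, hb, h⟩ ⟨a', b', hb', h'⟩
    refine ⟨a * b' + a' * b, b * b', by rw [map_mul]; exact mul_ne_zero hb hb', ?_⟩
    rw [map_add, map_mul, map_mul, map_mul, ← h, ← h']; ring
  neg_mem' := by
    rintro x ⟨a, b, hb, h⟩
    exact ⟨-a, b, hb, by rw [map_neg, ← h]; ring⟩

theorem mem_gaussRing_iff {x : LaurentSeries K} :
    x ∈ gaussRing O ↔ ∃ a b : LaurentSeries O, coeffMap (IsLocalRing.residue O) b ≠ 0 ∧
      x * coeffMap (O.subtype : O →+* K) b = coeffMap (O.subtype : O →+* K) a := Iff.rfl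

/-- A numerator of `x ∈ gaussRing O`. -/
def gaussNum (x : gaussRing O) : LaurentSeries O := Classical.choose x.2

/-- A denominator of `x ∈ gaussRing O`. -/
def gaussDen (x : gaussRing O) : LaurentSeries O :=
  Classical.choose (Classical.choose_spec x.2)

theorem gaussRep_spec (x : gaussRing O) :
    coeffMap (IsLocalRing.residue O) (gaussDen O x) ≠ 0 ∧
      (x : LaurentSeries K) * coeffMap (O.subtype : O →+* K) (gaussDen O x)
        = coeffMap (O.subtype : O →+* K) (gaussNum O x) :=
  Classical.choose_spec (Classical.choose_spec x.2)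

/-- The underlying function of `gaussRed`. -/
def gaussRedFun (x : gaussRing O) : LaurentSeries (IsLocalRing.ResidueField O) :=
  coeffMap (IsLocalRing.residue O) (gaussNum O x) /
    coeffMap (IsLocalRing.residue O) (gaussDen O x)

theorem gaussRedFun_eq (x : gaussRing O) (a b : LaurentSeries O)
    (hb : coeffMap (IsLocalRing.residue O) b ≠ 0)
    (h : (x : LaurentSeries K) * coeffMap (O.subtype : O →+* K) b
      = coeffMap (O.subtype : O →+* K) a) :
    gaussRedFun O x
      = coeffMap (IsLocalRing.residue O) a / coeffMap (IsLocalRing.residue O) b := by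
  obtain ⟨hb0, h0⟩ := gaussRep_spec O x
  have key : gaussNum O x * b = a * gaussDen O x := by
    apply coeffMap_subtype_injective O
    rw [map_mul, map_mul]
    linear_combination
      -(coeffMap (O.subtype : O →+* K) b) * h0
        + (coeffMap (O.subtype : O →+* K) (gaussDen O x)) * h
  have key' : coeffMap (IsLocalRing.residue O) (gaussNum O x)
      * coeffMap (IsLocalRing.residue O) b
      = coeffMap (IsLocalRing.residue O) a
        * coeffMap (IsLocalRing.residue O) (gaussDen O x) := by
    rw [← map_mul, key, map_mul]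
  rw [gaussRedFun, div_eq_div_iff hb0 hb]
  exact key'

/-- The reduction `gaussRing O → κ((q))`, `a / b ↦ red a / red b`. -/
def gaussRed : gaussRing O →+* LaurentSeries (IsLocalRing.ResidueField O) where
  toFun := gaussRedFun O
  map_one' := by
    rw [gaussRedFun_eq O 1 1 1 (by rw [map_one]; exact one_ne_zero)
      (by rw [map_one, mul_one]; rfl), map_one, div_one]
  map_zero' := by
    rw [gaussRedFun_eq O 0 0 1 (by rw [map_one]; exact one_ne_zero)
      (by rw [map_one, mul_one, map_zero]; rfl), map_zero, zero_div]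
  map_mul' x y := by
    obtain ⟨a, b, hb, h⟩ := x.2
    obtain ⟨a', b', hb', h'⟩ := y.2
    rw [gaussRedFun_eq O (x * y) (a * a') (b * b')
      (by rw [map_mul]; exact mul_ne_zero hb hb')
      (by rw [map_mul, map_mul, ← h, ← h']; push_cast; ring),
      gaussRedFun_eq O x a b hb h, gaussRedFun_eq O y a' b' hb' h', map_mul, map_mul]
    field_simp
  map_add' x y := by
    obtain ⟨a, b, hb, h⟩ := x.2
    obtain ⟨a', b', hb', h'⟩ := y.2
    rw [gaussRedFun_eq O (x + y) (a * b' + a' * b) (b * b')
      (by rw [map_mul]; exact mul_ne_zero hb hb')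
      (by rw [map_add, map_mul, map_mul, map_mul, ← h, ← h']; push_cast; ring),
      gaussRedFun_eq O x a b hb h, gaussRedFun_eq O y a' b' hb' h', map_add, map_mul, map_mul,
      map_mul]
    field_simp

/-- **The API of `gaussRed`**: `gaussRed (a / b) = red a / red b`. -/
theorem gaussRed_eq (x : gaussRing O) (a b : LaurentSeries O)
    (hb : coeffMap (IsLocalRing.residue O) b ≠ 0)
    (h : (x : LaurentSeries K) * coeffMap (O.subtype : O →+* K) b
      = coeffMap (O.subtype : O →+* K) a) :
    gaussRed O x
      = coeffMap (IsLocalRing.residue O) a / coeffMap (IsLocalRing.residue O) b :=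
  gaussRedFun_eq O x a b hb h

theorem coeffMap_subtype_mem_gaussRing (a : LaurentSeries O) :
    coeffMap (O.subtype : O →+* K) a ∈ gaussRing O :=
  ⟨a, 1, by rw [map_one]; exact one_ne_zero, by rw [map_one, mul_one]⟩

theorem gaussRed_coeffMap_subtype (a : LaurentSeries O) :
    gaussRed O ⟨coeffMap (O.subtype : O →+* K) a, coeffMap_subtype_mem_gaussRing O a⟩
      = coeffMap (IsLocalRing.residue O) a := by
  rw [gaussRed_eq O _ a 1 (by rw [map_one]; exact one_ne_zero) (by rw [map_one, mul_one]),
    map_one, div_one]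

end Fermat.Agent.S18x.Dict.H20
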