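import Mathlib
import Fermat.Agent.S18x.Dict.H20_GaussDefs

/-!
# S18, package Dict/Qepo (Q0): the Gauss ring of a discrete valuation subring (helper20)

`K` a field, `O : ValuationSubring K` a discrete valuation ring with uniformiser `π`,
`κ = IsLocalRing.ResidueField O`, `ι : O((q)) → K((q))`, `red : O((q)) → κ((q))`.

* `exists_eq_mul_of_gRed_eq_zero`: `red a = 0 → a = π * a'`;
* `exists_pow_mul_gRed_ne_zero`: `a ≠ 0 → a = π ^ m * a'` with `red a' ≠ 0`;
* `gaussC : O →+* gaussRing O` (constants), `gaussRed_gaussC`;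
* `gaussRed_eq_zero_iff`: the kernel of `gaussRed` is `π * gaussRing O`;
* `inv_mem_gaussRing`, `gaussRed_inv`: elements of nonzero reduction are units;
* `fracLam O`: the fraction field of `ι (O((q)))` inside `K((q))`;
* `exists_zpow_mul_of_mem_fracLam`: `x = π ^ e * u`, `u` a unit of the Gauss ring;
* `mem_gaussRing_or_inv_mem`, `mem_gaussRing_of_monic_relation` (integrally closed).

Port of `S28/Alg/H5_Res`, `S28/Alg/H5_OW` from `Z_(ℓ) ⊆ ℚ` to a general discrete valuation
subring.
-/

set_option autoImplicit false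
set_option linter.unusedSectionVars false
set_option linter.style.haveILetI false

open ModularCurve

noncomputable section

namespace Fermat.Agent.S18x.Dict.H20

variable {K : Type*} [Field K] (O : ValuationSubring K)

/-- `ι : O((q)) → K((q))`, coefficientwise inclusion. -/
abbrev gIota : LaurentSeries O →+* LaurentSeries K := coeffMap (O.subtype : O →+* K)

/-- `red : O((q)) → κ((q))`, coefficientwise reduction. -/
abbrev gRed : LaurentSeries O →+* LaurentSeries (IsLocalRing.ResidueField O) :=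
  coeffMap (IsLocalRing.residue O)

theorem gIota_injective : Function.Injective (gIota O) := coeffMap_subtype_injective O

theorem gIota_ne_zero {b : LaurentSeries O} (hb : b ≠ 0) : gIota O b ≠ 0 := by
  intro h
  exact hb (gIota_injective O (by rw [h, map_zero]))

theorem ne_zero_of_gRed_ne_zero {b : LaurentSeries O} (hb : gRed O b ≠ 0) : b ≠ 0 := by
  rintro rfl
  exact hb (map_zero _)

theorem gIota_C (x : O) : gIota O (HahnSeries.C x) = HahnSeries.C (x : K) := by
  rw [HahnSeries.C_apply, HahnSeries.C_apply]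
  exact coeffMap_single _ _ _

theorem gRed_C (x : O) :
    gRed O (HahnSeries.C x) = HahnSeries.C (IsLocalRing.residue O x) := by
  rw [HahnSeries.C_apply, HahnSeries.C_apply]
  exact coeffMap_single _ _ _

theorem C_mul_coeff {R : Type*} [CommRing R] (r : R) (a : LaurentSeries R) (k : ℤ) :
    (HahnSeries.C r * a).coeff k = r * a.coeff k := by
  rw [HahnSeries.C_mul_eq_smul, HahnSeries.coeff_smul, smul_eq_mul]

/-- A Laurent series over `K` with all coefficients in `O` comes from `O((q))`. -/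
theorem exists_gIota_eq (f : LaurentSeries K) (hf : ∀ k, f.coeff k ∈ O) :
    ∃ a : LaurentSeries O, gIota O a = f := by
  refine ⟨⟨fun k => ⟨f.coeff k, hf k⟩, ?_⟩, ?_⟩
  · refine f.isPWO_support.mono ?_
    intro k hk
    simp only [Function.mem_support, ne_eq] at hk ⊢
    intro h0
    exact hk (Subtype.ext h0)
  · ext k
    rfl

/-! ### The uniformiser -/

section Unif

variable [IsDiscreteValuationRing O] (π : O) (hπ : Irreducible π)

include hπ

theorem residue_eq_zero_iff_unif {x : O} :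
    IsLocalRing.residue O x = 0 ↔ ∃ y : O, x = π * y := by
  rw [IsLocalRing.residue_eq_zero_iff, hπ.maximalIdeal_eq, Ideal.mem_span_singleton]
  exact Iff.rfl

theorem residue_unif : IsLocalRing.residue O π = 0 :=
  (residue_eq_zero_iff_unif O π hπ).2 ⟨1, (mul_one π).symm⟩

theorem unif_coe_ne_zero : (π : K) ≠ 0 := by
  intro h
  exact hπ.ne_zero (Subtype.ext h)

theorem C_unif_ne_zero : (HahnSeries.C (π : K) : LaurentSeries K) ≠ 0 := by
  intro h
  exact unif_coe_ne_zero O π hπ (HahnSeries.C_injective (by rw [h, map_zero]))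

theorem gRed_C_unif : gRed O (HahnSeries.C π) = 0 := by
  rw [gRed_C, residue_unif O π hπ, map_zero]

/-- The kernel of `red` is generated by `π`. -/
theorem exists_eq_mul_of_gRed_eq_zero {a : LaurentSeries O} (ha : gRed O a = 0) :
    ∃ a' : LaurentSeries O, a = HahnSeries.C π * a' := by
  have hk : ∀ k, ∃ y : O, a.coeff k = π * y := by
    intro k
    apply (residue_eq_zero_iff_unif O π hπ).1
    have := congrArg (fun f : LaurentSeries (IsLocalRing.ResidueField O) => f.coeff k) ha
    simpa using this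
  choose g hg using hk
  have hπ0 : π ≠ 0 := hπ.ne_zero
  refine ⟨⟨g, ?_⟩, ?_⟩
  · refine a.isPWO_support.mono ?_
    intro k hk
    simp only [Function.mem_support, ne_eq] at hk ⊢
    intro h0
    apply hk
    have := hg k
    rw [h0, zero_eq_mul] at this
    exact this.resolve_left hπ0
  · refine HahnSeries.ext (funext fun k => ?_)
    rw [C_mul_coeff]
    exact hg k

theorem gRed_eq_zero_iff {a : LaurentSeries O} :
    gRed O a = 0 ↔ ∃ a' : LaurentSeries O, a = HahnSeries.C π * a' := by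
  refine ⟨exists_eq_mul_of_gRed_eq_zero O π hπ, ?_⟩
  rintro ⟨a', rfl⟩
  rw [map_mul, gRed_C_unif O π hπ, zero_mul]

private theorem exists_pow_mul_aux (n : ℕ) : ∀ (a : LaurentSeries O) (k : ℤ) (u : Oˣ),
    a.coeff k = (u : O) * π ^ n →
    ∃ (m : ℕ) (a' : LaurentSeries O),
      a = HahnSeries.C π ^ m * a' ∧ gRed O a' ≠ 0 := by
  induction n with
  | zero =>
    intro a k u hk
    refine ⟨0, a, by simp, ?_⟩
    intro hr
    have h1 := congrArg (fun f : LaurentSeries (IsLocalRing.ResidueField O) => f.coeff k) hr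
    simp only [coeffMap_coeff, HahnSeries.coeff_zero] at h1
    rw [hk, pow_zero, mul_one] at h1
    exact (IsLocalRing.residue_ne_zero_iff_isUnit (u : O)).2 u.isUnit h1
  | succ n ih =>
    intro a k u hk
    by_cases hr : gRed O a = 0
    · obtain ⟨a₁, rfl⟩ := exists_eq_mul_of_gRed_eq_zero O π hπ hr
      rw [C_mul_coeff, pow_succ, ← mul_assoc, mul_comm π] at hk
      have h1 : a₁.coeff k = (u : O) * π ^ n := mul_right_cancel₀ hπ.ne_zero hk
      obtain ⟨m, a', rfl, ha'⟩ := ih a₁ k u h1
      exact ⟨m + 1, a', by rw [pow_succ']; ring, ha'⟩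
    · exact ⟨0, a, by simp, hr⟩

/-- Gauss normal form: a nonzero series is `π ^ m` times a series with nonzero reduction. -/
theorem exists_pow_mul_gRed_ne_zero {a : LaurentSeries O} (ha : a ≠ 0) :
    ∃ (m : ℕ) (a' : LaurentSeries O),
      a = HahnSeries.C π ^ m * a' ∧ gRed O a' ≠ 0 := by
  obtain ⟨k, hk⟩ : ∃ k, a.coeff k ≠ 0 := by
    by_contra h
    push Not at h
    exact ha (HahnSeries.ext (funext h))
  obtain ⟨n, u, hu⟩ := IsDiscreteValuationRing.eq_unit_mul_pow_irreducible hk hπ
  exact exists_pow_mul_aux O π hπ n a k u hu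

end Unif

/-! ### Constants in the Gauss ring -/

theorem C_mem_gaussRing (x : O) : (HahnSeries.C (x : K) : LaurentSeries K) ∈ gaussRing O :=
  ⟨HahnSeries.C x, 1, by rw [map_one]; exact one_ne_zero, by
    rw [map_one, mul_one]; exact (gIota_C O x).symm⟩

/-- Constants `O → gaussRing O`. -/
def gaussC : O →+* gaussRing O where
  toFun x := ⟨HahnSeries.C (x : K), C_mem_gaussRing O x⟩
  map_one' := Subtype.ext (by simp)
  map_mul' x y := Subtype.ext (by simp)
  map_zero' := Subtype.ext (by simp)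
  map_add' x y := Subtype.ext (by simp)

@[simp] theorem coe_gaussC (x : O) :
    ((gaussC O x : gaussRing O) : LaurentSeries K) = HahnSeries.C (x : K) := rfl

theorem gaussRed_gaussC (x : O) :
    gaussRed O (gaussC O x) = HahnSeries.C (IsLocalRing.residue O x) := by
  rw [gaussRed_eq O _ (HahnSeries.C x) 1 (by rw [map_one]; exact one_ne_zero)
    (by rw [map_one, mul_one]; exact (gIota_C O x).symm), map_one, div_one]
  exact gRed_C O x

theorem exists_gaussRep (x : gaussRing O) : ∃ a b : LaurentSeries O, gRed O b ≠ 0 ∧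
    (x : LaurentSeries K) * gIota O b = gIota O a ∧ gaussRed O x = gRed O a / gRed O b := by
  obtain ⟨a, b, hb, h⟩ := x.2
  exact ⟨a, b, hb, h, gaussRed_eq O x a b hb h⟩

/-- Elements with nonzero reduction are units of the Gauss ring. -/
theorem inv_mem_gaussRing {x : gaussRing O} (hx : gaussRed O x ≠ 0) :
    (x : LaurentSeries K)⁻¹ ∈ gaussRing O := by
  obtain ⟨a, b, hb, h, hx'⟩ := exists_gaussRep O x
  have ha : gRed O a ≠ 0 := by
    intro h0
    apply hx
    rw [hx', h0, zero_div]
  have ha0 : gIota O a ≠ 0 := gIota_ne_zero O (ne_zero_of_gRed_ne_zero O ha)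
  have hx0 : (x : LaurentSeries K) ≠ 0 := by
    intro h0
    rw [h0, zero_mul] at h
    exact ha0 h.symm
  refine ⟨b, a, ha, ?_⟩
  show (x : LaurentSeries K)⁻¹ * gIota O a = gIota O b
  rw [← h]
  field_simp

theorem gaussRed_inv {x : gaussRing O} (hx : gaussRed O x ≠ 0) :
    gaussRed O ⟨(x : LaurentSeries K)⁻¹, inv_mem_gaussRing O hx⟩ = (gaussRed O x)⁻¹ := by
  have hx0 : (x : LaurentSeries K) ≠ 0 := by
    intro h0
    apply hx
    have : x = 0 := Subtype.ext h0
    rw [this, map_zero]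
  have h1 : x * ⟨(x : LaurentSeries K)⁻¹, inv_mem_gaussRing O hx⟩ = 1 :=
    Subtype.ext (by simp [mul_inv_cancel₀ hx0])
  have h2 := congrArg (gaussRed O) h1
  rw [map_mul, map_one] at h2
  exact eq_inv_of_mul_eq_one_right h2

theorem isUnit_of_gaussRed_ne_zero {x : gaussRing O} (hx : gaussRed O x ≠ 0) : IsUnit x := by
  have hx0 : (x : LaurentSeries K) ≠ 0 := by
    intro h0
    apply hx
    have : x = 0 := Subtype.ext h0
    rw [this, map_zero]
  exact IsUnit.of_mul_eq_one ⟨(x : LaurentSeries K)⁻¹, inv_mem_gaussRing O hx⟩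
    (Subtype.ext (by simp [mul_inv_cancel₀ hx0]))

theorem gaussRed_ne_zero_of_isUnit {x : gaussRing O} (hx : IsUnit x) : gaussRed O x ≠ 0 :=
  (hx.map (gaussRed O)).ne_zero

/-- The fraction field of `O((q))` inside `K((q))`. -/
def fracLam : Subfield (LaurentSeries K) where
  carrier := {x | ∃ a b : LaurentSeries O, b ≠ 0 ∧ x * gIota O b = gIota O a}
  zero_mem' := ⟨0, 1, one_ne_zero, by simp⟩
  one_mem' := ⟨1, 1, one_ne_zero, by simp⟩
  add_mem' := by
    rintro x y ⟨a, b, hb, h⟩ ⟨a', b', hb', h'⟩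
    refine ⟨a * b' + a' * b, b * b', mul_ne_zero hb hb', ?_⟩
    simp only [map_add, map_mul]
    rw [← h, ← h']; ring
  mul_mem' := by
    rintro x y ⟨a, b, hb, h⟩ ⟨a', b', hb', h'⟩
    refine ⟨a * a', b * b', mul_ne_zero hb hb', ?_⟩
    simp only [map_mul]
    rw [← h, ← h']; ring
  neg_mem' := by
    rintro x ⟨a, b, hb, h⟩
    exact ⟨-a, b, hb, by rw [map_neg, ← h]; ring⟩
  inv_mem' := by
    rintro x ⟨a, b, hb, h⟩
    by_cases hx : x = 0
    · subst hx
      exact ⟨0, 1, one_ne_zero, by simp⟩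
    · have ha : a ≠ 0 := by
        rintro rfl
        rw [map_zero] at h
        exact gIota_ne_zero O hb ((mul_eq_zero.mp h).resolve_left hx)
      refine ⟨b, a, ha, ?_⟩
      rw [← h]
      field_simp

theorem mem_fracLam_iff {x : LaurentSeries K} :
    x ∈ fracLam O ↔ ∃ a b : LaurentSeries O, b ≠ 0 ∧ x * gIota O b = gIota O a :=
  Iff.rfl

theorem gIota_mem_fracLam (a : LaurentSeries O) : gIota O a ∈ fracLam O :=
  ⟨a, 1, one_ne_zero, by simp⟩

theorem gaussRing_le_fracLam : gaussRing O ≤ (fracLam O).toSubring := by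
  rintro x ⟨a, b, hb, h⟩
  exact ⟨a, b, ne_zero_of_gRed_ne_zero O hb, h⟩

/-- Constants of `K` lie in `fracLam O` (as `K = Frac O`). -/
theorem C_mem_fracLam (c : K) : (HahnSeries.C c : LaurentSeries K) ∈ fracLam O := by
  rcases O.mem_or_inv_mem c with hc | hc
  · have := gIota_mem_fracLam O (HahnSeries.C (⟨c, hc⟩ : O))
    rwa [gIota_C] at this
  · by_cases h0 : c = 0
    · subst h0
      rw [map_zero]
      exact zero_mem _
    · have h1 := (fracLam O).inv_mem (gIota_mem_fracLam O (HahnSeries.C (⟨c⁻¹, hc⟩ : O)))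
      rw [gIota_C] at h1
      have h2 : (HahnSeries.C c : LaurentSeries K) = (HahnSeries.C (c⁻¹ : K))⁻¹ := by
        rw [← map_inv₀, inv_inv]
      rw [h2]
      exact h1

theorem algebraMap_mem_fracLam (c : K) : algebraMap K (LaurentSeries K) c ∈ fracLam O := by
  have : algebraMap K (LaurentSeries K) c = HahnSeries.C c := by
    rw [algebraMap_laurentSeries_eq_single, HahnSeries.C_apply]
  rw [this]
  exact C_mem_fracLam O c

section Unif2

variable [IsDiscreteValuationRing O] (π : O) (hπ : Irreducible π)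

include hπ

theorem gaussRed_gaussC_unif : gaussRed O (gaussC O π) = 0 := by
  rw [gaussRed_gaussC, residue_unif O π hπ, map_zero]

/-- The kernel of `gaussRed` is `π * gaussRing O`. -/
theorem exists_eq_mul_of_gaussRed_eq_zero {x : gaussRing O} (hx : gaussRed O x = 0) :
    ∃ y : gaussRing O, x = gaussC O π * y := by
  obtain ⟨a, b, hb, h, hx'⟩ := exists_gaussRep O x
  have ha : gRed O a = 0 := by
    rw [hx, eq_comm, div_eq_zero_iff] at hx'
    exact hx'.resolve_right hb
  obtain ⟨a', rfl⟩ := exists_eq_mul_of_gRed_eq_zero O π hπ ha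
  have hb0 : gIota O b ≠ 0 := gIota_ne_zero O (ne_zero_of_gRed_ne_zero O hb)
  have hy : gIota O a' / gIota O b ∈ gaussRing O :=
    ⟨a', b, hb, by rw [div_mul_cancel₀ _ hb0]⟩
  refine ⟨⟨_, hy⟩, Subtype.ext ?_⟩
  rw [map_mul, gIota_C] at h
  have h2 : (x : LaurentSeries K) = HahnSeries.C (π : K) * gIota O a' / gIota O b :=
    eq_div_of_mul_eq hb0 h
  rw [Subring.coe_mul, coe_gaussC, h2, mul_div_assoc]

theorem gaussRed_eq_zero_iff {x : gaussRing O} :
    gaussRed O x = 0 ↔ ∃ y : gaussRing O, x = gaussC O π * y := by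
  refine ⟨exists_eq_mul_of_gaussRed_eq_zero O π hπ, ?_⟩
  rintro ⟨y, rfl⟩
  rw [map_mul, gaussRed_gaussC_unif O π hπ, zero_mul]

/-- **Normal form**: every nonzero element of `Frac O((q))` is `π ^ e * u` with `e : ℤ` and
`u` in the Gauss ring of nonzero reduction. -/
theorem exists_zpow_mul_of_mem_fracLam {x : LaurentSeries K} (hx : x ∈ fracLam O)
    (hx0 : x ≠ 0) :
    ∃ (e : ℤ) (u : gaussRing O),
      x = (HahnSeries.C (π : K) : LaurentSeries K) ^ e * (u : LaurentSeries K) ∧
      gaussRed O u ≠ 0 := by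
  obtain ⟨a, b, hb, h⟩ := hx
  have ha : a ≠ 0 := by
    rintro rfl
    rw [map_zero] at h
    exact gIota_ne_zero O hb ((mul_eq_zero.mp h).resolve_left hx0)
  obtain ⟨m, a', rfl, ha'⟩ := exists_pow_mul_gRed_ne_zero O π hπ ha
  obtain ⟨n, b', rfl, hb'⟩ := exists_pow_mul_gRed_ne_zero O π hπ hb
  have hb0 : gIota O b' ≠ 0 := gIota_ne_zero O (ne_zero_of_gRed_ne_zero O hb')
  have hu : gIota O a' / gIota O b' ∈ gaussRing O :=
    ⟨a', b', hb', by rw [div_mul_cancel₀ _ hb0]⟩
  have hπ0 := C_unif_ne_zero O π hπ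
  refine ⟨(m : ℤ) - n, ⟨_, hu⟩, ?_, ?_⟩
  · simp only [map_mul, map_pow, gIota_C] at h
    rw [zpow_sub₀ hπ0, zpow_natCast, zpow_natCast]
    have hn0 : (HahnSeries.C (π : K) : LaurentSeries K) ^ n ≠ 0 := pow_ne_zero _ hπ0
    field_simp
    rw [← h]; ring
  · rw [gaussRed_eq O _ a' b' hb' (by simp only []; rw [div_mul_cancel₀ _ hb0])]
    exact div_ne_zero ha' hb'

/-- The Gauss ring is a valuation ring of `Frac O((q))`. -/
theorem mem_gaussRing_or_inv_mem {x : LaurentSeries K} (hx : x ∈ fracLam O) :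
    x ∈ gaussRing O ∨ x⁻¹ ∈ gaussRing O := by
  by_cases hx0 : x = 0
  · left; rw [hx0]; exact zero_mem _
  obtain ⟨e, u, hxe, hu⟩ := exists_zpow_mul_of_mem_fracLam O π hπ hx hx0
  have hπ0 := C_unif_ne_zero O π hπ
  by_cases he : 0 ≤ e
  · left
    obtain ⟨m, rfl⟩ := Int.eq_ofNat_of_zero_le he
    rw [hxe, zpow_natCast]
    exact mul_mem (pow_mem (C_mem_gaussRing O π) m) u.2
  · right
    push Not at he
    obtain ⟨m, hm⟩ : ∃ m : ℕ, e = -(m : ℤ) := ⟨(-e).toNat, by omega⟩
    rw [hxe, hm, mul_inv, zpow_neg, inv_inv, zpow_natCast]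
    exact mul_mem (pow_mem (C_mem_gaussRing O π) m) (inv_mem_gaussRing O hu)

/-- The Gauss ring is integrally closed in `Frac O((q))`, in elementary form: a monic
polynomial relation with coefficients in the Gauss ring. -/
theorem mem_gaussRing_of_monic_relation {x : LaurentSeries K} (hx : x ∈ fracLam O) (n : ℕ)
    (c : ℕ → LaurentSeries K) (hc : ∀ i, c i ∈ gaussRing O)
    (h : x ^ n + ∑ i ∈ Finset.range n, c i * x ^ i = 0) : x ∈ gaussRing O := by
  by_cases hx0 : x = 0
  · rw [hx0]; exact zero_mem _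
  obtain ⟨e, u, hxe, hu⟩ := exists_zpow_mul_of_mem_fracLam O π hπ hx hx0
  have hπ0 := C_unif_ne_zero O π hπ
  by_cases he : 0 ≤ e
  · obtain ⟨m, rfl⟩ := Int.eq_ofNat_of_zero_le he
    rw [hxe, zpow_natCast]
    exact mul_mem (pow_mem (C_mem_gaussRing O π) m) u.2
  exfalso
  push Not at he
  obtain ⟨m, hm⟩ : ∃ m : ℕ, e = -((m : ℤ) + 1) := ⟨(-e - 1).toNat, by omega⟩
  have hxu : x * (HahnSeries.C (π : K) : LaurentSeries K) ^ (m + 1) = u := by
    rw [hxe, hm, zpow_neg, ← Nat.cast_add_one, zpow_natCast]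
    field_simp
  have key : (u : LaurentSeries K) ^ n +
      ∑ i ∈ Finset.range n, c i * (HahnSeries.C (π : K) : LaurentSeries K) ^ ((m + 1) * (n - i)) *
        (u : LaurentSeries K) ^ i = 0 := by
    have h1 : (x ^ n + ∑ i ∈ Finset.range n, c i * x ^ i) *
        ((HahnSeries.C (π : K) : LaurentSeries K) ^ (m + 1)) ^ n = 0 := by rw [h, zero_mul]
    rw [add_mul, ← mul_pow, hxu, Finset.sum_mul] at h1
    rw [← h1]
    congr 1
    refine Finset.sum_congr rfl fun i hi => ?_
    have hin : i ≤ n := (Finset.mem_range.mp hi).le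
    have e1 : ((HahnSeries.C (π : K) : LaurentSeries K) ^ (m + 1)) ^ n =
        (HahnSeries.C (π : K) : LaurentSeries K) ^ ((m + 1) * (n - i)) *
          ((HahnSeries.C (π : K) : LaurentSeries K) ^ (m + 1)) ^ i := by
      rw [← pow_mul, ← pow_mul, ← pow_add, ← Nat.mul_add, Nat.sub_add_cancel hin]
    have e2 : (u : LaurentSeries K) ^ i
        = x ^ i * ((HahnSeries.C (π : K) : LaurentSeries K) ^ (m + 1)) ^ i := by
      rw [← hxu, mul_pow]
    rw [e1, e2]
    ring
  let cc : ℕ → gaussRing O := fun i => ⟨c i, hc i⟩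
  have key' : u ^ n + ∑ i ∈ Finset.range n,
      cc i * (gaussC O π) ^ ((m + 1) * (n - i)) * u ^ i = 0 := by
    apply Subtype.ext
    simp only [Subring.coe_add, Subring.coe_pow, AddSubmonoidClass.coe_finsetSum,
      Subring.coe_mul, coe_gaussC, Subring.coe_zero, cc]
    exact key
  have key'' := congrArg (gaussRed O) key'
  rw [map_add, map_sum, map_zero, map_pow] at key''
  have hsum : ∑ i ∈ Finset.range n,
      gaussRed O (cc i * (gaussC O π) ^ ((m + 1) * (n - i)) * u ^ i) = 0 := by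
    refine Finset.sum_eq_zero fun i hi => ?_
    have hin : i < n := Finset.mem_range.mp hi
    have hpos : (m + 1) * (n - i) ≠ 0 := by
      have : 0 < n - i := Nat.sub_pos_of_lt hin
      positivity
    rw [map_mul, map_mul, map_pow, gaussRed_gaussC_unif O π hπ, zero_pow hpos, mul_zero,
      zero_mul]
  rw [hsum, add_zero] at key''
  exact hu (pow_eq_zero_iff (n := n) (by
    rintro rfl
    simp at key'') |>.mp key'')

end Unif2

end Fermat.Agent.S18x.Dict.H20
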