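import Mathlib
import Fermat.Agent.S18x.Dict.H20_GaussVal

/-!
# S18, package Dict/Qepo (V7): the Gauss valuation subring of a field inside `Frac O((q))`
(helper20)

`K` a field, `O : ValuationSubring K` a discrete valuation ring, `F` a field with a ring
homomorphism `f : F →+* K((q))` whose range lies in `fracLam O = Frac O((q))` (for example an
intermediate field of `K((q)) / K` generated by series with coefficients in `O`).

* `gaussValSubring O f hf : ValuationSubring F` is the preimage of the Gauss ring;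
* `gaussValRed O f hf : gaussValSubring O f hf →+* κ((q))` is the reduction; it is a local
  homomorphism, its kernel is the maximal ideal (`ker_gaussValRed`), the units are the elements
  of nonzero reduction (`isUnit_iff_gaussValRed_ne_zero`);
* `gaussValResidue` is the induced embedding of the residue field into `κ((q))`;
* if `ϖ : F` maps to the constant `π` (a uniformiser of `O`), then the maximal ideal is
  generated by `ϖ` (`gaussVal_maximalIdeal_eq_span`), every nonzero `x : F` is `ϖ ^ e * u` with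
  `u` a unit (`gaussVal_exists_zpow_mul`), and `gaussValSubring O f hf` is a discrete valuation
  ring (`gaussVal_isDiscreteValuationRing`).
-/

set_option autoImplicit false
set_option linter.unusedSectionVars false
set_option linter.style.haveILetI false

open ModularCurve

noncomputable section

namespace Fermat.Agent.S18x.Dict.H20

variable {K : Type*} [Field K] (O : ValuationSubring K) [IsDiscreteValuationRing O]
variable {F : Type*} [Field F] (f : F →+* LaurentSeries K) (hf : ∀ x, f x ∈ fracLam O)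

/-- The Gauss valuation subring of `F`: the preimage of the Gauss ring. -/
def gaussValSubring : ValuationSubring F :=
  { (gaussRing O).comap f with
    mem_or_inv_mem' := fun x => by
      obtain ⟨π, hπ⟩ := IsDiscreteValuationRing.exists_irreducible O
      rcases mem_gaussRing_or_inv_mem O π hπ (hf x) with h | h
      · exact Or.inl h
      · refine Or.inr ?_
        show f x⁻¹ ∈ gaussRing O
        rw [map_inv₀]
        exact h }

theorem mem_gaussValSubring_iff {x : F} :
    x ∈ gaussValSubring O f hf ↔ f x ∈ gaussRing O := Iff.rfl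

/-- The reduction on the Gauss valuation subring of `F`. -/
def gaussValRed :
    gaussValSubring O f hf →+* LaurentSeries (IsLocalRing.ResidueField O) :=
  (gaussRed O).comp
    (RingHom.codRestrict (f.comp (gaussValSubring O f hf).subtype) (gaussRing O)
      (fun x => x.2))

theorem gaussValRed_apply (x : gaussValSubring O f hf) :
    gaussValRed O f hf x = gaussRed O ⟨f x, x.2⟩ := rfl

theorem gaussValRed_eq (x : gaussValSubring O f hf) (a b : LaurentSeries O)
    (hb : gRed O b ≠ 0) (h : f x * gIota O b = gIota O a) :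
    gaussValRed O f hf x = gRed O a / gRed O b :=
  gaussRed_eq O ⟨f x, x.2⟩ a b hb h

theorem isUnit_of_gaussValRed_ne_zero {x : gaussValSubring O f hf}
    (hx : gaussValRed O f hf x ≠ 0) : IsUnit x := by
  have hx0 : (x : F) ≠ 0 := by
    intro h0
    apply hx
    have : x = 0 := Subtype.ext h0
    rw [this, map_zero]
  have hinv : ((x : F))⁻¹ ∈ gaussValSubring O f hf := by
    show f ((x : F))⁻¹ ∈ gaussRing O
    rw [map_inv₀]
    exact inv_mem_gaussRing O (x := ⟨f x, x.2⟩) hx
  exact IsUnit.of_mul_eq_one ⟨((x : F))⁻¹, hinv⟩ (Subtype.ext (mul_inv_cancel₀ hx0))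

theorem isUnit_iff_gaussValRed_ne_zero {x : gaussValSubring O f hf} :
    IsUnit x ↔ gaussValRed O f hf x ≠ 0 :=
  ⟨fun h => (h.map (gaussValRed O f hf)).ne_zero, isUnit_of_gaussValRed_ne_zero O f hf⟩

theorem gaussValRed_eq_zero_iff_mem_maximalIdeal {x : gaussValSubring O f hf} :
    gaussValRed O f hf x = 0 ↔ x ∈ IsLocalRing.maximalIdeal (gaussValSubring O f hf) := by
  rw [IsLocalRing.mem_maximalIdeal, mem_nonunits_iff, isUnit_iff_gaussValRed_ne_zero O f hf,
    not_not]

theorem ker_gaussValRed :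
    RingHom.ker (gaussValRed O f hf) = IsLocalRing.maximalIdeal (gaussValSubring O f hf) := by
  ext x
  rw [RingHom.mem_ker]
  exact gaussValRed_eq_zero_iff_mem_maximalIdeal O f hf

theorem isLocalHom_gaussValRed : IsLocalHom (gaussValRed O f hf) :=
  ⟨fun _ h => isUnit_of_gaussValRed_ne_zero O f hf h.ne_zero⟩

/-- The embedding of the residue field of the Gauss valuation of `F` into `κ((q))`. -/
def gaussValResidue :
    IsLocalRing.ResidueField (gaussValSubring O f hf) →+*
      LaurentSeries (IsLocalRing.ResidueField O) :=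
  haveI := isLocalHom_gaussValRed O f hf
  IsLocalRing.ResidueField.lift (gaussValRed O f hf)

theorem gaussValResidue_residue (x : gaussValSubring O f hf) :
    gaussValResidue O f hf (IsLocalRing.residue _ x) = gaussValRed O f hf x := by
  haveI := isLocalHom_gaussValRed O f hf
  exact IsLocalRing.ResidueField.lift_residue_apply (gaussValRed O f hf) x

theorem gaussValResidue_injective : Function.Injective (gaussValResidue O f hf) :=
  (gaussValResidue O f hf).injective

/-- In terms of the valuation: `v x ≤ 1 ↔ f x` lies in the Gauss ring. -/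
theorem gaussVal_valuation_le_one_iff (x : F) :
    (gaussValSubring O f hf).valuation x ≤ 1 ↔ f x ∈ gaussRing O :=
  (gaussValSubring O f hf).valuation_le_one_iff x

/-- In terms of the valuation: `v x < 1 ↔ x` reduces to `0`. -/
theorem gaussVal_valuation_lt_one_iff (x : gaussValSubring O f hf) :
    (gaussValSubring O f hf).valuation (x : F) < 1 ↔ gaussValRed O f hf x = 0 := by
  rw [gaussValRed_eq_zero_iff_mem_maximalIdeal]
  exact ((gaussValSubring O f hf).valuation_lt_one_iff x).symm

/-- In terms of the valuation: `v x = 1 ↔ x` has nonzero reduction. -/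
theorem gaussVal_valuation_eq_one_iff (x : gaussValSubring O f hf) :
    (gaussValSubring O f hf).valuation (x : F) = 1 ↔ gaussValRed O f hf x ≠ 0 := by
  rw [← isUnit_iff_gaussValRed_ne_zero]
  exact ((gaussValSubring O f hf).valuation_eq_one_iff x).symm

/-! ### The uniformiser -/

section Unif

variable (π : O) (hπ : Irreducible π) (ϖ : F) (hϖ : f ϖ = HahnSeries.C (π : K))

include hπ hϖ

theorem unif_mem_gaussValSubring : ϖ ∈ gaussValSubring O f hf := by
  show f ϖ ∈ gaussRing O
  rw [hϖ]
  exact C_mem_gaussRing O π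

theorem unifF_ne_zero : ϖ ≠ 0 := by
  intro h
  rw [h, map_zero] at hϖ
  exact C_unif_ne_zero O π hπ hϖ.symm

theorem gaussValRed_unif :
    gaussValRed O f hf ⟨ϖ, unif_mem_gaussValSubring O f hf π hπ ϖ hϖ⟩ = 0 := by
  have h1 : (⟨f ϖ, unif_mem_gaussValSubring O f hf π hπ ϖ hϖ⟩ : gaussRing O) = gaussC O π :=
    Subtype.ext hϖ
  rw [gaussValRed_apply]
  show gaussRed O ⟨f ϖ, _⟩ = 0
  rw [h1]
  exact gaussRed_gaussC_unif O π hπ

/-- The kernel of the reduction is generated by the uniformiser. -/
theorem exists_eq_mul_of_gaussValRed_eq_zero {x : gaussValSubring O f hf}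
    (hx : gaussValRed O f hf x = 0) :
    ∃ y : gaussValSubring O f hf, (x : F) = ϖ * (y : F) := by
  obtain ⟨y, hy⟩ := exists_eq_mul_of_gaussRed_eq_zero O π hπ (x := ⟨f x, x.2⟩) hx
  have hϖ0 := unifF_ne_zero O f π hπ ϖ hϖ
  have hy' : f (x : F) = f ϖ * (y : LaurentSeries K) := by
    have := congrArg (Subtype.val) hy
    rw [hϖ]
    exact this
  have hmem : (x : F) / ϖ ∈ gaussValSubring O f hf := by
    show f ((x : F) / ϖ) ∈ gaussRing O
    have h2 : f ((x : F) / ϖ) = (y : LaurentSeries K) := by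
      rw [map_div₀, hy', mul_div_cancel_left₀]
      exact (map_ne_zero f).2 hϖ0
    rw [h2]
    exact y.2
  exact ⟨⟨_, hmem⟩, (mul_div_cancel₀ _ hϖ0).symm⟩

theorem gaussVal_maximalIdeal_eq_span :
    IsLocalRing.maximalIdeal (gaussValSubring O f hf)
      = Ideal.span {(⟨ϖ, unif_mem_gaussValSubring O f hf π hπ ϖ hϖ⟩ :
          gaussValSubring O f hf)} := by
  ext x
  rw [← gaussValRed_eq_zero_iff_mem_maximalIdeal, Ideal.mem_span_singleton]
  constructor
  · intro hx
    obtain ⟨y, hy⟩ := exists_eq_mul_of_gaussValRed_eq_zero O f hf π hπ ϖ hϖ hx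
    exact ⟨y, Subtype.ext hy⟩
  · rintro ⟨y, rfl⟩
    rw [map_mul, gaussValRed_unif O f hf π hπ ϖ hϖ, zero_mul]

/-- **Normal form in `F`**: every nonzero element is `ϖ ^ e * u` with `u` a unit of the Gauss
valuation subring. -/
theorem gaussVal_exists_zpow_mul {x : F} (hx : x ≠ 0) :
    ∃ (e : ℤ) (u : gaussValSubring O f hf), x = ϖ ^ e * (u : F) ∧
      gaussValRed O f hf u ≠ 0 := by
  have hfx : f x ≠ 0 := (map_ne_zero f).2 hx
  obtain ⟨e, u, hxe, hu⟩ := exists_zpow_mul_of_mem_fracLam O π hπ (hf x) hfx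
  have hϖ0 := unifF_ne_zero O f π hπ ϖ hϖ
  have h1 : f (x / ϖ ^ e) = (u : LaurentSeries K) := by
    rw [map_div₀, map_zpow₀, hϖ, hxe, mul_div_cancel_left₀]
    exact zpow_ne_zero _ (C_unif_ne_zero O π hπ)
  have hmem : x / ϖ ^ e ∈ gaussValSubring O f hf := by
    show f (x / ϖ ^ e) ∈ gaussRing O
    rw [h1]
    exact u.2
  refine ⟨e, ⟨_, hmem⟩, (mul_div_cancel₀ _ (zpow_ne_zero _ hϖ0)).symm, ?_⟩
  rw [gaussValRed_apply]
  have h2 : (⟨f (x / ϖ ^ e), hmem⟩ : gaussRing O) = u := Subtype.ext h1
  show gaussRed O ⟨f (x / ϖ ^ e), _⟩ ≠ 0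
  rw [h2]
  exact hu

/-- Normal form for elements of the Gauss valuation subring: the exponent is a natural
number. -/
theorem gaussVal_exists_pow_mul {x : gaussValSubring O f hf} (hx : x ≠ 0) :
    ∃ (n : ℕ) (u : gaussValSubring O f hf),
      x = ⟨ϖ, unif_mem_gaussValSubring O f hf π hπ ϖ hϖ⟩ ^ n * u ∧
      gaussValRed O f hf u ≠ 0 := by
  have hx0 : (x : F) ≠ 0 := fun h => hx (Subtype.ext h)
  obtain ⟨e, u, hxe, hu⟩ := gaussVal_exists_zpow_mul O f hf π hπ ϖ hϖ hx0
  have hϖ0 := unifF_ne_zero O f π hπ ϖ hϖ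
  by_cases he : 0 ≤ e
  · obtain ⟨n, rfl⟩ := Int.eq_ofNat_of_zero_le he
    refine ⟨n, u, Subtype.ext ?_, hu⟩
    rw [hxe, zpow_natCast]
    rfl
  · exfalso
    push Not at he
    obtain ⟨m, hm⟩ : ∃ m : ℕ, e = -((m : ℤ) + 1) := ⟨(-e - 1).toNat, by omega⟩
    have h1 : (u : F) = (x : F) * ϖ ^ (m + 1) := by
      rw [hxe, hm, zpow_neg, ← Nat.cast_add_one, zpow_natCast]
      field_simp
    have h2 : u = x * ⟨ϖ, unif_mem_gaussValSubring O f hf π hπ ϖ hϖ⟩ ^ (m + 1) :=
      Subtype.ext h1
    apply hu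
    rw [h2, map_mul, map_pow, gaussValRed_unif O f hf π hπ ϖ hϖ, zero_pow (Nat.succ_ne_zero m),
      mul_zero]

theorem gaussVal_irreducible_unif :
    Irreducible (⟨ϖ, unif_mem_gaussValSubring O f hf π hπ ϖ hϖ⟩ : gaussValSubring O f hf) := by
  have hϖ0 := unifF_ne_zero O f π hπ ϖ hϖ
  have hred := gaussValRed_unif O f hf π hπ ϖ hϖ
  refine ⟨fun hu => (isUnit_iff_gaussValRed_ne_zero O f hf).1 hu hred, ?_⟩
  intro a b hab
  by_contra hcon
  push Not at hcon
  obtain ⟨ha, hb⟩ := hcon
  have ha' : gaussValRed O f hf a = 0 := by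
    by_contra h
    exact ha (isUnit_of_gaussValRed_ne_zero O f hf h)
  have hb' : gaussValRed O f hf b = 0 := by
    by_contra h
    exact hb (isUnit_of_gaussValRed_ne_zero O f hf h)
  obtain ⟨a', ha''⟩ := exists_eq_mul_of_gaussValRed_eq_zero O f hf π hπ ϖ hϖ ha'
  obtain ⟨b', hb''⟩ := exists_eq_mul_of_gaussValRed_eq_zero O f hf π hπ ϖ hϖ hb'
  have h1 : ϖ = (a : F) * (b : F) := congrArg Subtype.val hab
  rw [ha'', hb''] at h1
  have h2 : (1 : F) = ϖ * ((a' : F) * (b' : F)) := by
    apply mul_left_cancel₀ hϖ0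
    rw [mul_one]
    calc ϖ = ϖ * (a' : F) * (ϖ * (b' : F)) := h1
      _ = ϖ * (ϖ * ((a' : F) * (b' : F))) := by ring
  have h3 : (1 : gaussValSubring O f hf)
      = ⟨ϖ, unif_mem_gaussValSubring O f hf π hπ ϖ hϖ⟩ * (a' * b') := Subtype.ext h2
  have h4 := congrArg (gaussValRed O f hf) h3
  rw [map_one, map_mul, hred, zero_mul] at h4
  exact one_ne_zero h4

/-- The Gauss valuation subring of `F` is a discrete valuation ring. -/
theorem gaussVal_isDiscreteValuationRing :
    IsDiscreteValuationRing (gaussValSubring O f hf) := by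
  apply IsDiscreteValuationRing.ofHasUnitMulPowIrreducibleFactorization
  refine ⟨⟨ϖ, unif_mem_gaussValSubring O f hf π hπ ϖ hϖ⟩,
    gaussVal_irreducible_unif O f hf π hπ ϖ hϖ, ?_⟩
  intro x hx
  obtain ⟨n, u, hxu, hu⟩ := gaussVal_exists_pow_mul O f hf π hπ ϖ hϖ hx
  obtain ⟨u', hu'⟩ := isUnit_of_gaussValRed_ne_zero O f hf hu
  exact ⟨n, u', by rw [hxu, hu']⟩

end Unif

end Fermat.Agent.S18x.Dict.H20
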