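import Mathlib
import Fermat.Prelude.Def_ModularCurve_X0ModL
import Fermat.Agent.S18x.Dict.H20_GaussField

/-!
# S18, package Dict/Qepo (F0)/(F1): the Gauss valuation of the modular function field
(helper20)

`K` a field, `O : ValuationSubring K` a discrete valuation ring, `M ≥ 1`,
`F_M = modularFunctionFieldFullC K M = K(j(q^d) : d ∣ M) ⊆ K((q))`.

* `modularFunctionFieldFullC_le_fracLam`: `F_M ⊆ Frac O((q))`;
* `gaussValM O M : ValuationSubring F_M`, the Gauss valuation subring of `F_M`, with its
  reduction `gaussRedM O M : gaussValM O M →+* κ((q))`;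
* `jd_mem_gaussRing`, `gaussRed_jd`: `j(q^d)` lies in the Gauss ring and reduces to `j(q^d)`
  over `κ`.
-/

set_option autoImplicit false
set_option linter.unusedSectionVars false
set_option linter.style.haveILetI false

open ModularCurve

noncomputable section

namespace Fermat.Agent.S18x.Dict.H20

variable {K : Type*} [Field K] (O : ValuationSubring K)

/-- `j(q^d)` over `K` comes from `O((q))`. -/
theorem gIota_qExpand_jqModC (d : ℕ) [NeZero d] :
    gIota O (qExpand O d (jqModC O)) = qExpand K d (jqModC K) := by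
  show coeffMap (O.subtype : O →+* K) (qExpand O d (jqModC O)) = _
  rw [coeffMap_qExpand, coeffMap_jqModC]

theorem gRed_qExpand_jqModC (d : ℕ) [NeZero d] :
    gRed O (qExpand O d (jqModC O))
      = qExpand (IsLocalRing.ResidueField O) d (jqModC (IsLocalRing.ResidueField O)) := by
  show coeffMap (IsLocalRing.residue O) (qExpand O d (jqModC O)) = _
  rw [coeffMap_qExpand, coeffMap_jqModC]

theorem jd_mem_gaussRing (d : ℕ) [NeZero d] : qExpand K d (jqModC K) ∈ gaussRing O := by
  rw [← gIota_qExpand_jqModC O d]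
  exact coeffMap_subtype_mem_gaussRing O _

theorem gaussRed_jd (d : ℕ) [NeZero d] :
    gaussRed O ⟨qExpand K d (jqModC K), jd_mem_gaussRing O d⟩
      = qExpand (IsLocalRing.ResidueField O) d (jqModC (IsLocalRing.ResidueField O)) := by
  rw [gaussRed_eq O _ (qExpand O d (jqModC O)) 1 (by rw [map_one]; exact one_ne_zero)
    (by rw [map_one, mul_one]; exact (gIota_qExpand_jqModC O d).symm), map_one, div_one]
  exact gRed_qExpand_jqModC O d

theorem j_mem_gaussRing : jqModC K ∈ gaussRing O := by
  have := jd_mem_gaussRing O 1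
  rwa [qExpand_one_apply] at this

theorem gaussRed_j :
    gaussRed O ⟨jqModC K, j_mem_gaussRing O⟩ = jqModC (IsLocalRing.ResidueField O) := by
  have h1 : (⟨jqModC K, j_mem_gaussRing O⟩ : gaussRing O)
      = ⟨qExpand K 1 (jqModC K), jd_mem_gaussRing O 1⟩ :=
    Subtype.ext (qExpand_one_apply _).symm
  rw [h1, gaussRed_jd, qExpand_one_apply]

/-- `Frac O((q))` as an intermediate field of `K((q)) / K`. -/
def fracLamI : IntermediateField K (LaurentSeries K) where
  toSubalgebra :=
    { (fracLam O).toSubring with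
      algebraMap_mem' := fun c => algebraMap_mem_fracLam O c }
  inv_mem' := fun _ hx => (fracLam O).inv_mem hx

theorem mem_fracLamI_iff {x : LaurentSeries K} : x ∈ fracLamI O ↔ x ∈ fracLam O := Iff.rfl

/-- **(F0)** The modular function field lies in `Frac O((q))`. -/
theorem modularFunctionFieldFullC_le_fracLamI (M : ℕ) :
    modularFunctionFieldFullC K M ≤ fracLamI O := by
  rw [modularFunctionFieldFullC, IntermediateField.adjoin_le_iff]
  rintro x ⟨d, hne, _, rfl⟩
  haveI := hne
  exact gaussRing_le_fracLam O (jd_mem_gaussRing O d)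

theorem mem_fracLam_of_mem_full (M : ℕ) {x : LaurentSeries K}
    (hx : x ∈ modularFunctionFieldFullC K M) : x ∈ fracLam O :=
  modularFunctionFieldFullC_le_fracLamI O M hx

section DVR

variable [IsDiscreteValuationRing O] (M : ℕ)

/-- The inclusion `F_M → K((q))` as a ring homomorphism. -/
abbrev inclM : ↥(modularFunctionFieldFullC K M) →+* LaurentSeries K :=
  algebraMap ↥(modularFunctionFieldFullC K M) (LaurentSeries K)

theorem inclM_mem_fracLam (x : ↥(modularFunctionFieldFullC K M)) :
    inclM (K := K) M x ∈ fracLam O :=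
  mem_fracLam_of_mem_full O M x.2

/-- **The Gauss valuation subring of the modular function field `F_M`.** -/
def gaussValM : ValuationSubring ↥(modularFunctionFieldFullC K M) :=
  gaussValSubring O (inclM M) (inclM_mem_fracLam O M)

theorem mem_gaussValM_iff {x : ↥(modularFunctionFieldFullC K M)} :
    x ∈ gaussValM O M ↔ (x : LaurentSeries K) ∈ gaussRing O := Iff.rfl

/-- The reduction `F_M ∩ V → κ((q))`. -/
def gaussRedM : gaussValM O M →+* LaurentSeries (IsLocalRing.ResidueField O) :=
  gaussValRed O (inclM M) (inclM_mem_fracLam O M)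

theorem gaussRedM_apply (x : gaussValM O M) :
    gaussRedM O M x = gaussRed O ⟨((x : ↥(modularFunctionFieldFullC K M)) : LaurentSeries K),
      x.2⟩ := rfl

theorem isUnit_iff_gaussRedM_ne_zero {x : gaussValM O M} :
    IsUnit x ↔ gaussRedM O M x ≠ 0 :=
  isUnit_iff_gaussValRed_ne_zero O (inclM M) (inclM_mem_fracLam O M)

theorem ker_gaussRedM :
    RingHom.ker (gaussRedM O M) = IsLocalRing.maximalIdeal (gaussValM O M) :=
  ker_gaussValRed O (inclM M) (inclM_mem_fracLam O M)

/-- The uniformiser of `O` inside `F_M`. -/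
def unifM (π : O) : ↥(modularFunctionFieldFullC K M) :=
  algebraMap K ↥(modularFunctionFieldFullC K M) (π : K)

theorem inclM_unifM (π : O) :
    inclM (K := K) M (unifM O M π) = HahnSeries.C (π : K) := by
  show algebraMap K (LaurentSeries K) (π : K) = _
  rw [algebraMap_laurentSeries_eq_single, HahnSeries.C_apply]

theorem gaussValM_isDiscreteValuationRing : IsDiscreteValuationRing (gaussValM O M) := by
  obtain ⟨π, hπ⟩ := IsDiscreteValuationRing.exists_irreducible O
  exact gaussVal_isDiscreteValuationRing O (inclM M) (inclM_mem_fracLam O M) π hπ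
    (unifM O M π) (inclM_unifM O M π)

/-- Normal form in `F_M`. -/
theorem gaussValM_exists_zpow_mul (π : O) (hπ : Irreducible π)
    {x : ↥(modularFunctionFieldFullC K M)} (hx : x ≠ 0) :
    ∃ (e : ℤ) (u : gaussValM O M), x = unifM O M π ^ e * (u : ↥(modularFunctionFieldFullC K M)) ∧
      gaussRedM O M u ≠ 0 :=
  gaussVal_exists_zpow_mul O (inclM M) (inclM_mem_fracLam O M) π hπ
    (unifM O M π) (inclM_unifM O M π) hx

/-- The kernel of the reduction on `F_M ∩ V` is generated by the uniformiser. -/
theorem exists_eq_mul_of_gaussRedM_eq_zero (π : O) (hπ : Irreducible π) {x : gaussValM O M}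
    (hx : gaussRedM O M x = 0) :
    ∃ y : gaussValM O M, (x : ↥(modularFunctionFieldFullC K M))
      = unifM O M π * (y : ↥(modularFunctionFieldFullC K M)) :=
  exists_eq_mul_of_gaussValRed_eq_zero O (inclM M) (inclM_mem_fracLam O M) π hπ
    (unifM O M π) (inclM_unifM O M π) hx

/-- `j(q^d)`, `d ∣ M`, as an element of the Gauss valuation subring of `F_M`. -/
def jdM (d : ℕ) [NeZero d] (hd : d ∣ M) : gaussValM O M :=
  ⟨⟨qExpand K d (jqModC K), jqModCd_mem_full K M hd⟩, jd_mem_gaussRing O d⟩

theorem gaussRedM_jdM (d : ℕ) [NeZero d] (hd : d ∣ M) :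
    gaussRedM O M (jdM O M d hd)
      = qExpand (IsLocalRing.ResidueField O) d (jqModC (IsLocalRing.ResidueField O)) :=
  gaussRed_jd O d

/-- `j` as an element of the Gauss valuation subring of `F_M`. -/
def jM : gaussValM O M :=
  ⟨⟨jqModC K, jqModC_mem_full K M⟩, j_mem_gaussRing O⟩

theorem gaussRedM_jM : gaussRedM O M (jM O M) = jqModC (IsLocalRing.ResidueField O) :=
  gaussRed_j O

end DVR

end Fermat.Agent.S18x.Dict.H20
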