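import Mathlib
import Fermat.Prelude.Def_FLTPrelim_Ramification

/-!
# S18 [DICT] (D1): the trace of a valuation subring on a number field is a DVR

`L` a field, `A : ValuationSubring L` lying over the prime `ℓ` (`A.LiesOverPrime ℓ`, i.e. `ℓ` is
a non-unit of `A`), `K` a number field with `[Algebra K L]`.  Then
`A.comap (algebraMap K L) : ValuationSubring K` is a discrete valuation ring, its residue field
has characteristic `ℓ`, every integer prime to `ℓ` is a unit in it, and its residue field embeds
into the residue field of `A` compatibly with the residue maps.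
-/

set_option autoImplicit false

open IsDedekindDomain NumberField

namespace Fermat.Agent.S18x.Dict.H23

section Comap

variable {K L : Type*} [Field K] [Field L] [Algebra K L] (A : ValuationSubring L)

theorem h23_mem_comap_nonunits_iff (x : K) :
    x ∈ (A.comap (algebraMap K L)).nonunits ↔ algebraMap K L x ∈ A.nonunits := by
  rw [ValuationSubring.mem_nonunits_iff_or, ValuationSubring.mem_nonunits_iff_or,
    ValuationSubring.mem_comap, map_inv₀, map_eq_zero]

theorem h23_liesOver_comap {ℓ : ℕ} (hA : A.LiesOverPrime ℓ) :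
    (A.comap (algebraMap K L)).LiesOverPrime ℓ := by
  unfold ValuationSubring.LiesOverPrime at hA ⊢
  rw [h23_mem_comap_nonunits_iff, map_natCast]
  exact hA

/-- The inclusion `A ∩ K → A`. -/
def h23_incl : (A.comap (algebraMap K L)) →+* A where
  toFun x := ⟨algebraMap K L x, x.2⟩
  map_one' := by ext; simp
  map_mul' x y := by ext; simp
  map_zero' := by ext; simp
  map_add' x y := by ext; simp

@[simp]
theorem h23_incl_coe (x : A.comap (algebraMap K L)) :
    ((h23_incl A x : A) : L) = algebraMap K L (x : K) := rfl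

theorem h23_incl_injective : Function.Injective (h23_incl (K := K) A) := by
  intro x y h
  have h' := congrArg (fun a : A => (a : L)) h
  simp only [h23_incl_coe] at h'
  exact Subtype.ext ((algebraMap K L).injective h')

theorem h23_isUnit_iff (x : A.comap (algebraMap K L)) :
    IsUnit (h23_incl A x) ↔ IsUnit x := by
  rw [← not_iff_not, ← mem_nonunits_iff, ← mem_nonunits_iff, ← IsLocalRing.mem_maximalIdeal,
    ← IsLocalRing.mem_maximalIdeal, ← ValuationSubring.coe_mem_nonunits_iff,
    ← ValuationSubring.coe_mem_nonunits_iff, h23_incl_coe, h23_mem_comap_nonunits_iff]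

instance h23_isLocalHom_incl : IsLocalHom (h23_incl (K := K) A) :=
  ⟨fun x hx => (h23_isUnit_iff A x).1 hx⟩

/-- The induced embedding of residue fields. -/
noncomputable def h23_resEmb :
    IsLocalRing.ResidueField (A.comap (algebraMap K L)) →+* IsLocalRing.ResidueField A :=
  IsLocalRing.ResidueField.map (h23_incl A)

theorem h23_resEmb_residue (x : A.comap (algebraMap K L)) :
    h23_resEmb A (IsLocalRing.residue _ x) = IsLocalRing.residue A (h23_incl A x) :=
  IsLocalRing.ResidueField.map_residue _ _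

theorem h23_resEmb_injective : Function.Injective (h23_resEmb (K := K) A) :=
  (h23_resEmb A).injective

section Char

variable {ℓ : ℕ}

/-- If `ℓ` is a non-unit of the valuation subring `V`, it lies in its maximal ideal. -/
theorem h23_natCast_mem_maximalIdeal' (V : ValuationSubring K) (hV : V.LiesOverPrime ℓ) :
    ((ℓ : ℕ) : V) ∈ IsLocalRing.maximalIdeal V := by
  rw [← ValuationSubring.coe_mem_nonunits_iff]
  unfold ValuationSubring.LiesOverPrime at hV
  exact_mod_cast hV

/-- The residue field of a valuation subring lying over `ℓ` has characteristic `ℓ`. -/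
theorem h23_charP_residueField' (hℓ : ℓ.Prime) (V : ValuationSubring K)
    (hV : V.LiesOverPrime ℓ) : CharP (IsLocalRing.ResidueField V) ℓ := by
  rw [CharP.charP_iff_prime_eq_zero hℓ]
  have h := h23_natCast_mem_maximalIdeal' V hV
  rw [← IsLocalRing.residue_eq_zero_iff, map_natCast] at h
  exact h

/-- Integers prime to `ℓ` are units of a valuation subring lying over `ℓ`. -/
theorem h23_isUnit_natCast' (hℓ : ℓ.Prime) (V : ValuationSubring K)
    (hV : V.LiesOverPrime ℓ) (m : ℕ) (hm : ¬ ℓ ∣ m) : IsUnit ((m : ℕ) : V) := by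
  by_contra hu
  have hmem : ((m : ℕ) : V) ∈ IsLocalRing.maximalIdeal V := by
    rw [IsLocalRing.mem_maximalIdeal]
    exact hu
  have hl := h23_natCast_mem_maximalIdeal' V hV
  have hcop : IsCoprime (ℓ : ℤ) (m : ℤ) :=
    Nat.isCoprime_iff_coprime.2 ((Nat.Prime.coprime_iff_not_dvd hℓ).2 hm)
  obtain ⟨a, b, hab⟩ := hcop
  have h1 : (1 : V) ∈ IsLocalRing.maximalIdeal V := by
    have h2 : ((a : ℤ) : V) * ((ℓ : ℕ) : V) + ((b : ℤ) : V) * ((m : ℕ) : V) = 1 := by
      have := congrArg (fun x : ℤ => (x : V)) hab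
      push_cast at this
      exact this
    rw [← h2]
    exact Ideal.add_mem _ (Ideal.mul_mem_left _ _ hl) (Ideal.mul_mem_left _ _ hmem)
  exact (Ideal.ne_top_iff_one _).1 (IsLocalRing.maximalIdeal.isMaximal V).ne_top h1

/-- Element form: the inverse of an integer prime to `ℓ` lies in the valuation subring. -/
theorem h23_inv_natCast_mem' (hℓ : ℓ.Prime) (V : ValuationSubring K)
    (hV : V.LiesOverPrime ℓ) (m : ℕ) (hm : ¬ ℓ ∣ m) : ((m : ℕ) : K)⁻¹ ∈ V := by
  obtain ⟨u, hu⟩ := h23_isUnit_natCast' hℓ V hV m hm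
  have h1 : ((u⁻¹ : Vˣ) : V) * ((m : ℕ) : V) = 1 := by
    rw [← hu]
    exact Units.inv_mul u
  have h2 : (((u⁻¹ : Vˣ) : V) : K) * ((m : ℕ) : K) = 1 := by
    have := congrArg (fun x : V => (x : K)) h1
    push_cast at this
    exact this
  rw [← eq_inv_of_mul_eq_one_left h2]
  exact ((u⁻¹ : Vˣ) : V).2

end Char

section CharComap

variable {ℓ : ℕ}

/-- **(D1b)** `ℓ` lies in the maximal ideal of `A ∩ K`. -/
theorem h23_natCast_mem_maximalIdeal (hA : A.LiesOverPrime ℓ) :
    ((ℓ : ℕ) : A.comap (algebraMap K L)) ∈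
      IsLocalRing.maximalIdeal (A.comap (algebraMap K L)) :=
  h23_natCast_mem_maximalIdeal' _ (h23_liesOver_comap A hA)

/-- **(D1b)** the residue field of `A ∩ K` has characteristic `ℓ`. -/
theorem h23_charP_residueField (hℓ : ℓ.Prime) (hA : A.LiesOverPrime ℓ) :
    CharP (IsLocalRing.ResidueField (A.comap (algebraMap K L))) ℓ :=
  h23_charP_residueField' hℓ _ (h23_liesOver_comap A hA)

/-- **(D1b)** integers prime to `ℓ` are units of `A ∩ K`. -/
theorem h23_isUnit_natCast (hℓ : ℓ.Prime) (hA : A.LiesOverPrime ℓ) (m : ℕ) (hm : ¬ ℓ ∣ m) :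
    IsUnit ((m : ℕ) : A.comap (algebraMap K L)) :=
  h23_isUnit_natCast' hℓ _ (h23_liesOver_comap A hA) m hm

/-- **(D1b)**, element form. -/
theorem h23_inv_natCast_mem (hℓ : ℓ.Prime) (hA : A.LiesOverPrime ℓ) (m : ℕ) (hm : ¬ ℓ ∣ m) :
    ((m : ℕ) : K)⁻¹ ∈ A.comap (algebraMap K L) :=
  h23_inv_natCast_mem' hℓ _ (h23_liesOver_comap A hA) m hm

end CharComap

end Comap

section NumberField

variable {K L : Type*} [Field K] [NumberField K] [Field L] [Algebra K L] (A : ValuationSubring L)

omit [NumberField K] in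
/-- Algebraic integers of `K` lie in `A ∩ K`. -/
theorem h23_integral_mem (x : K) (hx : IsIntegral ℤ x) : x ∈ A.comap (algebraMap K L) := by
  rw [ValuationSubring.mem_comap]
  have h1 : IsIntegral ℤ (algebraMap K L x) := hx.map (algebraMap K L).toIntAlgHom
  have h2 : IsIntegral A (algebraMap K L x) := h1.tower_top
  obtain ⟨y, hy⟩ := IsIntegrallyClosed.isIntegral_iff.1 h2
  rw [← hy]
  exact y.2

/-- The map from the ring of integers of `K` to `A ∩ K`. -/
noncomputable def h23_toOK : 𝓞 K →+* (A.comap (algebraMap K L)) :=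
  (algebraMap (𝓞 K) K).codRestrict (A.comap (algebraMap K L))
    (fun x => h23_integral_mem A _ x.2)

omit [NumberField K] in
@[simp]
theorem h23_toOK_coe (x : 𝓞 K) : ((h23_toOK A x : A.comap (algebraMap K L)) : K) = (x : K) := rfl

variable {ℓ : ℕ} [hℓ : Fact ℓ.Prime]

theorem h23_natCast_ne_zero : ((ℓ : ℕ) : K) ≠ 0 :=
  Nat.cast_ne_zero.2 hℓ.out.ne_zero

/-- `A ∩ K` is not the whole field. -/
theorem h23_comap_ne_top (hA : A.LiesOverPrime ℓ) : A.comap (algebraMap K L) ≠ ⊤ := by
  intro h
  have h1 := h23_liesOver_comap (K := K) A hA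
  unfold ValuationSubring.LiesOverPrime at h1
  rw [ValuationSubring.mem_nonunits_iff_or] at h1
  rcases h1 with h1 | h1
  · exact h23_natCast_ne_zero (K := K) (ℓ := ℓ) h1
  · exact h1 (by rw [h]; exact ValuationSubring.mem_top _)

/-- The prime of the ring of integers of `K` cut out by `A`. -/
noncomputable def h23_prime (hA : A.LiesOverPrime ℓ) : HeightOneSpectrum (𝓞 K) where
  asIdeal := (IsLocalRing.maximalIdeal (A.comap (algebraMap K L))).comap (h23_toOK A)
  isPrime := Ideal.comap_isPrime _ _
  ne_bot := by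
    intro h
    have hmem : ((ℓ : ℕ) : 𝓞 K) ∈
        (IsLocalRing.maximalIdeal (A.comap (algebraMap K L))).comap (h23_toOK (K := K) A) := by
      rw [Ideal.mem_comap, map_natCast, ← ValuationSubring.coe_mem_nonunits_iff]
      have h1 := h23_liesOver_comap (K := K) A hA
      unfold ValuationSubring.LiesOverPrime at h1
      exact_mod_cast h1
    rw [h, Ideal.mem_bot] at hmem
    exact (Nat.cast_ne_zero.2 hℓ.out.ne_zero) hmem

theorem h23_mem_prime_iff (hA : A.LiesOverPrime ℓ) (x : 𝓞 K) :
    x ∈ (h23_prime (K := K) A hA).asIdeal ↔ (x : K) ∈ (A.comap (algebraMap K L)).nonunits := by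
  show h23_toOK A x ∈ IsLocalRing.maximalIdeal _ ↔ _
  rw [← ValuationSubring.coe_mem_nonunits_iff, h23_toOK_coe]

omit [NumberField K] in
theorem h23_inv_mem_of_not_mem_nonunits (V : ValuationSubring K) (x : K)
    (hx : x ∉ V.nonunits) : x⁻¹ ∈ V := by
  rw [ValuationSubring.mem_nonunits_iff_or, not_or, not_not] at hx
  exact hx.2

open scoped algebraMap in
theorem h23_atPrime_le (hA : A.LiesOverPrime ℓ) :
    HeightOneSpectrum.valuationSubringAtPrime K (h23_prime (K := K) A hA) ≤ A.comap (algebraMap K L) := by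
  rintro x ⟨a, s, hs, rfl⟩
  refine mul_mem (h23_integral_mem A _ a.2) ?_
  apply h23_inv_mem_of_not_mem_nonunits
  intro h
  exact hs ((h23_mem_prime_iff A hA s).2 h)

/-- `A ∩ K` is the localisation of the ring of integers at the prime cut out by `A`. -/
theorem h23_atPrime_eq (hA : A.LiesOverPrime ℓ) :
    HeightOneSpectrum.valuationSubringAtPrime K (h23_prime (K := K) A hA) = A.comap (algebraMap K L) :=
  ValuationSubring.eq_of_le_of_ne_top _ (h23_atPrime_le A hA) (h23_comap_ne_top A hA)

/-- **(D1a)** `A ∩ K` is a discrete valuation ring. -/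
theorem h23_isDVR (hA : A.LiesOverPrime ℓ) :
    IsDiscreteValuationRing (A.comap (algebraMap K L)) := by
  rw [← h23_atPrime_eq A hA]
  exact IsLocalization.AtPrime.isDiscreteValuationRing_of_dedekind_domain (𝓞 K)
    (h23_prime (K := K) A hA).ne_bot _

/-- **(D1e)** the residue field of `A ∩ K` is finite. -/
theorem h23_finite_residueField (hA : A.LiesOverPrime ℓ) :
    Finite (IsLocalRing.ResidueField (A.comap (algebraMap K L))) := by
  rw [← h23_atPrime_eq A hA]
  have hmax : (h23_prime (K := K) A hA).asIdeal.IsMaximal := (h23_prime (K := K) A hA).isMaximal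
  have hfin : Finite (𝓞 K ⧸ (h23_prime (K := K) A hA).asIdeal) :=
    (h23_prime (K := K) A hA).asIdeal.finiteQuotientOfFreeOfNeBot
      (h23_prime (K := K) A hA).ne_bot
  exact Finite.of_equiv _
    (IsLocalization.AtPrime.equivQuotMaximalIdeal (h23_prime (K := K) A hA).asIdeal
      (HeightOneSpectrum.valuationSubringAtPrime K (h23_prime (K := K) A hA))).toEquiv

/-- **(D1c)** a uniformiser of `A ∩ K`. -/
theorem h23_exists_uniformizer (hA : A.LiesOverPrime ℓ) :
    ∃ π : A.comap (algebraMap K L), Irreducible π ∧ π ≠ 0 ∧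
      IsLocalRing.maximalIdeal (A.comap (algebraMap K L)) = Ideal.span {π} := by
  have := h23_isDVR (K := K) A hA
  obtain ⟨π, hπ⟩ := IsDiscreteValuationRing.exists_irreducible (A.comap (algebraMap K L))
  exact ⟨π, hπ, hπ.ne_zero, hπ.maximalIdeal_eq⟩

/-- **(D1c)**, element form: every nonzero element of `K` is a unit of `A ∩ K` times a power of
the uniformiser. -/
theorem h23_exists_eq_unit_mul_zpow (hA : A.LiesOverPrime ℓ)
    (π : A.comap (algebraMap K L)) (hπ : Irreducible π) (x : K) (hx : x ≠ 0) :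
    ∃ (n : ℤ) (u : (A.comap (algebraMap K L))ˣ), x = ((u : A.comap (algebraMap K L)) : K) *
      (π : K) ^ n := by
  have := h23_isDVR (K := K) A hA
  have key : ∀ y : A.comap (algebraMap K L), y ≠ 0 →
      ∃ (n : ℕ) (u : (A.comap (algebraMap K L))ˣ), y = u * π ^ n := by
    intro y hy
    obtain ⟨n, u, hu⟩ := IsDiscreteValuationRing.eq_unit_mul_pow_irreducible hy hπ
    exact ⟨n, u, hu⟩
  have hπ0 : (π : K) ≠ 0 := by
    intro h
    exact hπ.ne_zero (Subtype.ext h)
  rcases (A.comap (algebraMap K L)).mem_or_inv_mem x with hmem | hmem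
  · obtain ⟨n, u, hu⟩ := key ⟨x, hmem⟩ (fun h => hx (congrArg Subtype.val h))
    refine ⟨n, u, ?_⟩
    have := congrArg (fun y : A.comap (algebraMap K L) => (y : K)) hu
    simpa using this
  · obtain ⟨n, u, hu⟩ := key ⟨x⁻¹, hmem⟩
      (fun h => inv_ne_zero hx (congrArg Subtype.val h))
    refine ⟨-n, u⁻¹, ?_⟩
    have h1 := congrArg (fun y : A.comap (algebraMap K L) => (y : K)) hu
    simp only [MulMemClass.coe_mul, SubmonoidClass.coe_pow] at h1
    have hu0 : ((u : A.comap (algebraMap K L)) : K) ≠ 0 := by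
      intro h
      exact u.ne_zero (Subtype.ext h)
    have h2 : (((u⁻¹ : (A.comap (algebraMap K L))ˣ) : A.comap (algebraMap K L)) : K) =
        ((u : A.comap (algebraMap K L)) : K)⁻¹ := by
      have h3 : (((u⁻¹ : (A.comap (algebraMap K L))ˣ) : A.comap (algebraMap K L)) : K) *
          ((u : A.comap (algebraMap K L)) : K) = 1 := by
        rw [← MulMemClass.coe_mul, Units.inv_mul]
        rfl
      exact eq_inv_of_mul_eq_one_left h3
    rw [h2, zpow_neg, zpow_natCast, ← mul_inv, ← h1, inv_inv]

end NumberField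

section Intermediate

variable {L : Type*} [Field L] [Algebra ℚ L] (A : ValuationSubring L)

/-- An intermediate field of `L / ℚ` which is finite over `ℚ` is a number field. -/
theorem h23_numberField (K : IntermediateField ℚ L) [h : FiniteDimensional ℚ K] :
    NumberField K := by
  have hc : CharZero K := charZero_of_injective_algebraMap (algebraMap ℚ K).injective
  refine { to_charZero := hc, to_finiteDimensional := ?_ }
  convert h
  exact Subsingleton.elim _ _

/-- **(D1a)**, intermediate-field form. -/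
theorem h23_isDVR_intermediate {ℓ : ℕ} (hℓ : ℓ.Prime) (hA : A.LiesOverPrime ℓ)
    (K : IntermediateField ℚ L) [FiniteDimensional ℚ K] :
    IsDiscreteValuationRing (A.comap (algebraMap K L)) := by
  have := h23_numberField K
  have : Fact ℓ.Prime := ⟨hℓ⟩
  exact h23_isDVR A hA

/-- **(D1c)**, intermediate-field form. -/
theorem h23_exists_uniformizer_intermediate {ℓ : ℕ} (hℓ : ℓ.Prime) (hA : A.LiesOverPrime ℓ)
    (K : IntermediateField ℚ L) [FiniteDimensional ℚ K] :
    ∃ π : A.comap (algebraMap K L), Irreducible π ∧ π ≠ 0 ∧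
      IsLocalRing.maximalIdeal (A.comap (algebraMap K L)) = Ideal.span {π} := by
  have := h23_numberField K
  have : Fact ℓ.Prime := ⟨hℓ⟩
  exact h23_exists_uniformizer A hA

/-- **(D1e)**, intermediate-field form. -/
theorem h23_finite_residueField_intermediate {ℓ : ℕ} (hℓ : ℓ.Prime) (hA : A.LiesOverPrime ℓ)
    (K : IntermediateField ℚ L) [FiniteDimensional ℚ K] :
    Finite (IsLocalRing.ResidueField (A.comap (algebraMap K L))) := by
  have := h23_numberField K
  have : Fact ℓ.Prime := ⟨hℓ⟩
  exact h23_finite_residueField A hA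

end Intermediate

end Fermat.Agent.S18x.Dict.H23
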