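import Mathlib
import Fermat.Prelude.Def_AlgebraicCurve_DivisorClassGroup
import Fermat.Agent.S24.H2_PlacesDedekind
import Fermat.Agent.S24.H15_Fin

/-!
# S18 [DICT] (D2), abstract part (helper22): extension of places along an algebraic extension
of the constant field

`K ⊆ L` fields, `L` algebraic over `K`, characteristic zero; `F / K` and `E / L` function fields,
`ι : F →+* E` compatible with `K → L`.  For every place `v` of `F / K` and every `x ∈ O_v` such
that `E` is finite over `L(ι x)` there is a place `P` of `E / L` above `v`: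
`ι O_v ⊆ O_P`, `ι m_v ⊆ m_P`, and `P.ord (ι g) = e * v.ord g` with `e ≥ 1`.

Route: Chevalley (Mathlib `Ideal.image_subset_nonunits_valuationSubring`) gives a valuation ring
`V` of `E` dominating `ι O_v`; `V` contains `L` (integrality) and the Dedekind domain
`B = integral closure of L[ι x]`; a valuation ring `≠ ⊤` containing `B` is the valuation ring of a
maximal ideal of `B`, hence discrete.
-/

set_option autoImplicit false
set_option linter.unusedSectionVars false

noncomputable section

namespace Fermat.Agent.S18x.Dict.H22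

open AlgebraicCurve IsDedekindDomain IsLocalRing

/-! ### Chevalley -/

section Chevalley

variable {F E : Type*} [Field F] [Field E]

/-- `g ∈ O`, `g⁻¹ ∉ O` means that `g` is in the maximal ideal of `O`. -/
theorem mem_maximalIdeal_of_inv_not_mem (O : ValuationSubring F) {g : F} (hg : g ∈ O)
    (hginv : g⁻¹ ∉ O) : (⟨g, hg⟩ : O) ∈ maximalIdeal O := by
  rw [mem_maximalIdeal, mem_nonunits_iff]
  intro hu
  apply hginv
  obtain ⟨b, hb⟩ := isUnit_iff_exists_inv.mp hu
  have hb' : g * (b : F) = 1 := congrArg Subtype.val hb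
  have : g⁻¹ = (b : F) := by
    have hg0 : g ≠ 0 := by
      rintro rfl
      simp at hb'
    field_simp
    linear_combination -hb'
  rw [this]
  exact b.2

/-- **Chevalley**: a valuation ring of `E` dominating the image of a valuation ring of `F`. -/
theorem exists_valuationSubring_dominating (ι : F →+* E) (O : ValuationSubring F) :
    ∃ V : ValuationSubring E, (∀ g ∈ O, ι g ∈ V) ∧ ∀ g ∈ O, g⁻¹ ∉ O → (ι g)⁻¹ ∉ V := by
  let A : Subring E := O.toSubring.map ι
  let f : O →+* A := (ι.comp O.subtype).codRestrict A (fun x => ⟨x, x.2, rfl⟩)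
  have hf : Function.Surjective f := by
    rintro ⟨_, x, hx, rfl⟩
    exact ⟨⟨x, hx⟩, rfl⟩
  have hfinj : Function.Injective f := by
    intro a b hab
    have h1 : ι a = ι b := congrArg Subtype.val hab
    exact Subtype.ext (ι.injective h1)
  let I : Ideal A := (maximalIdeal O).map f
  have hI : I ≠ ⊤ := by
    intro htop
    have h1 : (1 : A) ∈ I := by rw [htop]; trivial
    rw [Ideal.mem_map_iff_of_surjective f hf] at h1
    obtain ⟨x, hx, hx1⟩ := h1
    have : x = 1 := hfinj (by rw [hx1, map_one])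
    rw [this] at hx
    exact (Ideal.ne_top_iff_one _).mp (maximalIdeal.isMaximal O).ne_top hx
  obtain ⟨V, hAV, hIV⟩ := Ideal.image_subset_nonunits_valuationSubring I hI
  refine ⟨V, fun g hg => hAV ⟨g, hg, rfl⟩, fun g hg hginv hmem => ?_⟩
  have hgm := mem_maximalIdeal_of_inv_not_mem O hg hginv
  have hnu : ι g ∈ V.nonunits := hIV ⟨f ⟨g, hg⟩, Ideal.mem_map_of_mem f hgm, rfl⟩
  have hg0 : g ≠ 0 := by
    rintro rfl
    exact hginv (by simp [O.zero_mem])
  have hιg0 : ι g ≠ 0 := (map_ne_zero ι).mpr hg0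
  rw [ValuationSubring.mem_nonunits_iff] at hnu
  have h2 : V.valuation (ι g)⁻¹ ≤ 1 := (V.valuation_le_one_iff _).mpr hmem
  rw [map_inv₀] at h2
  have h3 : V.valuation (ι g) ≠ 0 := (Valuation.ne_zero_iff _).mpr hιg0
  have h4 : (1 : _) ≤ V.valuation (ι g) := by
    rwa [inv_le_one₀ (zero_lt_iff.mpr h3)] at h2
  exact absurd hnu (not_lt.mpr h4)

end Chevalley

/-! ### Valuation rings containing a Dedekind domain -/

section Dedekind

variable {L B E : Type*} [Field L] [CommRing B] [IsDedekindDomain B] [Field E]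
  [Algebra B E] [IsFractionRing B E] [Algebra L B] [Algebra L E] [IsScalarTower L B E]

/-- A valuation ring `V ≠ ⊤` of `E = Frac B` containing the Dedekind domain `B` is the valuation
ring of a maximal ideal of `B`. -/
theorem exists_prime_of_valuationSubring (V : ValuationSubring E) (hV : V ≠ ⊤)
    (hv : ∀ b : B, algebraMap B E b ∈ V) :
    ∃ P : HeightOneSpectrum B, V = (P.valuation E).valuationSubring := by
  classical
  let φ : B →+* V := (algebraMap B E).codRestrict V.toSubring hv
  have hφ : ∀ b, ((φ b : V) : E) = algebraMap B E b := fun _ => rfl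
  let 𝔭 : Ideal B := (IsLocalRing.maximalIdeal V).comap φ
  have h𝔭 : 𝔭.IsPrime := Ideal.comap_isPrime φ _
  have hunit : ∀ b : B, b ∉ 𝔭 → (algebraMap B E b)⁻¹ ∈ V := by
    intro b hb
    have hb' : IsUnit (φ b) := by
      by_contra hnu
      exact hb ((IsLocalRing.mem_maximalIdeal _).2 hnu)
    rw [ValuationSubring.valuation_eq_one_iff, hφ] at hb'
    rw [← ValuationSubring.valuation_le_one_iff, map_inv₀, hb', inv_one]
  have hne : 𝔭 ≠ ⊥ := by
    intro h0
    apply hV
    rw [eq_top_iff]
    intro x _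
    obtain ⟨a, b, hb, rfl⟩ := IsFractionRing.div_surjective (A := B) x
    have hb0 : b ≠ 0 := nonZeroDivisors.ne_zero hb
    have hb𝔭 : b ∉ 𝔭 := by rw [h0]; simpa using hb0
    rw [div_eq_mul_inv]
    exact mul_mem (hv a) (hunit b hb𝔭)
  let P : HeightOneSpectrum B := ⟨𝔭, h𝔭, hne⟩
  refine ⟨P, ?_⟩
  have hle : (P.valuation E).valuationSubring ≤ V := by
    intro x hx
    obtain ⟨n, d, hnd⟩ := P.exists_primeCompl_mul_eq_of_integer x
      ((Valuation.mem_valuationSubring_iff _ _).1 hx)
    have hd : (d : B) ∉ 𝔭 := d.2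
    have hd0 : algebraMap B E (d : B) ≠ 0 := by
      intro h0
      apply hd
      have : (d : B) = 0 := (IsFractionRing.injective B E) (by rw [h0, map_zero])
      rw [this]; exact 𝔭.zero_mem
    have hx' : x = algebraMap B E n * (algebraMap B E (d : B))⁻¹ := by
      rw [← hnd]; field_simp
    rw [hx']
    exact mul_mem (hv n) (hunit _ hd)
  have hK : Ring.KrullDimLE 1 (P.valuation E).valuationSubring := by
    rw [← HeightOneSpectrum.valuationSubringAtPrime_eq_valuationSubring]
    infer_instance
  exact (ValuationSubring.eq_of_le_of_ne_top (A := (P.valuation E).valuationSubring)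
    hle hV).symm

variable (L) in
/-- A valuation ring `V ≠ ⊤` of `E = Frac B` containing the Dedekind domain `B ⊇ L` is the
valuation ring of a place of `E / L`. -/
theorem exists_place_of_valuationSubring (V : ValuationSubring E) (hV : V ≠ ⊤)
    (hv : ∀ b : B, algebraMap B E b ∈ V) :
    ∃ P : Place L E, P.toValuationSubring = V := by
  obtain ⟨Q, hQ⟩ := exists_prime_of_valuationSubring V hV hv
  exact ⟨Fermat.Agent.S24.Alg.placeOfPrime L Q, hQ.symm⟩

end Dedekind

/-! ### Extension of places -/

section Ext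

open Fermat.Agent.S24.RH Fermat.Agent.S24.Alg

variable {K L F E : Type*} [Field K] [Field L] [Field F] [Field E] [Algebra K F] [Algebra L E]
  [Algebra K L] [Algebra.IsIntegral K L]

/-- A valuation ring of `E` containing the image of `K` contains `L` (integrality). -/
theorem algebraMap_mem_of_isIntegral (ι : F →+* E)
    (hι : ∀ a : K, ι (algebraMap K F a) = algebraMap L E (algebraMap K L a))
    (V : ValuationSubring E) (hV : ∀ a : K, ι (algebraMap K F a) ∈ V) (c : L) :
    algebraMap L E c ∈ V := by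
  let ψ : K →+* V := (ι.comp (algebraMap K F)).codRestrict V.toSubring hV
  have hψ : (algebraMap V E).comp ψ = (algebraMap L E).comp (algebraMap K L) := by
    ext a
    exact hι a
  obtain ⟨p, hp, hpc⟩ := Algebra.IsIntegral.isIntegral (R := K) c
  have hint : IsIntegral V (algebraMap L E c) := by
    refine ⟨p.map ψ, hp.map ψ, ?_⟩
    rw [Polynomial.eval₂_map, hψ, ← Polynomial.hom_eval₂, hpc, map_zero]
  obtain ⟨y, hy⟩ := IsIntegrallyClosed.isIntegral_iff.mp hint
  rw [← hy]
  exact y.2

omit [Algebra.IsIntegral K L] [Algebra K L] [Field K] [Algebra K F] in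
/-- A valuation ring of `E` containing `L` and `y` contains the integral closure of `L[y]`. -/
theorem integralClosure_mem_valuationSubring (y : E) (V : ValuationSubring E)
    (hL : ∀ c : L, algebraMap L E c ∈ V) (hy : y ∈ V)
    (a : integralClosure (Algebra.adjoin L {y}) E) :
    algebraMap (integralClosure (Algebra.adjoin L {y}) E) E a ∈ V := by
  have hadj : ∀ r : Algebra.adjoin L {y}, (r : E) ∈ V := by
    rintro ⟨r, hr⟩
    induction hr using Algebra.adjoin_induction with
    | mem x hx =>
      rw [Set.mem_singleton_iff] at hx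
      subst hx
      exact hy
    | algebraMap c => exact hL c
    | add x y _ _ hx hy => exact add_mem hx hy
    | mul x y _ _ hx hy => exact mul_mem hx hy
  obtain ⟨a, p, hp, hpa⟩ := a
  let incl : Algebra.adjoin L {y} →+* V :=
    (algebraMap (Algebra.adjoin L {y}) E).codRestrict V.toSubring hadj
  have hcomp : (algebraMap V E).comp incl = algebraMap (Algebra.adjoin L {y}) E := rfl
  have hint : IsIntegral V a := by
    refine ⟨p.map incl, hp.map incl, ?_⟩
    rw [Polynomial.eval₂_map, hcomp]
    exact hpa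
  obtain ⟨z, hz⟩ := IsIntegrallyClosed.isIntegral_iff.mp hint
  show a ∈ V
  rw [← hz]
  exact z.2

omit [Algebra.IsIntegral K L] [Algebra K L] [Algebra L E] [Field L] [Field E] in
/-- The inverse of a uniformiser is not in the valuation ring. -/
theorem inv_irreducible_not_mem (v : Place K F) {ϖ : v.toValuationSubring}
    (hϖ : Irreducible ϖ) : ((ϖ : F))⁻¹ ∉ v.toValuationSubring := by
  intro hmem
  apply hϖ.not_isUnit
  have h0 : (ϖ : F) ≠ 0 := by
    intro h
    exact hϖ.ne_zero (Subtype.ext h)
  exact isUnit_iff_exists_inv.mpr ⟨⟨_, hmem⟩, Subtype.ext (mul_inv_cancel₀ h0)⟩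

variable [CharZero L]

/-- **(D2), abstract, membership form.**  Extension of a place of `F / K` to a place of `E / L`
along `ι : F → E`. -/
theorem exists_place_ext (ι : F →+* E)
    (hι : ∀ a : K, ι (algebraMap K F a) = algebraMap L E (algebraMap K L a))
    (v : Place K F) (x : F) (hx : x ∈ v.toValuationSubring)
    [FiniteDimensional (IntermediateField.adjoin L {ι x}) E] :
    ∃ P : Place L E, (∀ g ∈ v.toValuationSubring, ι g ∈ P.toValuationSubring) ∧
      ∀ g ∈ v.toValuationSubring, g⁻¹ ∉ v.toValuationSubring →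
        (ι g)⁻¹ ∉ P.toValuationSubring := by
  obtain ⟨V, hV1, hV2⟩ := exists_valuationSubring_dominating ι v.toValuationSubring
  have hL : ∀ c : L, algebraMap L E c ∈ V :=
    algebraMap_mem_of_isIntegral ι hι V (fun a => hV1 _ (v.algebraMap_mem' a))
  have hVtop : V ≠ ⊤ := by
    obtain ⟨ϖ, hϖ⟩ := IsDiscreteValuationRing.exists_irreducible v.toValuationSubring
    intro htop
    have := hV2 (ϖ : F) ϖ.2 (inv_irreducible_not_mem v hϖ)
    rw [htop] at this
    exact this (ValuationSubring.mem_top _)
  have := integralClosure_isDedekindDomain (K := L) (ι x)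
  have := integralClosure_isFractionRing (K := L) (ι x)
  obtain ⟨P, hP⟩ := exists_place_of_valuationSubring (B := integralClosure (Algebra.adjoin L {ι x}) E)
    L V hVtop (integralClosure_mem_valuationSubring (ι x) V hL (hV1 x hx))
  refine ⟨P, ?_, ?_⟩
  · rw [hP]; exact hV1
  · rw [hP]; exact hV2

omit [Algebra.IsIntegral K L] [Algebra K L] [Algebra L E] [Field L] [Field E] [CharZero L] in
/-- Units of `O_v` have order `0`. -/
theorem ord_eq_zero_of_mem_of_inv_mem (v : Place K F) {g : F} (hg0 : g ≠ 0)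
    (hg : g ∈ v.toValuationSubring) (hginv : g⁻¹ ∈ v.toValuationSubring) : v.ord g = 0 := by
  have h1 := (mem_iff_ord_nonneg v hg0).mp hg
  have h2 := (mem_iff_ord_nonneg v (inv_ne_zero hg0)).mp hginv
  rw [Place.ord_inv] at h2
  omega

/-- **(D2), abstract, `ord` form.**  `P.ord (ι g) = e * v.ord g` with `e ≥ 1`. -/
theorem exists_place_ext_ord (ι : F →+* E)
    (hι : ∀ a : K, ι (algebraMap K F a) = algebraMap L E (algebraMap K L a))
    (v : Place K F) (x : F) (hx : x ∈ v.toValuationSubring)
    [FiniteDimensional (IntermediateField.adjoin L {ι x}) E] :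
    ∃ P : Place L E, (∀ g ∈ v.toValuationSubring, ι g ∈ P.toValuationSubring) ∧
      (∀ g ∈ v.toValuationSubring, g⁻¹ ∉ v.toValuationSubring →
        (ι g)⁻¹ ∉ P.toValuationSubring) ∧
      ∃ e : ℕ, 0 < e ∧ ∀ g : F, P.ord (ι g) = (e : ℤ) * v.ord g := by
  obtain ⟨P, hP1, hP2⟩ := exists_place_ext ι hι v x hx
  refine ⟨P, hP1, hP2, ?_⟩
  obtain ⟨ϖ, hϖ⟩ := IsDiscreteValuationRing.exists_irreducible v.toValuationSubring
  have hϖ0 : (ϖ : F) ≠ 0 := fun h => hϖ.ne_zero (Subtype.ext h)
  have hιϖ0 : ι (ϖ : F) ≠ 0 := (map_ne_zero ι).mpr hϖ0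
  have h1 : 0 ≤ P.ord (ι (ϖ : F)) := (mem_iff_ord_nonneg P hιϖ0).mp (hP1 _ ϖ.2)
  have h2 : ¬ 0 ≤ P.ord (ι (ϖ : F))⁻¹ := fun h =>
    hP2 _ ϖ.2 (inv_irreducible_not_mem v hϖ) ((mem_iff_ord_nonneg P (inv_ne_zero hιϖ0)).mpr h)
  rw [Place.ord_inv] at h2
  have hpos : 0 < P.ord (ι (ϖ : F)) := by omega
  refine ⟨(P.ord (ι (ϖ : F))).toNat, by omega, fun g => ?_⟩
  have hcast : (((P.ord (ι (ϖ : F))).toNat : ℕ) : ℤ) = P.ord (ι (ϖ : F)) :=
    Int.toNat_of_nonneg h1
  rw [hcast]
  rcases eq_or_ne g 0 with rfl | hg0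
  · simp
  obtain ⟨u, hu⟩ := v.exists_unit_mul_zpow hg0 hϖ
  have hu0 : ((u : v.toValuationSubring) : F) ≠ 0 := by
    intro h
    exact u.ne_zero (Subtype.ext h)
  have huinv : ((u : v.toValuationSubring) : F)⁻¹ ∈ v.toValuationSubring := by
    have : ((u : v.toValuationSubring) : F)⁻¹ = ((u⁻¹ : v.toValuationSubringˣ) :
        v.toValuationSubring) := by
      have h3 : ((u : v.toValuationSubring) : F) * ((u⁻¹ : v.toValuationSubringˣ) :
          v.toValuationSubring) = 1 := by
        rw [← MulMemClass.coe_mul, u.mul_inv]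
        rfl
      field_simp
      linear_combination -h3
    rw [this]
    exact Subtype.mem _
  have hιu : P.ord (ι ((u : v.toValuationSubring) : F)) = 0 := by
    apply ord_eq_zero_of_mem_of_inv_mem P ((map_ne_zero ι).mpr hu0) (hP1 _ (Subtype.mem _))
    rw [← map_inv₀]
    exact hP1 _ huinv
  conv_lhs => rw [hu]
  rw [map_mul, map_zpow₀, P.ord_mul ((map_ne_zero ι).mpr hu0) (zpow_ne_zero _ hιϖ0), hιu,
    zero_add, Place.ord_zpow]
  ring

end Ext

end Fermat.Agent.S18x.Dict.H22
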