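import Mathlib
import Fermat.Prelude.Def_ModularCurve_X0ModL
import Fermat.Prelude.Def_ModularCurve_ArithmeticGalois
import Fermat.Agent.S18x.Dict.H22_ExtAbs
import Fermat.Agent.S24.H25_Inputs

/-!
# S18 [DICT] (D0) + (D2) (helper22): the bridge `F_K → F_L` and extension of places

`L = AlgebraicClosure ℚ`, `K` any field with `Algebra K L` (e.g. `K : IntermediateField ℚ L`),
`FK = modularFunctionFieldFullC K M ⊆ K((q))`, `F_L = modularFunctionFieldBar M ⊆ L((q))`,
`ι = coeffMap (algebraMap K L)`.

* `coeffMap_mem_bar` (D0): `ι` maps `FK` into `F_L`;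
* `iotaK K M : FK →+* F_L` with `coe_iotaK`;
* `exists_place_above` (D2): every place `v` of `FK / K` has a place `P` of `F_L / L` above it:
  `ι O_v ⊆ O_P`, `ι m_v ⊆ m_P`, `P.ord (ι g) = e * v.ord g`, `e ≥ 1`.
-/

set_option autoImplicit false
set_option linter.unusedSectionVars false

noncomputable section

namespace Fermat.Agent.S18x.Dict.H22

open AlgebraicCurve ModularCurve IntermediateField HahnSeries

local notation "Lbar" => AlgebraicClosure ℚ

section Bridge

variable (K : Type*) [Field K] [Algebra K Lbar] (M : ℕ) [NeZero M]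

theorem coeffMap_algebraMap' (c : K) :
    coeffMap (algebraMap K Lbar) (algebraMap K (LaurentSeries K) c) =
      algebraMap Lbar (LaurentSeries Lbar) (algebraMap K Lbar c) := by
  rw [algebraMap_laurentSeries_eq_single, algebraMap_laurentSeries_eq_single, coeffMap_single]

/-- `j(q^d) ∈ F_L` for `d ∣ M`. -/
theorem jqNModC_mem_bar {d : ℕ} [NeZero d] (hd : d ∣ M) :
    qExpand Lbar d (jqModC Lbar) ∈ modularFunctionFieldBar M := by
  have h1 : qExpand ℚ d (jqModC ℚ) ∈ modularFunctionFieldFull M := by
    rw [← modularFunctionFieldFullC_rat]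
    exact jqModCd_mem_full ℚ M hd
  have h2 := coeffEmb_mem_laurentBaseChange Lbar h1
  have h3 : coeffEmb Lbar (qExpand ℚ d (jqModC ℚ)) = qExpand Lbar d (jqModC Lbar) := by
    have := coeffMap_jqNModC (algebraMap ℚ Lbar) d
    simpa [jqNModC, coeffEmb] using this
  rw [h3] at h2
  exact h2

/-- **(D0)** `ι = coeffMap (algebraMap K L)` maps `FK` into `F_L`. -/
theorem coeffMap_mem_bar {x : LaurentSeries K} (hx : x ∈ modularFunctionFieldFullC K M) :
    coeffMap (algebraMap K Lbar) x ∈ modularFunctionFieldBar M := by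
  change x ∈ IntermediateField.adjoin K (divisorExpansionsC K M) at hx
  induction hx using IntermediateField.adjoin_induction with
  | mem y hy =>
    obtain ⟨d, hne, hd, rfl⟩ := hy
    have := hne
    have := coeffMap_jqNModC (algebraMap K Lbar) d
    rw [jqNModC, jqNModC] at this
    rw [this]
    exact jqNModC_mem_bar M hd
  | algebraMap c =>
    rw [coeffMap_algebraMap']
    exact IntermediateField.algebraMap_mem _ _
  | add x y _ _ hx hy => rw [map_add]; exact add_mem hx hy
  | mul x y _ _ hx hy => rw [map_mul]; exact mul_mem hx hy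
  | inv x _ hx => rw [map_inv₀]; exact inv_mem hx

/-- The bridge `FK → F_L`. -/
def iotaK : ↥(modularFunctionFieldFullC K M) →+* ↥(modularFunctionFieldBar M) :=
  ((coeffMap (algebraMap K Lbar)).comp (modularFunctionFieldFullC K M).toSubfield.subtype).codRestrict
    (modularFunctionFieldBar M).toSubfield (fun x => coeffMap_mem_bar K M x.2)

@[simp]
theorem coe_iotaK (g : ↥(modularFunctionFieldFullC K M)) :
    ((iotaK K M g : ↥(modularFunctionFieldBar M)) : LaurentSeries Lbar) =
      coeffMap (algebraMap K Lbar) (g : LaurentSeries K) := rfl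

theorem iotaK_algebraMap (a : K) :
    iotaK K M (algebraMap K ↥(modularFunctionFieldFullC K M) a) =
      algebraMap Lbar ↥(modularFunctionFieldBar M) (algebraMap K Lbar a) := by
  apply Subtype.ext
  rw [coe_iotaK]
  exact coeffMap_algebraMap' K a

/-- `j` as an element of `FK`. -/
def jK : ↥(modularFunctionFieldFullC K M) := ⟨jqModC K, jqModC_mem_full K M⟩

theorem iotaK_jK : iotaK K M (jK K M) = Fermat.Agent.S24.Final.jF Lbar M := by
  apply Subtype.ext
  rw [coe_iotaK, Fermat.Agent.S24.Final.coe_jF]
  show coeffMap (algebraMap K Lbar) (jqModC K) = coeffEmb Lbar jq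
  rw [coeffMap_jqModC, ← jqModC_rat, coeffEmb, coeffMap_jqModC]

end Bridge

/-! ### (D2) -/

section Ext

/-- An embedding of the algebraic numbers into the complex numbers. -/
def embQbar : Lbar →+* ℂ :=
  haveI : Algebra.IsAlgebraic ℚ Lbar := AlgebraicClosure.isAlgebraic ℚ
  (IsAlgClosed.lift (R := ℚ) (S := Lbar) (M := ℂ)).toRingHom

variable (K : Type*) [Field K] [Algebra K Lbar] [Algebra.IsIntegral K Lbar] (M : ℕ) [NeZero M]

theorem finiteDimensional_iota_jK :
    FiniteDimensional (IntermediateField.adjoin Lbar {iotaK K M (jK K M)})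
      ↥(modularFunctionFieldBar M) := by
  rw [iotaK_jK]
  exact Fermat.Agent.S24.Final.finiteDimensional_jF embQbar M

theorem finiteDimensional_iota_jK_inv :
    FiniteDimensional (IntermediateField.adjoin Lbar {iotaK K M (jK K M)⁻¹})
      ↥(modularFunctionFieldBar M) := by
  rw [map_inv₀, Fermat.Agent.S24.RH.adjoin_inv_eq]
  exact finiteDimensional_iota_jK K M

/-- **(D2) EXT**: every place `v` of `FK / K` has a place `P` of `F_L / L` above it. -/
theorem exists_place_above (v : Place K ↥(modularFunctionFieldFullC K M)) :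
    ∃ P : Place Lbar ↥(modularFunctionFieldBar M),
      (∀ g ∈ v.toValuationSubring, iotaK K M g ∈ P.toValuationSubring) ∧
      (∀ g ∈ v.toValuationSubring, g⁻¹ ∉ v.toValuationSubring →
        (iotaK K M g)⁻¹ ∉ P.toValuationSubring) ∧
      ∃ e : ℕ, 0 < e ∧ ∀ g : ↥(modularFunctionFieldFullC K M),
        P.ord (iotaK K M g) = (e : ℤ) * v.ord g := by
  rcases v.toValuationSubring.mem_or_inv_mem (jK K M) with hj | hj
  · have := finiteDimensional_iota_jK K M
    exact exists_place_ext_ord (iotaK K M) (iotaK_algebraMap K M) v (jK K M) hj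
  · have := finiteDimensional_iota_jK_inv K M
    exact exists_place_ext_ord (iotaK K M) (iotaK_algebraMap K M) v (jK K M)⁻¹ hj

/-- **(D2)**, divisibility form: if `m` divides the order of `ι f` at every place of `F_L` and
`e(P | v) = 1`-type information is available, `m ∣ e * v.ord f`. -/
theorem exists_place_above_dvd (v : Place K ↥(modularFunctionFieldFullC K M)) (m : ℤ)
    (f : ↥(modularFunctionFieldFullC K M))
    (hf : ∀ P : Place Lbar ↥(modularFunctionFieldBar M), m ∣ P.ord (iotaK K M f)) :
    ∃ e : ℕ, 0 < e ∧ m ∣ (e : ℤ) * v.ord f ∧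
      ∃ P : Place Lbar ↥(modularFunctionFieldBar M),
        ∀ g : ↥(modularFunctionFieldFullC K M), P.ord (iotaK K M g) = (e : ℤ) * v.ord g := by
  obtain ⟨P, -, -, e, he, hord⟩ := exists_place_above K M v
  exact ⟨e, he, by rw [← hord]; exact hf P, P, hord⟩

end Ext

/-! ### The case `K : IntermediateField ℚ L` -/

section Intermediate

variable (K : IntermediateField ℚ Lbar) (M : ℕ) [NeZero M]

theorem isIntegral_intermediate : Algebra.IsIntegral ↥K Lbar := by
  have : Algebra.IsAlgebraic ℚ Lbar := AlgebraicClosure.isAlgebraic ℚ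
  have : Algebra.IsIntegral ℚ Lbar := Algebra.IsAlgebraic.isIntegral
  exact Algebra.IsIntegral.tower_top (R := ℚ)

set_option synthInstance.maxHeartbeats 400000 in
set_option maxHeartbeats 1000000 in
/-- **(D2) EXT** in helper7's spelling (`K : IntermediateField ℚ L`). -/
theorem exists_place_above_intermediate (v : Place ↥K ↥(modularFunctionFieldFullC ↥K M)) :
    ∃ P : Place Lbar ↥(modularFunctionFieldBar M),
      (∀ g ∈ v.toValuationSubring, iotaK ↥K M g ∈ P.toValuationSubring) ∧
      (∀ g ∈ v.toValuationSubring, g⁻¹ ∉ v.toValuationSubring →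
        (iotaK ↥K M g)⁻¹ ∉ P.toValuationSubring) ∧
      ∃ e : ℕ, 0 < e ∧ ∀ g : ↥(modularFunctionFieldFullC ↥K M),
        P.ord (iotaK ↥K M g) = (e : ℤ) * v.ord g :=
  haveI := isIntegral_intermediate K
  exists_place_above ↥K M v

end Intermediate

end Fermat.Agent.S18x.Dict.H22
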