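import Mathlib
import Fermat.Agent.S18x.Dict.H20_GaussVal
import Fermat.Agent.S18x.Dict.H23_Dvr

/-!
# S18 [DICT] (D5a), abstract part (helper22): descent of the Gauss ring along `K → L`

`K → L` fields, `A : ValuationSubring L`, `O := A.comap (algebraMap K L)` (helper23's spelling),
`ι := coeffMap (algebraMap K L) : K((q)) → L((q))`.

* `mem_gaussRing_up`, `gaussRed_up`: `x ∈ gaussRing O → ι x ∈ gaussRing A`, and
  `gaussRed A (ι x) = coeffMap (h23_resEmb A) (gaussRed O x)`;
* `mem_gaussRing_down`: for `O` a discrete valuation ring and `x ∈ Frac O((q))`: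
  `ι x ∈ gaussRing A → x ∈ gaussRing O` (the Gauss ring is NOT defined coefficientwise; the proof
  uses that `gaussRing O` is a valuation ring of `Frac O((q))`);
* `gaussRed_down_eq_one`: `gaussRed A (ι x) = 1 → gaussRed O x = 1`.
-/

set_option autoImplicit false
set_option linter.unusedSectionVars false

open ModularCurve

noncomputable section

namespace Fermat.Agent.S18x.Dict.H22

open Fermat.Agent.S18x.Dict.H20 Fermat.Agent.S18x.Dict.H23

section Abs

variable {K L : Type*} [Field K] [Field L] [Algebra K L] (A : ValuationSubring L)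

/-- `ι ∘ ι_O = ι_A ∘ incl` on `O((q))`. -/
theorem gd_up_gIota (a : LaurentSeries (A.comap (algebraMap K L))) :
    coeffMap (algebraMap K L) (gIota (A.comap (algebraMap K L)) a)
      = gIota A (coeffMap (h23_incl A) a) := by
  ext k
  simp only [gIota, coeffMap_coeff]
  rfl

/-- `red_A ∘ incl = resEmb ∘ red_O` on `O((q))`. -/
theorem gd_gRed_incl (a : LaurentSeries (A.comap (algebraMap K L))) :
    gRed A (coeffMap (h23_incl A) a)
      = coeffMap (h23_resEmb A) (gRed (A.comap (algebraMap K L)) a) := by
  ext k
  simp only [gRed, coeffMap_coeff]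
  exact (h23_resEmb_residue A _).symm

theorem gd_resEmb_injective :
    Function.Injective (coeffMap (h23_resEmb (K := K) A)) := by
  intro x y h
  ext k
  have := congrArg (fun z => z.coeff k) h
  simp only [coeffMap_coeff] at this
  exact (h23_resEmb A).injective this

theorem gd_up_injective : Function.Injective (coeffMap (algebraMap K L)) := by
  intro x y h
  ext k
  have := congrArg (fun z => z.coeff k) h
  simp only [coeffMap_coeff] at this
  exact (algebraMap K L).injective this

/-- **(GD1, up)** `ι` maps the Gauss ring of `O = A ∩ K` into the Gauss ring of `A`. -/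
theorem mem_gaussRing_up {x : LaurentSeries K}
    (hx : x ∈ gaussRing (A.comap (algebraMap K L))) :
    coeffMap (algebraMap K L) x ∈ gaussRing A := by
  obtain ⟨a, b, hb, h⟩ := hx
  refine ⟨coeffMap (h23_incl A) a, coeffMap (h23_incl A) b, ?_, ?_⟩
  · have := gd_gRed_incl A b
    simp only [gRed] at this
    rw [this]
    intro h0
    exact hb (gd_resEmb_injective A (by rw [h0, map_zero]))
  · have h1 := gd_up_gIota A a
    have h2 := gd_up_gIota A b
    simp only [gIota] at h1 h2
    rw [← h1, ← h2, ← map_mul, h]

/-- **(GD1, reduction)** `gaussRed A (ι x) = resEmb (gaussRed O x)`. -/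
theorem gaussRed_up {x : LaurentSeries K}
    (hx : x ∈ gaussRing (A.comap (algebraMap K L))) :
    gaussRed A ⟨coeffMap (algebraMap K L) x, mem_gaussRing_up A hx⟩
      = coeffMap (h23_resEmb A) (gaussRed (A.comap (algebraMap K L)) ⟨x, hx⟩) := by
  obtain ⟨a, b, hb, h⟩ := (mem_gaussRing_iff _).1 hx
  have hb' : coeffMap (IsLocalRing.residue A) (coeffMap (h23_incl A) b) ≠ 0 := by
    have := gd_gRed_incl A b
    simp only [gRed] at this
    rw [this]
    intro h0
    exact hb (gd_resEmb_injective A (by rw [h0, map_zero]))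
  have h' : coeffMap (algebraMap K L) x * coeffMap A.subtype (coeffMap (h23_incl A) b)
      = coeffMap A.subtype (coeffMap (h23_incl A) a) := by
    have h1 := gd_up_gIota A a
    have h2 := gd_up_gIota A b
    simp only [gIota] at h1 h2
    rw [← h1, ← h2, ← map_mul, h]
  have e1 := gaussRed_eq A ⟨coeffMap (algebraMap K L) x, mem_gaussRing_up A hx⟩ _ _ hb' h'
  have e2 := gaussRed_eq (A.comap (algebraMap K L)) ⟨x, hx⟩ a b hb h
  rw [e1, e2, map_div₀]
  have h3 := gd_gRed_incl A a
  have h4 := gd_gRed_incl A b
  simp only [gRed] at h3 h4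
  rw [h3, h4]

/-- **(GD1, down)** For `O = A ∩ K` a discrete valuation ring and `x ∈ Frac O((q))`: if `ι x` lies
in the Gauss ring of `A`, then `x` lies in the Gauss ring of `O`. -/
theorem mem_gaussRing_down [IsDiscreteValuationRing (A.comap (algebraMap K L))]
    {x : LaurentSeries K} (hxF : x ∈ fracLam (A.comap (algebraMap K L)))
    (hx : coeffMap (algebraMap K L) x ∈ gaussRing A) :
    x ∈ gaussRing (A.comap (algebraMap K L)) := by
  obtain ⟨π, hπ⟩ := IsDiscreteValuationRing.exists_irreducible (A.comap (algebraMap K L))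
  rcases mem_gaussRing_or_inv_mem (A.comap (algebraMap K L)) π hπ hxF with h | h
  · exact h
  by_cases hx0 : x = 0
  · rw [hx0]; exact zero_mem _
  by_cases hz : gaussRed (A.comap (algebraMap K L)) ⟨x⁻¹, h⟩ = 0
  · exfalso
    have h1 := gaussRed_up A h
    rw [hz, map_zero] at h1
    have h2 : (⟨coeffMap (algebraMap K L) x, hx⟩ : gaussRing A)
        * ⟨coeffMap (algebraMap K L) x⁻¹, mem_gaussRing_up A h⟩ = 1 := by
      apply Subtype.ext
      show coeffMap (algebraMap K L) x * coeffMap (algebraMap K L) x⁻¹ = 1
      rw [← map_mul, mul_inv_cancel₀ hx0, map_one]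
    have h3 := congrArg (gaussRed A) h2
    rw [map_mul, h1, mul_zero, map_one] at h3
    exact zero_ne_one h3
  · have := inv_mem_gaussRing (A.comap (algebraMap K L)) hz
    simpa using this

/-- **(GD1, reduction down)** -/
theorem gaussRed_down_eq_one {x : LaurentSeries K}
    (hx : x ∈ gaussRing (A.comap (algebraMap K L)))
    (h1 : gaussRed A ⟨coeffMap (algebraMap K L) x, mem_gaussRing_up A hx⟩ = 1) :
    gaussRed (A.comap (algebraMap K L)) ⟨x, hx⟩ = 1 := by
  rw [gaussRed_up A hx] at h1
  exact gd_resEmb_injective A (by rw [h1, map_one])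

end Abs

end Fermat.Agent.S18x.Dict.H22
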