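import Fermat.Agent.S18x.Dict.H22_Ext
import Fermat.Agent.S18x.E.H12_Div

/-!
# S18 [DICT] (D3) (helper29): descent of the divisibility of a divisor to a number field

`L = AlgebraicClosure ℚ`, `F_L = modularFunctionFieldBar M`, `FK = modularFunctionFieldFullC K M`
for `K : IntermediateField ℚ L`, `ι = H22.iotaK K M : FK →+* F_L`.

If `m ∣ ord_P y` for every place `P` of `F_L / L`, then for every sufficiently large `K`
the element `y` comes from `f ∈ FK` and `m ∣ ord_v f` for every place `v` of `FK / K`.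

No "constant field extensions are unramified", no rational points: `K` is chosen so large that a
uniformiser of each of the finitely many places in the support of `div y` comes from `FK`; then
the ramification index of the place above `v` produced by (D2) is `1` whenever `ord_v f ≠ 0`.

The descent of finitely many elements ((D0c)) enters as the hypothesis `D0c M`.
-/

set_option autoImplicit false
set_option linter.unusedSectionVars false
set_option synthInstance.maxHeartbeats 400000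
set_option maxHeartbeats 1000000

noncomputable section

namespace Fermat.Agent.S18x.Dict.H29

open AlgebraicCurve ModularCurve IntermediateField Fermat.Agent.S18x.Dict.H22

local notation "Lbar" => AlgebraicClosure ℚ

/-- **(D0c)**: finitely many elements of `F_L` come from `FK` for every sufficiently large
number field `K`. -/
def D0c (M : ℕ) [NeZero M] : Prop :=
  ∀ T : Finset ↥(modularFunctionFieldBar M),
    ∃ K₀ : IntermediateField ℚ Lbar, FiniteDimensional ℚ K₀ ∧
      ∀ K : IntermediateField ℚ Lbar, K₀ ≤ K →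
        ∀ x ∈ T, ∃ x' : ↥(modularFunctionFieldFullC ↥K M), iotaK ↥K M x' = x

/-- Every place has a uniformiser. -/
theorem exists_ord_eq_one {K F : Type*} [Field K] [Field F] [Algebra K F] (P : Place K F) :
    ∃ t : F, P.ord t = 1 := by
  obtain ⟨π, hπ⟩ := IsDiscreteValuationRing.exists_irreducible P.toValuationSubring
  exact ⟨π, P.ord_coe_irreducible hπ⟩

variable (M : ℕ) [NeZero M]

/-- The core of (D3): if `K` is so large that `y` and a uniformiser at every place of the support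
of `div y` come from `FK`, then divisibility of the orders descends. -/
theorem dvd_ord_of_uniformisers (K : IntermediateField ℚ Lbar) (m : ℤ)
    (f : ↥(modularFunctionFieldFullC ↥K M))
    (hdiv : ∀ P : Place Lbar ↥(modularFunctionFieldBar M), m ∣ P.ord (iotaK ↥K M f))
    (hunif : ∀ P : Place Lbar ↥(modularFunctionFieldBar M), P.ord (iotaK ↥K M f) ≠ 0 →
      ∃ t' : ↥(modularFunctionFieldFullC ↥K M), P.ord (iotaK ↥K M t') = 1)
    (v : Place ↥K ↥(modularFunctionFieldFullC ↥K M)) : m ∣ v.ord f := by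
  obtain ⟨P, -, -, e, he, hord⟩ := exists_place_above_intermediate K M v
  rcases eq_or_ne (v.ord f) 0 with h0 | h0
  · rw [h0]; exact dvd_zero m
  · have hP : P.ord (iotaK ↥K M f) ≠ 0 := by
      rw [hord]
      exact mul_ne_zero (by exact_mod_cast he.ne') h0
    obtain ⟨t', ht'⟩ := hunif P hP
    rw [hord] at ht'
    have he1 : (e : ℤ) = 1 := by
      have h1 : (e : ℤ) ∣ 1 := ⟨_, ht'.symm⟩
      have h2 : (0 : ℤ) ≤ e := by positivity
      exact Int.eq_one_of_dvd_one h2 h1
    have := hdiv P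
    rwa [hord, he1, one_mul] at this

/-- **(D3) DIV descent.** -/
theorem h29_div_descent (hD0c : D0c M) (m : ℕ) (y : ↥(modularFunctionFieldBar M)) (hy : y ≠ 0)
    (hdiv : ∀ P : Place Lbar ↥(modularFunctionFieldBar M), (m : ℤ) ∣ P.ord y)
    (T : Finset ↥(modularFunctionFieldBar M)) :
    ∃ K₀ : IntermediateField ℚ Lbar, FiniteDimensional ℚ K₀ ∧
      ∀ K : IntermediateField ℚ Lbar, K₀ ≤ K →
        (∀ x ∈ T, ∃ x' : ↥(modularFunctionFieldFullC ↥K M), iotaK ↥K M x' = x) ∧
        ∃ f : ↥(modularFunctionFieldFullC ↥K M), iotaK ↥K M f = y ∧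
          ∀ v : Place ↥K ↥(modularFunctionFieldFullC ↥K M), (m : ℤ) ∣ v.ord f := by
  classical
  obtain ⟨D, hD⟩ := Fermat.Agent.S18x.E.H12.stDiv M y hy
  choose t ht using fun P : Place Lbar ↥(modularFunctionFieldBar M) => exists_ord_eq_one P
  obtain ⟨K₀, hfin, hK₀⟩ := hD0c (insert y (T ∪ D.support.image t))
  refine ⟨K₀, hfin, fun K hK => ⟨fun x hx => ?_, ?_⟩⟩
  · exact hK₀ K hK x (Finset.mem_insert_of_mem (Finset.mem_union_left _ hx))
  · obtain ⟨f, hf⟩ := hK₀ K hK y (Finset.mem_insert_self _ _)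
    refine ⟨f, hf, dvd_ord_of_uniformisers M K m f (fun P => by rw [hf]; exact hdiv P) ?_⟩
    intro P hP
    rw [hf, ← hD P] at hP
    have hmem : t P ∈ insert y (T ∪ D.support.image t) :=
      Finset.mem_insert_of_mem (Finset.mem_union_right _
        (Finset.mem_image_of_mem t (Finsupp.mem_support_iff.mpr hP)))
    obtain ⟨t', ht'⟩ := hK₀ K hK (t P) hmem
    exact ⟨t', by rw [ht', ht P]⟩

/-- **(D3), two-element form** (the shape of `StKummer`: `y = y₁ / y₂`). -/
theorem h29_div_descent₂ (hD0c : D0c M) (m : ℕ) (y₁ y₂ : ↥(modularFunctionFieldBar M))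
    (hy₁ : y₁ ≠ 0) (hy₂ : y₂ ≠ 0)
    (hdiv : ∀ P : Place Lbar ↥(modularFunctionFieldBar M), (m : ℤ) ∣ P.ord y₁ - P.ord y₂)
    (T : Finset ↥(modularFunctionFieldBar M)) :
    ∃ K₀ : IntermediateField ℚ Lbar, FiniteDimensional ℚ K₀ ∧
      ∀ K : IntermediateField ℚ Lbar, K₀ ≤ K →
        (∀ x ∈ T, ∃ x' : ↥(modularFunctionFieldFullC ↥K M), iotaK ↥K M x' = x) ∧
        ∃ f₁ f₂ : ↥(modularFunctionFieldFullC ↥K M), iotaK ↥K M f₁ = y₁ ∧ iotaK ↥K M f₂ = y₂ ∧
          f₁ ≠ 0 ∧ f₂ ≠ 0 ∧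
          ∀ v : Place ↥K ↥(modularFunctionFieldFullC ↥K M), (m : ℤ) ∣ v.ord f₁ - v.ord f₂ := by
  classical
  have hy : y₁ * y₂⁻¹ ≠ 0 := mul_ne_zero hy₁ (inv_ne_zero hy₂)
  have hdiv' : ∀ P : Place Lbar ↥(modularFunctionFieldBar M), (m : ℤ) ∣ P.ord (y₁ * y₂⁻¹) := by
    intro P
    rw [P.ord_mul hy₁ (inv_ne_zero hy₂), P.ord_inv, ← sub_eq_add_neg]
    exact hdiv P
  obtain ⟨K₀, hfin, hK₀⟩ := h29_div_descent M hD0c m (y₁ * y₂⁻¹) hy hdiv'
    (insert y₁ (insert y₂ T))
  refine ⟨K₀, hfin, fun K hK => ?_⟩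
  obtain ⟨hT, f, hf, hv⟩ := hK₀ K hK
  refine ⟨fun x hx => hT x (Finset.mem_insert_of_mem (Finset.mem_insert_of_mem hx)), ?_⟩
  obtain ⟨f₁, hf₁⟩ := hT y₁ (Finset.mem_insert_self _ _)
  obtain ⟨f₂, hf₂⟩ := hT y₂ (Finset.mem_insert_of_mem (Finset.mem_insert_self _ _))
  have hf₁0 : f₁ ≠ 0 := fun h => hy₁ (by rw [← hf₁, h, map_zero])
  have hf₂0 : f₂ ≠ 0 := fun h => hy₂ (by rw [← hf₂, h, map_zero])
  have hff : f = f₁ * f₂⁻¹ := by
    apply (iotaK ↥K M).injective
    rw [hf, map_mul, map_inv₀, hf₁, hf₂]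
  refine ⟨f₁, f₂, hf₁, hf₂, hf₁0, hf₂0, fun v => ?_⟩
  have := hv v
  rwa [hff, v.ord_mul hf₁0 (inv_ne_zero hf₂0), v.ord_inv, ← sub_eq_add_neg] at this

end Fermat.Agent.S18x.Dict.H29
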