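import Mathlib
import Fermat.Agent.S18x.Dict.H22_GaussDescAbs
import Fermat.Agent.S18x.Dict.H20_GaussModular
import Fermat.Agent.S18x.Dict.H29_Div
import Fermat.Agent.S18x.Desc.H19_BridgeFin

/-!
# S18 [DICT] (D5a) (helper22): Gauss descent `(ℚ̄, A) → (K, O)`

`L = AlgebraicClosure ℚ`, `A : ValuationSubring L` over the prime `ℓ`, `K` an intermediate field
finite over `ℚ`, `O := A.comap (algebraMap K L)` (a discrete valuation ring, helper23),
`FK = modularFunctionFieldFullC K M`, `F_L = modularFunctionFieldBar M`, `ι = iotaK K M`.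

* `mem_gaussRing_iotaK_iff` **(GD1)**: `ι x ∈ gaussRing A ↔ x ∈ gaussRing O` for `x ∈ FK`;
* `gaussRed_iotaK` : `gaussRed A (ι x) = coeffMap (h23_resEmb A) (gaussRed O x)`;
* `h22_kum_descent` **(GD2)**: an element `y ∈ F_L` of the Gauss ring of `A` with reduction `1`
  and with `m ∣ ord_P y` for all places `P` of `F_L` comes, for every sufficiently large number
  field `K`, from an `f ∈ FK` in the Gauss ring of `O`, with reduction `1`, `f - 1 = π v` with
  `v` in the Gauss ring, and `m ∣ ord_v f` for all places `v` of `FK / K`;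
* `h22_kum_of_finite` **(GD3)**: the Kummer statement over `(ℚ̄, A)` (the body of the chief's
  `StKumV`) follows from the Kummer statement over all `(K, O)`, `K ≥ K₁` finite over `ℚ`.
-/

set_option autoImplicit false
set_option linter.unusedSectionVars false
set_option synthInstance.maxHeartbeats 400000
set_option maxHeartbeats 1000000

noncomputable section

namespace Fermat.Agent.S18x.Dict.H22

open AlgebraicCurve ModularCurve IntermediateField
open Fermat.Agent.S18x.Dict.H20 Fermat.Agent.S18x.Dict.H23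

local notation "Lbar" => AlgebraicClosure ℚ

section GD1

variable (A : ValuationSubring Lbar) (M : ℕ) [NeZero M] (K : IntermediateField ℚ Lbar)

/-- **(GD1, up)** -/
theorem mem_gaussRing_iotaK {x : ↥(modularFunctionFieldFullC ↥K M)}
    (hx : (x : LaurentSeries ↥K) ∈ gaussRing (A.comap (algebraMap ↥K Lbar))) :
    ((iotaK ↥K M x : ↥(modularFunctionFieldBar M)) : LaurentSeries Lbar) ∈ gaussRing A :=
  mem_gaussRing_up A hx

/-- **(GD1, reduction)** -/
theorem gaussRed_iotaK {x : ↥(modularFunctionFieldFullC ↥K M)}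
    (hx : (x : LaurentSeries ↥K) ∈ gaussRing (A.comap (algebraMap ↥K Lbar))) :
    gaussRed A ⟨((iotaK ↥K M x : ↥(modularFunctionFieldBar M)) : LaurentSeries Lbar),
        mem_gaussRing_iotaK A M K hx⟩
      = coeffMap (h23_resEmb A) (gaussRed (A.comap (algebraMap ↥K Lbar)) ⟨x, hx⟩) :=
  gaussRed_up A hx

/-- **(GD1)** For `O = A ∩ K` a discrete valuation ring: `ι x ∈ gaussRing A ↔ x ∈ gaussRing O`. -/
theorem mem_gaussRing_iotaK_iff [IsDiscreteValuationRing (A.comap (algebraMap ↥K Lbar))]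
    (x : ↥(modularFunctionFieldFullC ↥K M)) :
    ((iotaK ↥K M x : ↥(modularFunctionFieldBar M)) : LaurentSeries Lbar) ∈ gaussRing A
      ↔ (x : LaurentSeries ↥K) ∈ gaussRing (A.comap (algebraMap ↥K Lbar)) :=
  ⟨fun h => mem_gaussRing_down A (mem_fracLam_of_mem_full _ M x.2) h,
    fun h => mem_gaussRing_iotaK A M K h⟩

end GD1

section GD2

variable (A : ValuationSubring Lbar) {ℓ : ℕ} (hℓ : ℓ.Prime) (hA : A.LiesOverPrime ℓ)
  (M : ℕ) [NeZero M]

include hℓ hA in
/-- **(GD2) Gauss descent of the Kummer data.** -/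
theorem h22_kum_descent (m : ℕ) (y : ↥(modularFunctionFieldBar M))
    (hy : (y : LaurentSeries Lbar) ∈ gaussRing A) (hred : gaussRed A ⟨y, hy⟩ = 1)
    (hdiv : ∀ P : Place Lbar ↥(modularFunctionFieldBar M), (m : ℤ) ∣ P.ord y)
    (T : Finset ↥(modularFunctionFieldBar M)) :
    ∃ K₀ : IntermediateField ℚ Lbar, FiniteDimensional ℚ K₀ ∧
      ∀ K : IntermediateField ℚ Lbar, K₀ ≤ K → FiniteDimensional ℚ K →
        (∀ x ∈ T, ∃ x' : ↥(modularFunctionFieldFullC ↥K M), iotaK ↥K M x' = x) ∧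
        ∃ f : ↥(modularFunctionFieldFullC ↥K M), iotaK ↥K M f = y ∧
          (∃ hf : (f : LaurentSeries ↥K) ∈ gaussRing (A.comap (algebraMap ↥K Lbar)),
            gaussRed (A.comap (algebraMap ↥K Lbar)) ⟨f, hf⟩ = 1) ∧
          (∀ π : A.comap (algebraMap ↥K Lbar), Irreducible π →
            ∃ v : ↥(modularFunctionFieldFullC ↥K M),
              (v : LaurentSeries ↥K) ∈ gaussRing (A.comap (algebraMap ↥K Lbar)) ∧
              f - 1 = algebraMap ↥K ↥(modularFunctionFieldFullC ↥K M) (π : ↥K) * v) ∧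
          ∀ v : Place ↥K ↥(modularFunctionFieldFullC ↥K M), (m : ℤ) ∣ v.ord f := by
  have hy0 : y ≠ 0 := by
    rintro rfl
    have h0 : (⟨((0 : ↥(modularFunctionFieldBar M)) : LaurentSeries Lbar), hy⟩ : gaussRing A)
        = 0 := rfl
    rw [h0, map_zero] at hred
    exact zero_ne_one hred
  obtain ⟨K₀, hfin, hK₀⟩ := Fermat.Agent.S18x.Dict.H29.h29_div_descent M
    (Fermat.Agent.S18x.Desc.H19.h19_exists_descent_finset M) m y hy0 hdiv T
  refine ⟨K₀, hfin, fun K hK hKfin => ?_⟩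
  obtain ⟨hT, f, hf, hv⟩ := hK₀ K hK
  have : IsDiscreteValuationRing (A.comap (algebraMap ↥K Lbar)) :=
    h23_isDVR_intermediate A hℓ hA K
  have hfA : ((iotaK ↥K M f : ↥(modularFunctionFieldBar M)) : LaurentSeries Lbar)
      ∈ gaussRing A := by rw [hf]; exact hy
  have hfO : (f : LaurentSeries ↥K) ∈ gaussRing (A.comap (algebraMap ↥K Lbar)) :=
    (mem_gaussRing_iotaK_iff A M K f).1 hfA
  have hredO : gaussRed (A.comap (algebraMap ↥K Lbar)) ⟨f, hfO⟩ = 1 := by
    apply gaussRed_down_eq_one A hfO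
    have e : (⟨coeffMap (algebraMap ↥K Lbar) (f : LaurentSeries ↥K),
        mem_gaussRing_up A hfO⟩ : gaussRing A) = ⟨y, hy⟩ :=
      Subtype.ext (congrArg (fun z : ↥(modularFunctionFieldBar M) => (z : LaurentSeries Lbar)) hf)
    rw [e, hred]
  refine ⟨hT, f, hf, ⟨hfO, hredO⟩, fun π hπ => ?_, hv⟩
  have hmem : f - 1 ∈ gaussValM (A.comap (algebraMap ↥K Lbar)) M := by
    rw [mem_gaussValM_iff]
    exact sub_mem hfO (one_mem _)
  have hker : gaussRedM (A.comap (algebraMap ↥K Lbar)) M ⟨f - 1, hmem⟩ = 0 := by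
    rw [gaussRedM_apply]
    have e : (⟨((f - 1 : ↥(modularFunctionFieldFullC ↥K M)) : LaurentSeries ↥K), hmem⟩ :
        gaussRing (A.comap (algebraMap ↥K Lbar))) = ⟨f, hfO⟩ - 1 := rfl
    rw [e, map_sub, hredO, map_one, sub_self]
  obtain ⟨v, hv'⟩ := exists_eq_mul_of_gaussRedM_eq_zero (A.comap (algebraMap ↥K Lbar)) M π hπ hker
  exact ⟨v, v.2, hv'⟩

/-- `m`-th roots go up along `ι`. -/
theorem h22_pow_up (K : IntermediateField ℚ Lbar) (m : ℕ)
    {u f : ↥(modularFunctionFieldFullC ↥K M)} (h : u ^ m = f) :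
    (iotaK ↥K M u) ^ m = iotaK ↥K M f := by
  rw [← map_pow, h]

include hℓ hA in
/-- **(GD3)** The Kummer statement over `(ℚ̄, A)` (the body of `StKumV`, for a fixed exponent
`m`) follows from the Kummer statement over `(K, O = A ∩ K)` for all `K ≥ K₁` finite over `ℚ`.
The conclusion over `(K, O)` may be an `m`-th root in the BIG field `F_L` (so that the instance
may argue by contradiction with `¬ ∃ u : F_L, u ^ m = ι f`). -/
theorem h22_kum_of_finite (m : ℕ) (K₁ : IntermediateField ℚ Lbar) [FiniteDimensional ℚ K₁]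
    (hK : ∀ K : IntermediateField ℚ Lbar, K₁ ≤ K → FiniteDimensional ℚ K →
      ∀ f : ↥(modularFunctionFieldFullC ↥K M),
        (∃ hf : (f : LaurentSeries ↥K) ∈ gaussRing (A.comap (algebraMap ↥K Lbar)),
          gaussRed (A.comap (algebraMap ↥K Lbar)) ⟨f, hf⟩ = 1) →
        (∀ π : A.comap (algebraMap ↥K Lbar), Irreducible π →
          ∃ v : ↥(modularFunctionFieldFullC ↥K M),
            (v : LaurentSeries ↥K) ∈ gaussRing (A.comap (algebraMap ↥K Lbar)) ∧
            f - 1 = algebraMap ↥K ↥(modularFunctionFieldFullC ↥K M) (π : ↥K) * v) →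
        (∀ v : Place ↥K ↥(modularFunctionFieldFullC ↥K M), (m : ℤ) ∣ v.ord f) →
        ∃ u : ↥(modularFunctionFieldBar M), u ^ m = iotaK ↥K M f)
    (y : ↥(modularFunctionFieldBar M))
    (hy : (y : LaurentSeries Lbar) ∈ gaussRing A) (hred : gaussRed A ⟨y, hy⟩ = 1)
    (hdiv : ∀ P : Place Lbar ↥(modularFunctionFieldBar M), (m : ℤ) ∣ P.ord y) :
    ∃ u : ↥(modularFunctionFieldBar M), u ^ m = y := by
  obtain ⟨K₀, hfin, hK₀⟩ := h22_kum_descent A hℓ hA M m y hy hred hdiv ∅
  have := hfin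
  have hfinK : FiniteDimensional ℚ ↥(K₀ ⊔ K₁) := IntermediateField.finiteDimensional_sup K₀ K₁
  obtain ⟨-, f, hf, hG, hπ, hv⟩ := hK₀ (K₀ ⊔ K₁) le_sup_left hfinK
  obtain ⟨u, hu⟩ := hK (K₀ ⊔ K₁) le_sup_right hfinK f hG hπ hv
  exact ⟨u, by rw [hu, hf]⟩

end GD2

end Fermat.Agent.S18x.Dict.H22
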