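import Mathlib
import Fermat.Agent.S18x.Dict.H22_GaussDesc
import Fermat.Agent.S18x.Kum.Defs

/-!
# S18 [DICT] (D5a), top form (helper22): `StKumVAt A M m` from the Kummer statement over all
`(K, O = A ∩ K)`, `K` a number field inside `ℚ̄`

* `StKumKO A M m K` : the Kummer statement over `(K, O)`: `f ∈ FK` in the Gauss ring of `O`, with
  Gauss reduction `1`, `f - 1 ∈ π V` for every uniformiser `π` of `O`, and `m ∣ ord_v f` for all
  places `v` of `FK / K`  ⟹  `ι f` is an `m`-th power in `F_L` (equivalently, by contradiction,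
  one may assume `¬ ∃ u : F_L, u ^ m = ι f` when proving it).
* `h22_stKumVAt_of_finite` : `(∀ K ≥ K₁ finite over ℚ, StKumKO A M m K) → Kum.StKumVAt A M m`.
-/

set_option autoImplicit false
set_option linter.unusedSectionVars false
set_option synthInstance.maxHeartbeats 400000
set_option maxHeartbeats 1000000

noncomputable section

namespace Fermat.Agent.S18x.Dict.H22

open AlgebraicCurve ModularCurve IntermediateField
open Fermat.Agent.S18x.Dict.H20 Fermat.Agent.S18x.Dict.H23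

local notation "Lbar" => AlgebraicClosure ℚ

/-- The Kummer statement over `(K, O = A ∩ K)` at the exponent `m`. -/
def StKumKO (A : ValuationSubring Lbar) (M : ℕ) [NeZero M] (m : ℕ)
    (K : IntermediateField ℚ Lbar) : Prop :=
  ∀ f : ↥(modularFunctionFieldFullC ↥K M),
    (∃ hf : (f : LaurentSeries ↥K) ∈ gaussRing (A.comap (algebraMap ↥K Lbar)),
      gaussRed (A.comap (algebraMap ↥K Lbar)) ⟨f, hf⟩ = 1) →
    (∀ π : A.comap (algebraMap ↥K Lbar), Irreducible π →
      ∃ v : ↥(modularFunctionFieldFullC ↥K M),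
        (v : LaurentSeries ↥K) ∈ gaussRing (A.comap (algebraMap ↥K Lbar)) ∧
        f - 1 = algebraMap ↥K ↥(modularFunctionFieldFullC ↥K M) (π : ↥K) * v) →
    (∀ v : Place ↥K ↥(modularFunctionFieldFullC ↥K M), (m : ℤ) ∣ v.ord f) →
    ∃ u : ↥(modularFunctionFieldBar M), u ^ m = iotaK ↥K M f

/-- It suffices to prove `StKumKO` under the additional hypothesis that `ι f` is NOT an `m`-th
power in `F_L`. -/
theorem stKumKO_of_not (A : ValuationSubring Lbar) (M : ℕ) [NeZero M] (m : ℕ)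
    (K : IntermediateField ℚ Lbar)
    (h : ∀ f : ↥(modularFunctionFieldFullC ↥K M),
      (∃ hf : (f : LaurentSeries ↥K) ∈ gaussRing (A.comap (algebraMap ↥K Lbar)),
        gaussRed (A.comap (algebraMap ↥K Lbar)) ⟨f, hf⟩ = 1) →
      (∀ π : A.comap (algebraMap ↥K Lbar), Irreducible π →
        ∃ v : ↥(modularFunctionFieldFullC ↥K M),
          (v : LaurentSeries ↥K) ∈ gaussRing (A.comap (algebraMap ↥K Lbar)) ∧
          f - 1 = algebraMap ↥K ↥(modularFunctionFieldFullC ↥K M) (π : ↥K) * v) →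
      (∀ v : Place ↥K ↥(modularFunctionFieldFullC ↥K M), (m : ℤ) ∣ v.ord f) →
      (¬ ∃ u : ↥(modularFunctionFieldBar M), u ^ m = iotaK ↥K M f) →
      ∃ u : ↥(modularFunctionFieldFullC ↥K M), u ^ m = f) :
    StKumKO A M m K := by
  intro f hG hπ hv
  by_contra hne
  obtain ⟨u, hu⟩ := h f hG hπ hv hne
  exact hne ⟨iotaK ↥K M u, h22_pow_up M K m hu⟩

/-- **(D5a), top form.** -/
theorem h22_stKumVAt_of_finite (A : ValuationSubring Lbar) {ℓ : ℕ} (hℓ : ℓ.Prime)
    (hA : A.LiesOverPrime ℓ) (M : ℕ) [NeZero M] (m : ℕ)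
    (K₁ : IntermediateField ℚ Lbar) [FiniteDimensional ℚ K₁]
    (hK : ∀ K : IntermediateField ℚ Lbar, K₁ ≤ K → FiniteDimensional ℚ K → StKumKO A M m K) :
    Fermat.Agent.S18x.Kum.StKumVAt A M m := by
  intro y hy hred hdiv
  exact h22_kum_of_finite A hℓ hA M m K₁ (fun K hK₁ hfin => hK K hK₁ hfin) y hy hred hdiv

/-- **(D5a), prime-exponent form** (`Kum.StKumVPrime`). -/
theorem h22_stKumVPrime_of_finite (A : ValuationSubring Lbar) {ℓ : ℕ} (hℓ : ℓ.Prime)
    (hA : A.LiesOverPrime ℓ) (M : ℕ) [NeZero M]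
    (hK : ∀ p : ℕ, p.Prime → p ≠ ℓ → ∃ K₁ : IntermediateField ℚ Lbar, FiniteDimensional ℚ K₁ ∧
      ∀ K : IntermediateField ℚ Lbar, K₁ ≤ K → FiniteDimensional ℚ K → StKumKO A M p K) :
    Fermat.Agent.S18x.Kum.StKumVPrime A M ℓ := by
  intro p hp hpl
  obtain ⟨K₁, hfin, h⟩ := hK p hp hpl
  have := hfin
  exact h22_stKumVAt_of_finite A hℓ hA M p K₁ h

end Fermat.Agent.S18x.Dict.H22
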