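import Mathlib
import Fermat.Prelude.Def_ModularCurve_LaurentCoeff

/-!
# S18 [DICT] (D4): the constant field of a Kummer extension of a field of Laurent series

* `h23_algebraic_const`: a Laurent series over a field `K` which is algebraic over `K` is constant.
* `h23_hconst_alg` / `h23_hconst`: let `F ⊆ K((q))` be an intermediate field, `F' / F` of prime
  degree containing `u` with `u ^ m = f ∈ F`, and assume that `f` is not an `m`-th power in an
  intermediate field `FL ⊆ L((q))` (`L` algebraically closed) containing the image of `F`.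
  Then `K` is algebraically closed in `F'`; hence every element of `F'` integral over an integrally
  closed `O` with fraction field `K` lies in `O`.
-/

set_option autoImplicit false

open Polynomial

namespace Fermat.Agent.S18x.Dict.H23

section Const

variable {K : Type*} [Field K]

theorem h23_algebraMap_comp :
    (algebraMap (PowerSeries K) (LaurentSeries K)).comp (algebraMap K (PowerSeries K)) =
      algebraMap K (LaurentSeries K) := by
  ext c : 1
  rw [RingHom.comp_apply, ModularCurve.algebraMap_laurentSeries_eq_single,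
    LaurentSeries.coe_algebraMap]
  have h1 : algebraMap K (PowerSeries K) c = PowerSeries.C c := by simp
  rw [h1, HahnSeries.ofPowerSeries_C]
  rfl

/-- A Laurent series algebraic over the constants is a power series. -/
theorem h23_algebraic_eq_coe (y : LaurentSeries K) (hy : IsAlgebraic K y) :
    ∃ p : PowerSeries K, (p : LaurentSeries K) = y := by
  obtain ⟨P, hmonic, hP⟩ := hy.isIntegral
  have h2 : IsIntegral (PowerSeries K) y := by
    refine ⟨P.map (algebraMap K (PowerSeries K)), hmonic.map _, ?_⟩
    rw [Polynomial.eval₂_map, h23_algebraMap_comp]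
    exact hP
  obtain ⟨p, hp⟩ := IsIntegrallyClosed.isIntegral_iff.1 h2
  refine ⟨p, ?_⟩
  rw [← hp, LaurentSeries.coe_algebraMap]

/-- A nonzero Laurent series algebraic over the constants is a power series with nonzero constant
coefficient. -/
theorem h23_algebraic_eq_unit (x : LaurentSeries K) (hx : IsAlgebraic K x) (hx0 : x ≠ 0) :
    ∃ p : PowerSeries K, (p : LaurentSeries K) = x ∧ PowerSeries.constantCoeff p ≠ 0 := by
  obtain ⟨p, hp⟩ := h23_algebraic_eq_coe x hx
  obtain ⟨p', hp'⟩ := h23_algebraic_eq_coe x⁻¹ hx.inv
  refine ⟨p, hp, ?_⟩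
  have h1 : ((p * p' : PowerSeries K) : LaurentSeries K) =
      ((1 : PowerSeries K) : LaurentSeries K) := by
    rw [map_mul, hp, hp', mul_inv_cancel₀ hx0, map_one]
  have h2 : p * p' = 1 := HahnSeries.ofPowerSeries_injective h1
  intro h0
  have h3 := congrArg PowerSeries.constantCoeff h2
  rw [map_mul, h0, zero_mul, map_one] at h3
  exact zero_ne_one h3

/-- **(c)** `K` is algebraically closed in `K((q))`. -/
theorem h23_algebraic_const (x : LaurentSeries K) (hx : IsAlgebraic K x) :
    ∃ c : K, algebraMap K (LaurentSeries K) c = x := by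
  obtain ⟨p, hp⟩ := h23_algebraic_eq_coe x hx
  refine ⟨PowerSeries.constantCoeff p, ?_⟩
  by_contra hne
  have hw0 : x - algebraMap K (LaurentSeries K) (PowerSeries.constantCoeff p) ≠ 0 :=
    fun h => hne (sub_eq_zero.1 h).symm
  have hw : IsAlgebraic K (x - algebraMap K (LaurentSeries K) (PowerSeries.constantCoeff p)) :=
    hx.sub (isAlgebraic_algebraMap _)
  obtain ⟨r, hr, hr0⟩ := h23_algebraic_eq_unit _ hw hw0
  have h1 : ((p - PowerSeries.C (PowerSeries.constantCoeff p) : PowerSeries K) :
      LaurentSeries K) = (r : LaurentSeries K) := by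
    rw [hr, map_sub, hp, HahnSeries.ofPowerSeries_C,
      ModularCurve.algebraMap_laurentSeries_eq_single]
    rfl
  have h2 := HahnSeries.ofPowerSeries_injective h1
  apply hr0
  rw [← h2, map_sub, PowerSeries.constantCoeff_C, sub_self]

end Const

section Main

variable {K L : Type*} [Field K] [Field L] [Algebra K L]

/-- The embedding of an intermediate field `F ⊆ K((q))` into `L((q))`. -/
noncomputable def h23_iota (F : IntermediateField K (LaurentSeries K)) :
    F →+* LaurentSeries L :=
  (ModularCurve.coeffMap (algebraMap K L)).comp (algebraMap F (LaurentSeries K))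

theorem h23_iota_apply (F : IntermediateField K (LaurentSeries K)) (a : F) :
    h23_iota (L := L) F a = ModularCurve.coeffMap (algebraMap K L) (a : LaurentSeries K) := rfl

theorem h23_iota_comp (F : IntermediateField K (LaurentSeries K)) :
    (h23_iota (L := L) F).comp (algebraMap K F) =
      (algebraMap L (LaurentSeries L)).comp (algebraMap K L) := by
  ext c : 1
  rw [RingHom.comp_apply, RingHom.comp_apply, h23_iota_apply,
    ModularCurve.algebraMap_laurentSeries_eq_single]
  have h1 : ((algebraMap K F c : F) : LaurentSeries K) = algebraMap K (LaurentSeries K) c := rfl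
  rw [h1, ModularCurve.algebraMap_laurentSeries_eq_single, ModularCurve.coeffMap_single]

variable [IsAlgClosed L]
variable (F : IntermediateField K (LaurentSeries K)) (FL : IntermediateField L (LaurentSeries L))
variable {F' : Type*} [Field F'] [Algebra F F'] [Algebra K F'] [IsScalarTower K F F']

/-- **(D4a)** `K` is algebraically closed in a prime-degree extension `F'` of `F ⊆ K((q))`
containing an `m`-th root of an element `f ∈ F` which is not an `m`-th power in `FL ⊆ L((q))`. -/
theorem h23_hconst_alg
    (hι : ∀ x ∈ F, ModularCurve.coeffMap (algebraMap K L) x ∈ FL)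
    (hprime : (Module.finrank F F').Prime) (u : F') (f : F) (m : ℕ)
    (hu : u ^ m = algebraMap F F' f)
    (hf : ∀ g ∈ FL, g ^ m ≠ ModularCurve.coeffMap (algebraMap K L) (f : LaurentSeries K))
    (x : F') (hx : IsAlgebraic K x) : ∃ c : K, algebraMap K F' c = x := by
  by_contra hne
  -- Step 1: `x ∉ F`
  have hxF : x ∉ (⊥ : IntermediateField F F') := by
    intro hmem
    rw [IntermediateField.mem_bot] at hmem
    obtain ⟨y, rfl⟩ := hmem
    have hy : IsAlgebraic K y := (isAlgebraic_algebraMap_iff (algebraMap F F').injective).1 hx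
    have hy' : IsAlgebraic K (algebraMap F (LaurentSeries K) y) :=
      (isAlgebraic_algebraMap_iff (algebraMap F (LaurentSeries K)).injective).2 hy
    obtain ⟨c, hc⟩ := h23_algebraic_const _ hy'
    apply hne
    refine ⟨c, ?_⟩
    rw [IsScalarTower.algebraMap_apply K F F']
    congr 1
    exact Subtype.ext hc
  -- Step 2: `F(x) = F'`
  have hsimple := IntermediateField.isSimpleOrder_of_finrank_prime F F' hprime
  have htop : IntermediateField.adjoin F {x} = ⊤ := by
    rcases eq_bot_or_eq_top (IntermediateField.adjoin F {x}) with h | h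
    · exact absurd (h ▸ IntermediateField.mem_adjoin_simple_self F x) hxF
    · exact h
  have hfd : FiniteDimensional F F' := Module.finite_of_finrank_pos hprime.pos
  have hxint : IsIntegral F x := IsIntegral.of_finite F x
  -- Step 3: a root of `minpoly F x` in `L((q))`, which is a constant
  set P := minpoly K x with hP
  have hP0 : P ≠ 0 := minpoly.ne_zero hx.isIntegral
  set P' : (LaurentSeries L)[X] := (P.map (algebraMap K L)).map (algebraMap L (LaurentSeries L))
    with hP'
  have hP'0 : P' ≠ 0 := by
    rw [hP', Polynomial.map_ne_zero_iff (algebraMap L (LaurentSeries L)).injective,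
      Polynomial.map_ne_zero_iff (algebraMap K L).injective]
    exact hP0
  have hP'split : P'.Splits := (IsAlgClosed.splits _).map _
  have hdvd : (minpoly F x).map (h23_iota (L := L) F) ∣ P' := by
    have h1 := minpoly.dvd_map_of_isScalarTower K F x
    have h2 := Polynomial.map_dvd (h23_iota (L := L) F) h1
    rw [Polynomial.map_map, h23_iota_comp, ← Polynomial.map_map] at h2
    exact h2
  have hQsplit : ((minpoly F x).map (h23_iota (L := L) F)).Splits :=
    hP'split.of_dvd hP'0 hdvd
  have hQdeg : ((minpoly F x).map (h23_iota (L := L) F)).degree ≠ 0 := by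
    rw [Polynomial.degree_map]
    exact (minpoly.degree_pos hxint).ne'
  obtain ⟨ω, hω⟩ := hQsplit.exists_eval_eq_zero hQdeg
  have hωP' : Polynomial.eval ω P' = 0 :=
    Polynomial.eval_eq_zero_of_dvd_of_eval_eq_zero hdvd hω
  have hωalg : IsAlgebraic L ω := by
    refine ⟨P.map (algebraMap K L), ?_, ?_⟩
    · rw [Polynomial.map_ne_zero_iff (algebraMap K L).injective]
      exact hP0
    · rw [Polynomial.aeval_def, ← Polynomial.eval_map]
      exact hωP'
  obtain ⟨β, hβ⟩ := h23_algebraic_const ω hωalg
  have hωroot : Polynomial.eval₂ (h23_iota (L := L) F) ω (minpoly F x) = 0 := by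
    rw [← Polynomial.eval_map]
    exact hω
  have hωmem : ω ∈ FL := by
    rw [← hβ]
    exact FL.algebraMap_mem β
  -- Step 4: `u` is a polynomial in `x`
  have hu_mem : u ∈ IntermediateField.adjoin F {x} := htop ▸ IntermediateField.mem_top
  have hu_mem' : u ∈ Algebra.adjoin F {x} := by
    rw [← IntermediateField.adjoin_simple_toSubalgebra_of_isAlgebraic hxint.isAlgebraic]
    exact hu_mem
  rw [Algebra.adjoin_singleton_eq_range_aeval] at hu_mem'
  obtain ⟨g, hg⟩ := hu_mem'
  have hg' : Polynomial.aeval x g = u := hg
  have hdvd2 : minpoly F x ∣ g ^ m - Polynomial.C f := by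
    apply minpoly.dvd
    rw [map_sub, map_pow, hg', hu, Polynomial.aeval_C, sub_self]
  -- Step 5: the image of `u` is an `m`-th root of `f` in `FL`
  have hval : Polynomial.eval₂ (h23_iota (L := L) F) ω (g ^ m - Polynomial.C f) = 0 := by
    obtain ⟨h, hh⟩ := hdvd2
    rw [hh, Polynomial.eval₂_mul, hωroot, zero_mul]
  rw [Polynomial.eval₂_sub, Polynomial.eval₂_pow, Polynomial.eval₂_C, sub_eq_zero,
    h23_iota_apply] at hval
  refine hf (Polynomial.eval₂ (h23_iota (L := L) F) ω g) ?_ hval
  rw [Polynomial.eval₂_eq_sum_range]
  refine sum_mem (fun i _ => ?_)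
  refine mul_mem ?_ (pow_mem hωmem _)
  rw [h23_iota_apply]
  exact hι _ (g.coeff i).2

/-- **(D4b)** `hconst`: every element of `F'` integral over an integrally closed domain `O` with
fraction field `K` comes from `O`. -/
theorem h23_hconst {O : Type*} [CommRing O] [IsDomain O] [IsIntegrallyClosed O] [Algebra O K]
    [IsFractionRing O K] [Algebra O F'] [IsScalarTower O K F']
    (hι : ∀ x ∈ F, ModularCurve.coeffMap (algebraMap K L) x ∈ FL)
    (hprime : (Module.finrank F F').Prime) (u : F') (f : F) (m : ℕ)
    (hu : u ^ m = algebraMap F F' f)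
    (hf : ∀ g ∈ FL, g ^ m ≠ ModularCurve.coeffMap (algebraMap K L) (f : LaurentSeries K))
    (x : F') (hx : IsIntegral O x) : ∃ c : O, algebraMap O F' c = x := by
  have hxK : IsIntegral K x := hx.tower_top
  obtain ⟨c, hc⟩ := h23_hconst_alg F FL hι hprime u f m hu hf x hxK.isAlgebraic
  have hcO : IsIntegral O c := by
    rw [← hc] at hx
    exact (isIntegral_algebraMap_iff (algebraMap K F').injective).1 hx
  obtain ⟨y, hy⟩ := IsIntegrallyClosed.isIntegral_iff.1 hcO
  refine ⟨y, ?_⟩
  rw [IsScalarTower.algebraMap_apply O K F', hy, hc]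

end Main

end Fermat.Agent.S18x.Dict.H23
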