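import Mathlib

/-!
# S18, package [DICT] (D4): the constants of a Kummer extension (helper17)

`K ⊆ F ⊆ F'` fields, `K` algebraically closed in `F`, `F' = F(u)` with `u ^ m = f ∈ F`,
`[F' : F] = m` prime.  If `f` is not an `m`-th power in an extension `E` of `F` which contains a
root of every irreducible polynomial over `K` (e.g. `E ⊇ F` generated by `F` and an algebraic
closure of `K`), then `K` is algebraically closed in `F'`.

* `h17_irreducible_map` : irreducible polynomials over `K` stay irreducible over `F`;
* `h17_algClosed_kummer` : the statement above;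
* `h17_hconst` : the corollary consumed by [SPEC]: for an integrally closed domain `O` with
  fraction field `K`, the elements of `F'` integral over `O` are the elements of `O`.
-/

set_option autoImplicit false

open Polynomial IntermediateField

namespace Fermat.Agent.S18x.Dict.H17

/-- If `K` is algebraically closed in `F`, a monic irreducible polynomial over `K` stays
irreducible over `F`. -/
theorem h17_irreducible_map {K F : Type*} [Field K] [Field F] [Algebra K F]
    (hK : ∀ y : F, IsAlgebraic K y → y ∈ (algebraMap K F).range)
    {p : K[X]} (hp : p.Monic) (hirr : Irreducible p) :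
    Irreducible (p.map (algebraMap K F)) := by
  have hinj : Function.Injective (algebraMap K F) := (algebraMap K F).injective
  rw [(hp.map _).irreducible_iff_natDegree]
  constructor
  · intro h1
    have hdeg : p.natDegree = 0 := by
      have := congrArg natDegree h1
      rwa [hp.natDegree_map, natDegree_one] at this
    have h2 : p = 1 := hp.natDegree_eq_zero.mp hdeg
    exact hirr.not_isUnit (h2 ▸ isUnit_one)
  · intro g h hg hh hgh
    have lift : ∀ q : F[X], q.Monic → q ∣ p.map (algebraMap K F) →
        ∃ q₀ : K[X], q₀.map (algebraMap K F) = q ∧ q₀.natDegree = q.natDegree ∧ q₀.Monic := by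
      intro q hq hdvd
      apply lifts_and_natDegree_eq_and_monic _ hq
      rw [lifts_iff_coeff_lifts]
      intro n
      have hint : IsIntegral K (q.coeff n) := isIntegral_coeff_of_dvd p q hp hq hdvd n
      exact RingHom.mem_range.mp (hK _ hint.isAlgebraic)
    obtain ⟨g₀, hg₀, hdg, -⟩ := lift g hg ⟨h, hgh.symm⟩
    obtain ⟨h₀, hh₀, hdh, -⟩ := lift h hh ⟨g, by rw [mul_comm]; exact hgh.symm⟩
    have hprod : g₀ * h₀ = p := by
      apply map_injective _ hinj
      rw [Polynomial.map_mul, hg₀, hh₀, hgh]
    rcases hirr.isUnit_or_isUnit hprod.symm with hu | hu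
    · left
      rw [← hdg]
      exact natDegree_eq_zero_of_isUnit hu
    · right
      rw [← hdh]
      exact natDegree_eq_zero_of_isUnit hu

/-- **(D4)** `K` is algebraically closed in the Kummer extension `F' = F(u)`. -/
theorem h17_algClosed_kummer {K F F' E : Type*} [Field K] [Field F] [Field F'] [Field E]
    [Algebra K F] [Algebra F F'] [Algebra K F'] [IsScalarTower K F F'] [Algebra F E]
    (hK : ∀ y : F, IsAlgebraic K y → y ∈ (algebraMap K F).range)
    (hE : ∀ p : K[X], p.Monic → Irreducible p →
      ∃ r : E, aeval r (p.map (algebraMap K F)) = 0)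
    (m : ℕ) (hm : m.Prime) (f : F) (hf : ¬ ∃ g : E, g ^ m = algebraMap F E f)
    (u : F') (hu : u ^ m = algebraMap F F' f) (hrank : Module.finrank F F' = m)
    (x : F') (hx : IsAlgebraic K x) : x ∈ (algebraMap K F').range := by
  have hfin : FiniteDimensional F F' :=
    Module.finite_of_finrank_pos (by rw [hrank]; exact hm.pos)
  have hxK : IsIntegral K x := hx.isIntegral
  have hpm : (minpoly K x).Monic := minpoly.monic hxK
  have hpirr : Irreducible (minpoly K x) := minpoly.irreducible hxK
  have hPirr := h17_irreducible_map hK hpm hpirr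
  have hPx : aeval x ((minpoly K x).map (algebraMap K F)) = 0 := by
    rw [aeval_map_algebraMap]
    exact minpoly.aeval K x
  have hmin : (minpoly K x).map (algebraMap K F) = minpoly F x :=
    minpoly.eq_of_irreducible_of_monic hPirr hPx (hpm.map _)
  have hxF : IsIntegral F x := IsIntegral.of_finite F x
  have hd : (minpoly F x).natDegree = (minpoly K x).natDegree := by
    rw [← hmin, hpm.natDegree_map]
  have hdvd : (minpoly K x).natDegree ∣ m := by
    rw [← hd, ← IntermediateField.adjoin.finrank hxF, ← hrank]
    exact Dvd.intro _ (Module.finrank_mul_finrank F F⟮x⟯ F')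
  rcases (Nat.dvd_prime hm).mp hdvd with h1 | h1
  · exact minpoly.natDegree_eq_one_iff.mp h1
  · exfalso
    have htop : F⟮x⟯ = ⊤ := by
      apply IntermediateField.eq_of_le_of_finrank_eq le_top
      rw [IntermediateField.adjoin.finrank hxF, hd, h1, IntermediateField.finrank_top', hrank]
    have hu_mem : u ∈ Algebra.adjoin F {x} := by
      rw [← IntermediateField.adjoin_simple_toSubalgebra_of_isAlgebraic hxF.isAlgebraic, htop]
      trivial
    rw [Algebra.adjoin_singleton_eq_range_aeval] at hu_mem
    obtain ⟨Q, hQ⟩ := hu_mem
    have hQ' : aeval x Q = u := hQ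
    have hdiv : minpoly F x ∣ Q ^ m - C f := by
      apply minpoly.dvd
      rw [map_sub, map_pow, hQ', aeval_C, hu, sub_self]
    obtain ⟨r, hr⟩ := hE (minpoly K x) hpm hpirr
    rw [hmin] at hr
    apply hf
    refine ⟨aeval r Q, ?_⟩
    obtain ⟨c, hc⟩ := hdiv
    have h2 := congrArg (aeval r) hc
    rw [map_sub, map_pow, aeval_C, map_mul, hr, zero_mul] at h2
    exact sub_eq_zero.mp h2

/-- **(D4)**, in the shape consumed by [SPEC] (`hconst`): the elements of `F'` integral over an
integrally closed domain `O` with fraction field `K` are the elements of `O`. -/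
theorem h17_hconst {O K F F' E : Type*} [CommRing O] [IsDomain O] [IsIntegrallyClosed O]
    [Field K] [Field F] [Field F'] [Field E] [Algebra O K] [IsFractionRing O K]
    [Algebra K F] [Algebra F F'] [Algebra K F'] [IsScalarTower K F F'] [Algebra F E]
    [Algebra O F'] [IsScalarTower O K F']
    (hK : ∀ y : F, IsAlgebraic K y → y ∈ (algebraMap K F).range)
    (hE : ∀ p : K[X], p.Monic → Irreducible p →
      ∃ r : E, aeval r (p.map (algebraMap K F)) = 0)
    (m : ℕ) (hm : m.Prime) (f : F) (hf : ¬ ∃ g : E, g ^ m = algebraMap F E f)
    (u : F') (hu : u ^ m = algebraMap F F' f) (hrank : Module.finrank F F' = m)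
    (x : F') (hx : IsIntegral O x) : ∃ c : O, algebraMap O F' c = x := by
  have hxK : IsAlgebraic K x := (hx.tower_top (A := K)).isAlgebraic
  obtain ⟨y, rfl⟩ := RingHom.mem_range.mp
    (h17_algClosed_kummer hK hE m hm f hf u hu hrank x hxK)
  have hy : IsIntegral O y :=
    (isIntegral_algHom_iff (IsScalarTower.toAlgHom O K F') (algebraMap K F').injective).mp hx
  obtain ⟨c, hc⟩ := IsIntegrallyClosed.isIntegral_iff.mp hy
  exact ⟨c, by rw [IsScalarTower.algebraMap_apply O K F', hc]⟩

end Fermat.Agent.S18x.Dict.H17
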