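import Mathlib

/-!
# S18 / [DICT] (helper7): the local input `(LOC)` from `(SM)` and `(DIV)`, without rational points

`R` a noetherian local domain whose maximal ideal is `(π, t)` with `(π)` prime and `t ∉ (π)`
(so `R / π` is a discrete valuation ring with uniformiser `t`).

* `h7_exists_unit_pow` : every `x ∉ (π)` is `v * t ^ d + π * c` with `v` a unit;
* `h7_pow_unique` : the exponent `d` is unique;
* `h7_ufm` : `R` is a unique factorisation domain (Kaplansky's criterion);
* `h7_loc` : if `a ≡ b mod π`, `b ∉ (π)` and every prime element `g` not associated to `π`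
  has `m ∣ ord_g a - ord_g b`, then `a / b = u * (c / d) ^ m` with `u` a unit of `R` and
  `c ≡ d mod π`, `c, d ∉ (π)`.
-/

set_option autoImplicit false
set_option linter.unusedSectionVars false

namespace Fermat.Agent.S18x.Dict.H7

open IsLocalRing

section Local

variable {R : Type*} [CommRing R] [IsLocalRing R] [IsNoetherianRing R]

/-- Krull intersection in element form: `⋂ ((π) + (t ^ n)) = (π)`. -/
theorem h7_mem_span_of_forall (π t : R) (ht : t ∈ maximalIdeal R) (x : R)
    (hx : ∀ n : ℕ, ∃ c d : R, x = t ^ n * c + π * d) : x ∈ Ideal.span {π} := by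
  have hne : (Ideal.span {t} : Ideal R) ≠ ⊤ := by
    intro h
    have hle : (Ideal.span {t} : Ideal R) ≤ maximalIdeal R := by
      rw [Ideal.span_le]
      simpa using ht
    rw [h] at hle
    exact (maximalIdeal.isMaximal R).ne_top (top_le_iff.mp hle)
  have hK := Ideal.iInf_pow_smul_eq_bot_of_isLocalRing (R := R) (I := Ideal.span {t})
    (M := R ⧸ (Ideal.span {π} : Ideal R)) hne
  have hmem : (Ideal.Quotient.mk (Ideal.span {π}) x : R ⧸ (Ideal.span {π} : Ideal R)) ∈
      (⨅ i : ℕ, (Ideal.span {t} : Ideal R) ^ i •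
        (⊤ : Submodule R (R ⧸ (Ideal.span {π} : Ideal R)))) := by
    rw [Submodule.mem_iInf]
    intro n
    obtain ⟨c, d, hcd⟩ := hx n
    have h1 : (Ideal.Quotient.mk (Ideal.span {π}) x : R ⧸ (Ideal.span {π} : Ideal R)) =
        (t ^ n) • (Ideal.Quotient.mk (Ideal.span {π}) c : R ⧸ (Ideal.span {π} : Ideal R)) := by
      have h2 : Ideal.Quotient.mk (Ideal.span {π}) x =
          Ideal.Quotient.mk (Ideal.span {π}) (t ^ n * c) := by
        apply Ideal.Quotient.eq.mpr
        rw [hcd, add_sub_cancel_left]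
        exact Ideal.mul_mem_right _ _ (Ideal.mem_span_singleton_self π)
      rw [h2]
      rfl
    rw [h1]
    refine Submodule.smul_mem_smul ?_ Submodule.mem_top
    rw [Ideal.span_singleton_pow]
    exact Ideal.mem_span_singleton_self _
  rw [hK] at hmem
  exact Ideal.Quotient.eq_zero_iff_mem.mp ((Submodule.mem_bot R).mp hmem)

variable (π t : R) (hm : maximalIdeal R = Ideal.span {π, t})

include hm in
theorem h7_t_mem : t ∈ maximalIdeal R := by
  rw [hm]
  exact Ideal.subset_span (by simp)

include hm in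
theorem h7_pi_mem : π ∈ maximalIdeal R := by
  rw [hm]
  exact Ideal.subset_span (by simp)

include hm in
/-- Every `x ∉ (π)` is a unit times a power of `t` modulo `π`. -/
theorem h7_exists_unit_pow (x : R) (hx : x ∉ Ideal.span {π}) :
    ∃ (d : ℕ) (v c : R), IsUnit v ∧ x = v * t ^ d + π * c := by
  by_contra hcon
  push Not at hcon
  apply hx
  apply h7_mem_span_of_forall π t (h7_t_mem π t hm) x
  intro n
  induction n with
  | zero => exact ⟨x, 0, by simp⟩
  | succ n ih =>
    obtain ⟨c, d, hcd⟩ := ih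
    have hc : ¬ IsUnit c := fun hu => hcon n c d hu (by rw [hcd]; ring)
    have hcm : c ∈ maximalIdeal R := (mem_maximalIdeal c).mpr hc
    rw [hm, Ideal.mem_span_pair] at hcm
    obtain ⟨a, b, hab⟩ := hcm
    exact ⟨b, d + t ^ n * a, by rw [hcd, ← hab]; ring⟩

include hm in
/-- Uniqueness of the exponent. -/
theorem h7_pow_unique (hπ : (Ideal.span {π} : Ideal R).IsPrime) (ht : t ∉ Ideal.span {π})
    {α β : ℕ} {v w c c' : R} (hv : IsUnit v) (hw : IsUnit w)
    (h : v * t ^ α + π * c = w * t ^ β + π * c') : α = β := by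
  have key : ∀ {α β : ℕ} {v w c c' : R}, IsUnit v → IsUnit w →
      v * t ^ α + π * c = w * t ^ β + π * c' → ¬ α < β := by
    intro α β v w c c' hv hw h hlt
    obtain ⟨k, rfl⟩ := Nat.exists_eq_add_of_lt hlt
    have h1 : t ^ α * (v - w * t ^ (k + 1)) = π * (c' - c) := by
      have : α + k + 1 = α + (k + 1) := by ring
      rw [this, pow_add] at h
      linear_combination h
    have h2 : t ^ α * (v - w * t ^ (k + 1)) ∈ Ideal.span {π} := by
      rw [h1]
      exact Ideal.mul_mem_right _ _ (Ideal.mem_span_singleton_self π)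
    have h3 : v - w * t ^ (k + 1) ∈ Ideal.span {π} := by
      rcases hπ.mem_or_mem h2 with h4 | h4
      · exact absurd (hπ.mem_of_pow_mem _ h4) ht
      · exact h4
    have h5 : v - w * t ^ (k + 1) ∈ maximalIdeal R := by
      have hle : (Ideal.span {π} : Ideal R) ≤ maximalIdeal R := by
        rw [Ideal.span_le]
        simpa using h7_pi_mem π t hm
      exact hle h3
    have h6 : w * t ^ (k + 1) ∈ maximalIdeal R := by
      rw [pow_succ]
      exact Ideal.mul_mem_left _ _ (Ideal.mul_mem_left _ _ (h7_t_mem π t hm))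
    have h7 : v ∈ maximalIdeal R := by
      have := Ideal.add_mem _ h5 h6
      simpa using this
    exact ((mem_maximalIdeal v).mp h7) hv
  rcases lt_trichotomy α β with h1 | h1 | h1
  · exact absurd h1 (key hv hw h)
  · exact h1
  · exact absurd h1 (key hw hv h.symm)

end Local

section Domain

variable {R : Type*} [CommRing R] [IsDomain R] [IsLocalRing R] [IsNoetherianRing R]
variable (π t : R) (hm : maximalIdeal R = Ideal.span {π, t})
  (hπ : (Ideal.span {π} : Ideal R).IsPrime) (hπ0 : π ≠ 0) (ht : t ∉ Ideal.span {π})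

include hπ hπ0 in
theorem h7_prime_pi : Prime π :=
  (Ideal.span_singleton_prime hπ0).mp hπ

include hπ hπ0 in
/-- A nonzero element is a power of `π` times an element outside `(π)`. -/
theorem h7_exists_pow_mul (x : R) (hx : x ≠ 0) :
    ∃ (n : ℕ) (y : R), x = π ^ n * y ∧ y ∉ Ideal.span {π} := by
  have hp := h7_prime_pi π hπ hπ0
  have hfin : FiniteMultiplicity π x :=
    FiniteMultiplicity.of_prime_left hp hx
  obtain ⟨n, hn⟩ := hfin
  induction n generalizing x with
  | zero =>
    refine ⟨0, x, by simp, ?_⟩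
    rw [Ideal.mem_span_singleton]
    simpa using hn
  | succ n ih =>
    by_cases hd : π ∣ x
    · obtain ⟨y, rfl⟩ := hd
      have hy : y ≠ 0 := right_ne_zero_of_mul hx
      have hny : ¬ π ^ (n + 1) ∣ y := by
        intro h
        apply hn
        rw [pow_succ' π (n + 1)]
        exact mul_dvd_mul_left π h
      obtain ⟨k, z, hz, hz'⟩ := ih y hy hny
      exact ⟨k + 1, z, by rw [hz]; ring, hz'⟩
    · exact ⟨0, x, by simp, by rwa [Ideal.mem_span_singleton]⟩

include hm hπ hπ0 in
/-- **`R` is a UFD** (Kaplansky's criterion). -/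
theorem h7_ufm : UniqueFactorizationMonoid R := by
  have hp := h7_prime_pi π hπ hπ0
  rw [UniqueFactorizationMonoid.iff_exists_prime_mem_of_isPrime]
  intro P hP0 hPp
  by_cases hπP : π ∈ P
  · exact ⟨π, hπP, hp⟩
  -- every element of `P` outside `(π)` has a positive exponent
  have hpos : ∀ x ∈ P, ∀ (d : ℕ) (v c : R), IsUnit v → x = v * t ^ d + π * c → 0 < d := by
    intro x hxP d v c hv hx
    rcases Nat.eq_zero_or_pos d with h0 | h0
    · exfalso
      subst h0
      have hu : IsUnit x := by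
        rw [hx, pow_zero, mul_one]
        have hnu : π * c ∈ maximalIdeal R :=
          Ideal.mul_mem_right _ _ (h7_pi_mem π t hm)
        by_contra hnon
        have h1 : v + π * c ∈ maximalIdeal R := (mem_maximalIdeal _).mpr hnon
        have h2 : v ∈ maximalIdeal R := by
          have := Ideal.sub_mem _ h1 hnu
          simpa using this
        exact ((mem_maximalIdeal v).mp h2) hv
      exact hPp.ne_top (Ideal.eq_top_of_isUnit_mem _ hxP hu)
    · exact h0
  -- there is an element of `P` outside `(π)`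
  obtain ⟨x₀, hx₀P, hx₀⟩ : ∃ x ∈ P, x ∉ Ideal.span {π} := by
    obtain ⟨x, hxP, hx0⟩ : ∃ x ∈ P, x ≠ 0 := by
      by_contra hcon
      push Not at hcon
      apply hP0
      rw [eq_bot_iff]
      intro x hx
      exact (Submodule.mem_bot R).mpr (hcon x hx)
    obtain ⟨n, y, hy, hy'⟩ := h7_exists_pow_mul π hπ hπ0 x hx0
    refine ⟨y, ?_, hy'⟩
    rw [hy] at hxP
    rcases hPp.mem_or_mem hxP with h | h
    · exact absurd (hPp.mem_of_pow_mem _ h) hπP
    · exact h
  -- the set of exponents occurring in `P`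
  let S : Set ℕ := {d | ∃ x ∈ P, ∃ v c : R, IsUnit v ∧ x = v * t ^ d + π * c}
  have hS : S.Nonempty := by
    obtain ⟨d, v, c, hv, hx⟩ := h7_exists_unit_pow π t hm x₀ hx₀
    exact ⟨d, x₀, hx₀P, v, c, hv, hx⟩
  classical
  have hmin := Nat.find_spec hS
  obtain ⟨g, hgP, v, c, hv, hg⟩ := hmin
  set d₀ := Nat.find hS with hd₀
  have hle : ∀ d ∈ S, d₀ ≤ d := fun d hd => Nat.find_min' hS hd
  -- `P ≤ (g) ⊔ π • P`
  have hPle : P ≤ Ideal.span {g} ⊔ (maximalIdeal R) • P := by
    intro x hxP
    by_cases hxπ : x ∈ Ideal.span {π}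
    · rw [Ideal.mem_span_singleton] at hxπ
      obtain ⟨y, rfl⟩ := hxπ
      have hyP : y ∈ P := (hPp.mem_or_mem hxP).resolve_left hπP
      apply Submodule.mem_sup_right
      exact Submodule.smul_mem_smul (h7_pi_mem π t hm) hyP
    · obtain ⟨d, v', c', hv', hx⟩ := h7_exists_unit_pow π t hm x hxπ
      have hd : d₀ ≤ d := hle d ⟨x, hxP, v', c', hv', hx⟩
      obtain ⟨k, rfl⟩ := Nat.exists_eq_add_of_le hd
      obtain ⟨vi, hvi⟩ := hv.exists_right_inv
      set r := v' * vi * t ^ k with hr
      have h1 : x - r * g = π * (c' - r * c) := by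
        rw [hx, hg, hr, pow_add]
        linear_combination (-(v' * t ^ d₀ * t ^ k)) * hvi
      have h2 : π * (c' - r * c) ∈ P := by
        rw [← h1]
        exact P.sub_mem hxP (P.mul_mem_left _ hgP)
      have h3 : c' - r * c ∈ P := (hPp.mem_or_mem h2).resolve_left hπP
      have h4 : x = r * g + π * (c' - r * c) := by rw [← h1]; ring
      rw [h4]
      apply Submodule.add_mem
      · apply Submodule.mem_sup_left
        exact Ideal.mul_mem_left _ _ (Ideal.mem_span_singleton_self g)
      · apply Submodule.mem_sup_right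
        exact Submodule.smul_mem_smul (h7_pi_mem π t hm) h3
  have hPfg : (P : Submodule R R).FG := IsNoetherian.noetherian P
  have hjac : maximalIdeal R ≤ Ideal.jacobson ⊥ := by
    rw [IsLocalRing.jacobson_eq_maximalIdeal ⊥ bot_ne_top]
  have hPg : P ≤ Ideal.span {g} :=
    Submodule.le_of_le_smul_of_le_jacobson_bot hPfg hjac hPle
  have hPeq : P = Ideal.span {g} :=
    le_antisymm hPg ((Ideal.span_singleton_le_iff_mem P).mpr hgP)
  have hg0 : g ≠ 0 := by
    rintro rfl
    apply hP0
    rw [hPeq]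
    simp
  refine ⟨g, hgP, ?_⟩
  rw [← Ideal.span_singleton_prime hg0, ← hPeq]
  exact hPp

end Domain

section UFD

variable {R : Type*} [CommRing R] [IsDomain R] [UniqueFactorizationMonoid R]

/-- In a UFD, a nonzero element all of whose prime multiplicities are divisible by `m`
is a unit times an `m`-th power. -/
theorem h7_pow_of_multiplicity (m : ℕ) (x : R) (hx : x ≠ 0)
    (hdiv : ∀ g : R, Prime g → m ∣ multiplicity g x) :
    ∃ (u : Rˣ) (x₀ : R), x = u * x₀ ^ m := by
  induction x using (wellFounded_dvdNotUnit (α := R)).induction with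
  | _ x ih =>
    by_cases hu : IsUnit x
    · exact ⟨hu.unit, 1, by simp⟩
    · obtain ⟨g, hgirr, hgx⟩ := WfDvdMonoid.exists_irreducible_factor hu hx
      have hg : Prime g := UniqueFactorizationMonoid.irreducible_iff_prime.mp hgirr
      have hfin : FiniteMultiplicity g x := FiniteMultiplicity.of_prime_left hg hx
      obtain ⟨y, hy, hgy⟩ := hfin.exists_eq_pow_mul_and_not_dvd
      obtain ⟨j, hj⟩ := hdiv g hg
      have hkpos : 0 < multiplicity g x := dvd_iff_multiplicity_pos.mpr hgx
      obtain ⟨k, hk⟩ : ∃ k, k = multiplicity g x := ⟨_, rfl⟩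
      rw [← hk] at hy hj hkpos
      have hy0 : y ≠ 0 := by
        rintro rfl
        exact hgy (dvd_zero g)
      have hnu : ¬ IsUnit (g ^ k) := by
        intro h
        have h1 : g ∣ g ^ k := dvd_pow_self g hkpos.ne'
        exact hg.not_isUnit (isUnit_of_dvd_unit h1 h)
      have hdnu : DvdNotUnit y x := ⟨hy0, g ^ k, hnu, hy.trans (mul_comm _ _)⟩
      have hdivy : ∀ g' : R, Prime g' → m ∣ multiplicity g' y := by
        intro g' hg'
        by_cases hgg : g' ∣ g
        · have hass : Associated g' g := hg'.associated_of_dvd hg hgg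
          have h0 : multiplicity g' y = 0 := by
            rw [multiplicity_eq_zero]
            intro h
            exact hgy (hass.symm.dvd.trans h)
          rw [h0]
          exact dvd_zero m
        · have hfin' : FiniteMultiplicity g' (g ^ k * y) := by
            rw [← hy]
            exact FiniteMultiplicity.of_prime_left hg' hx
          have h1 : multiplicity g' x = multiplicity g' (g ^ k) + multiplicity g' y := by
            rw [← multiplicity_mul hg' hfin', ← hy]
          have h2 : multiplicity g' (g ^ k) = 0 := by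
            rw [multiplicity_eq_zero]
            intro h
            exact hgg (hg'.dvd_of_dvd_pow h)
          rw [h2, zero_add] at h1
          rw [← h1]
          exact hdiv g' hg'
      obtain ⟨u, y₀, hy₀⟩ := ih y hdnu hy0 hdivy
      refine ⟨u, g ^ j * y₀, ?_⟩
      rw [hy, hy₀, hj, pow_mul, mul_pow]
      ring

end UFD

section Main

variable {R : Type*} [CommRing R] [IsDomain R] [IsLocalRing R] [IsNoetherianRing R]

theorem h7_pow_add_mul (x c π : R) (m : ℕ) : ∃ c' : R, (x + π * c) ^ m = x ^ m + π * c' := by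
  obtain ⟨e, he⟩ := sub_dvd_pow_sub_pow (x + π * c) x m
  refine ⟨c * e, ?_⟩
  have h1 : x + π * c - x = π * c := by ring
  rw [h1] at he
  linear_combination he

/-- **(LOC ← SM)**: if `a ≡ b mod π`, `b ∉ (π)` and every prime element `g` of `R` not
associated to `π` has `m ∣ ord_g a - ord_g b`, then `a * d ^ m = u * b * c ^ m` with `u` a unit and
`c ≡ d mod π`, `c, d ∉ (π)`; i.e. `a / b = u * (c / d) ^ m` with `c / d ≡ 1`. -/
theorem h7_loc (π t : R) (hm : maximalIdeal R = Ideal.span {π, t})
    (hπ : (Ideal.span {π} : Ideal R).IsPrime) (hπ0 : π ≠ 0) (ht : t ∉ Ideal.span {π})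
    (m : ℕ) (hm0 : 0 < m) (a b : R) (hb : b ∉ Ideal.span {π}) (hab : a - b ∈ Ideal.span {π})
    (hdiv : ∀ g : R, Prime g → ¬ π ∣ g →
      (m : ℤ) ∣ (multiplicity g a : ℤ) - (multiplicity g b : ℤ)) :
    ∃ (u : Rˣ) (c d : R), c ∉ Ideal.span {π} ∧ d ∉ Ideal.span {π} ∧ c - d ∈ Ideal.span {π} ∧
      a * d ^ m = u * b * c ^ m := by
  have : UniqueFactorizationMonoid R := h7_ufm π t hm hπ hπ0
  let _ : GCDMonoid R := UniqueFactorizationMonoid.toGCDMonoid R
  have hp : Prime π := h7_prime_pi π hπ hπ0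
  have ha : a ∉ Ideal.span {π} := by
    intro h
    apply hb
    have := Ideal.sub_mem _ h hab
    simpa using this
  have ha0 : a ≠ 0 := by
    rintro rfl
    exact ha (Ideal.zero_mem _)
  have hb0 : b ≠ 0 := by
    rintro rfl
    exact hb (Ideal.zero_mem _)
  obtain ⟨a₁, b₁, ha₁, hb₁, hcop⟩ := extract_gcd a b
  obtain ⟨e, he⟩ : ∃ e : R, e = gcd a b := ⟨_, rfl⟩
  rw [← he] at ha₁ hb₁
  have ha₁0 : a₁ ≠ 0 := by
    rintro rfl
    exact ha0 (by rw [ha₁, mul_zero])
  have hb₁0 : b₁ ≠ 0 := by
    rintro rfl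
    exact hb0 (by rw [hb₁, mul_zero])
  have hncop : ∀ g : R, Prime g → g ∣ a₁ → ¬ g ∣ b₁ := by
    intro g hg h1 h2
    exact hg.not_isUnit (isUnit_of_dvd_unit (dvd_gcd h1 h2) hcop)
  have hmula : ∀ g : R, Prime g → multiplicity g a = multiplicity g e + multiplicity g a₁ := by
    intro g hg
    have hfin : FiniteMultiplicity g (e * a₁) := by
      rw [← ha₁]
      exact FiniteMultiplicity.of_prime_left hg ha0
    rw [← multiplicity_mul hg hfin, ← ha₁]
  have hmulb : ∀ g : R, Prime g → multiplicity g b = multiplicity g e + multiplicity g b₁ := by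
    intro g hg
    have hfin : FiniteMultiplicity g (e * b₁) := by
      rw [← hb₁]
      exact FiniteMultiplicity.of_prime_left hg hb0
    rw [← multiplicity_mul hg hfin, ← hb₁]
  have hπa₁ : ¬ π ∣ a₁ := by
    intro h
    apply ha
    rw [Ideal.mem_span_singleton, ha₁]
    exact h.mul_left e
  have hπb₁ : ¬ π ∣ b₁ := by
    intro h
    apply hb
    rw [Ideal.mem_span_singleton, hb₁]
    exact h.mul_left e
  have hdiv₁ : ∀ g : R, Prime g →
      (m : ℤ) ∣ (multiplicity g a₁ : ℤ) - (multiplicity g b₁ : ℤ) := by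
    intro g hg
    by_cases hπg : π ∣ g
    · have hass : Associated π g := hp.associated_of_dvd hg hπg
      have h1 : multiplicity g a₁ = 0 := by
        rw [multiplicity_eq_zero]
        intro h
        exact hπa₁ (hass.dvd.trans h)
      have h2 : multiplicity g b₁ = 0 := by
        rw [multiplicity_eq_zero]
        intro h
        exact hπb₁ (hass.dvd.trans h)
      rw [h1, h2]
      simp
    · have h := hdiv g hg hπg
      rw [hmula g hg, hmulb g hg] at h
      push_cast at h
      have h3 : ((multiplicity g e : ℤ) + multiplicity g a₁) - (multiplicity g e + multiplicity g b₁)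
          = (multiplicity g a₁ : ℤ) - multiplicity g b₁ := by ring
      rw [h3] at h
      exact h
  have hdiva : ∀ g : R, Prime g → m ∣ multiplicity g a₁ := by
    intro g hg
    by_cases hga : g ∣ a₁
    · have h2 : multiplicity g b₁ = 0 := multiplicity_eq_zero.mpr (hncop g hg hga)
      have h := hdiv₁ g hg
      rw [h2] at h
      simp only [Nat.cast_zero, sub_zero] at h
      exact Int.natCast_dvd_natCast.mp h
    · rw [multiplicity_eq_zero.mpr hga]
      exact dvd_zero m
  have hdivb : ∀ g : R, Prime g → m ∣ multiplicity g b₁ := by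
    intro g hg
    by_cases hgb : g ∣ b₁
    · have hga : ¬ g ∣ a₁ := fun h => hncop g hg h hgb
      have h2 : multiplicity g a₁ = 0 := multiplicity_eq_zero.mpr hga
      have h := hdiv₁ g hg
      rw [h2] at h
      simp only [Nat.cast_zero, zero_sub, dvd_neg] at h
      exact Int.natCast_dvd_natCast.mp h
    · rw [multiplicity_eq_zero.mpr hgb]
      exact dvd_zero m
  obtain ⟨u₁, a₀, ha₀⟩ := h7_pow_of_multiplicity m a₁ ha₁0 hdiva
  obtain ⟨u₂, b₀, hb₀⟩ := h7_pow_of_multiplicity m b₁ hb₁0 hdivb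
  have hm0' : m ≠ 0 := hm0.ne'
  have ha₀π : a₀ ∉ Ideal.span {π} := by
    intro h
    apply hπa₁
    rw [Ideal.mem_span_singleton] at h
    rw [ha₀]
    exact (dvd_pow h hm0').mul_left _
  have hb₀π : b₀ ∉ Ideal.span {π} := by
    intro h
    apply hπb₁
    rw [Ideal.mem_span_singleton] at h
    rw [hb₀]
    exact (dvd_pow h hm0').mul_left _
  have hcross : a * b₁ = b * a₁ := by
    rw [ha₁, hb₁]
    ring
  obtain ⟨α, va, ca, hva, hca⟩ := h7_exists_unit_pow π t hm a₀ ha₀π
  obtain ⟨β, vb, cb, hvb, hcb⟩ := h7_exists_unit_pow π t hm b₀ hb₀π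
  obtain ⟨s, hs⟩ := Ideal.mem_span_singleton.mp hab
  -- the congruence `u₂ b₀ ^ m ≡ u₁ a₀ ^ m mod π`
  have hcong : (u₂ : R) * b₀ ^ m - u₁ * a₀ ^ m ∈ Ideal.span {π} := by
    have h1 : b * ((u₂ : R) * b₀ ^ m - u₁ * a₀ ^ m) ∈ Ideal.span {π} := by
      have h2 : b * ((u₂ : R) * b₀ ^ m - u₁ * a₀ ^ m) = π * (- s * b₁) := by
        rw [← hb₀, ← ha₀]
        linear_combination hcross - b₁ * hs
      rw [h2]
      exact Ideal.mul_mem_right _ _ (Ideal.mem_span_singleton_self π)
    exact (hπ.mem_or_mem h1).resolve_left hb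
  obtain ⟨z, hz⟩ := Ideal.mem_span_singleton.mp hcong
  obtain ⟨ca', hca'⟩ := h7_pow_add_mul (va * t ^ α) ca π m
  obtain ⟨cb', hcb'⟩ := h7_pow_add_mul (vb * t ^ β) cb π m
  have hαβ : α = β := by
    have hunit1 : IsUnit ((u₁ : R) * va ^ m) := u₁.isUnit.mul (hva.pow m)
    have hunit2 : IsUnit ((u₂ : R) * vb ^ m) := u₂.isUnit.mul (hvb.pow m)
    have hkey : (u₂ : R) * vb ^ m * t ^ (m * β) + π * (u₂ * cb' - z) =
        (u₁ : R) * va ^ m * t ^ (m * α) + π * (u₁ * ca') := by
      have e1 : a₀ ^ m = va ^ m * t ^ (m * α) + π * ca' := by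
        rw [hca, hca', mul_pow, ← pow_mul, mul_comm α m]
      have e2 : b₀ ^ m = vb ^ m * t ^ (m * β) + π * cb' := by
        rw [hcb, hcb', mul_pow, ← pow_mul, mul_comm β m]
      rw [e1, e2] at hz
      linear_combination hz
    have h := h7_pow_unique π t hm hπ ht hunit2 hunit1 hkey
    exact (Nat.eq_of_mul_eq_mul_left hm0 h).symm
  subst hαβ
  obtain ⟨wb, hwb⟩ := hvb.exists_left_inv
  have hwbu : IsUnit wb := IsUnit.of_mul_eq_one vb hwb
  set r : R := va * wb with hr
  have hru : IsUnit r := hva.mul hwbu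
  have hdπ : r * b₀ ∉ Ideal.span {π} := by
    intro h
    rcases hπ.mem_or_mem h with h1 | h1
    · have hle : (Ideal.span {π} : Ideal R) ≤ maximalIdeal R := by
        rw [Ideal.span_le]
        simpa using h7_pi_mem π t hm
      exact ((mem_maximalIdeal r).mp (hle h1)) hru
    · exact hb₀π h1
  have hcd : a₀ - r * b₀ ∈ Ideal.span {π} := by
    have h1 : a₀ - r * b₀ = π * (ca - r * cb) := by
      rw [hca, hcb, hr]
      linear_combination (-(va * t ^ α)) * hwb
    rw [h1]
    exact Ideal.mul_mem_right _ _ (Ideal.mem_span_singleton_self π)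
  refine ⟨hru.unit ^ m * u₂⁻¹ * u₁, a₀, r * b₀, ha₀π, hdπ, hcd, ?_⟩
  have h1 : a * ((u₂ : R) * b₀ ^ m) = b * (u₁ * a₀ ^ m) := by
    rw [← hb₀, ← ha₀]
    exact hcross
  have h2 : ((u₂⁻¹ : Rˣ) : R) * (u₂ : R) = 1 := by
    rw [← Units.val_mul]
    simp
  simp only [Units.val_mul, Units.val_pow_eq_pow_val, IsUnit.unit_spec]
  linear_combination (r ^ m * ((u₂⁻¹ : Rˣ) : R)) * h1 - (a * r ^ m * b₀ ^ m) * h2

end Main

end Fermat.Agent.S18x.Dict.H7
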