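import Mathlib
import Fermat.Prelude.Def_AlgebraicCurve_DivisorClassGroup
import Fermat.Agent.S24.H21_PlaceOfVal
import Fermat.Agent.S18x.Dict.H7_Loc

/-!
# S18 / [DICT] (helper7): `(LOC)` at a closed point from `(SM)` and `(DIV)` in place form

* `h7_dvd_of_place` : in a UFD `R` with fraction field `F ⊇ K`, for a prime element `g` whose
  localisation contains `K`: if `m ∣ ord_P f` for every place `P` of `F / K` then
  `m ∣ ord_g a - ord_g b` for `f = a / b`  (the `g`-adic order is a valuation trivial on `K`,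
  hence a multiple of the order at a place: `S24.Orb.exists_place_of_valuation`);
* `h7_loc'` : `h7_loc` without the hypothesis `t ∉ (π)`;
* `h7_LOC_abs` : the local statement for an abstract localisation `R` of `B` at `𝔫`;
* `h7_LOC` : the input `hLOC` of the gluing theorem `h17_spec`, for subrings `B ≤ V` of `F`.
-/

set_option autoImplicit false
set_option linter.unusedSectionVars false
set_option linter.style.haveILetI false

namespace Fermat.Agent.S18x.Dict.H7

open AlgebraicCurve IsLocalRing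

section PlaceAdapter

variable {K F R : Type*} [Field K] [Field F] [Algebra K F] [CommRing R] [IsDomain R]
  [UniqueFactorizationMonoid R] [Algebra R F] [IsFractionRing R F]

/-- The `g`-adic order on the fraction field of a UFD. -/
noncomputable def h7_w (g : R) (x : F) : ℤ :=
  (multiplicity g (IsLocalization.sec (nonZeroDivisors R) x).1 : ℤ) -
    (multiplicity g ((IsLocalization.sec (nonZeroDivisors R) x).2 : R) : ℤ)

theorem h7_mult_mul (g : R) (hg : Prime g) (a b : R) (ha : a ≠ 0) (hb : b ≠ 0) :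
    multiplicity g (a * b) = multiplicity g a + multiplicity g b :=
  multiplicity_mul hg (FiniteMultiplicity.of_prime_left hg (mul_ne_zero ha hb))

theorem h7_w_eq (g : R) (hg : Prime g) (x : F) (a b : R) (ha : a ≠ 0) (hb : b ≠ 0)
    (h : x * algebraMap R F b = algebraMap R F a) :
    h7_w g x = (multiplicity g a : ℤ) - multiplicity g b := by
  have hinj : Function.Injective (algebraMap R F) := IsFractionRing.injective R F
  have hs := IsLocalization.sec_spec (nonZeroDivisors R) x
  set n := (IsLocalization.sec (nonZeroDivisors R) x).1 with hn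
  set d : R := ((IsLocalization.sec (nonZeroDivisors R) x).2 : R) with hd
  have hd0 : d ≠ 0 := nonZeroDivisors.ne_zero (IsLocalization.sec (nonZeroDivisors R) x).2.2
  have hkey : n * b = a * d := by
    apply hinj
    rw [map_mul, map_mul, ← hs, ← h]
    ring
  have hn0 : n ≠ 0 := by
    rintro h0
    rw [h0, zero_mul] at hkey
    exact mul_ne_zero ha hd0 hkey.symm
  have h1 := h7_mult_mul g hg n b hn0 hb
  have h2 := h7_mult_mul g hg a d ha hd0
  rw [hkey] at h1
  have h3 : multiplicity g n + multiplicity g b = multiplicity g a + multiplicity g d := by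
    rw [← h1, ← h2]
  unfold h7_w
  rw [← hn, ← hd]
  omega

theorem h7_exists_rep (x : F) (hx : x ≠ 0) :
    ∃ a b : R, a ≠ 0 ∧ b ≠ 0 ∧ x * algebraMap R F b = algebraMap R F a := by
  have hs := IsLocalization.sec_spec (nonZeroDivisors R) x
  refine ⟨(IsLocalization.sec (nonZeroDivisors R) x).1,
    ((IsLocalization.sec (nonZeroDivisors R) x).2 : R), ?_,
    nonZeroDivisors.ne_zero (IsLocalization.sec (nonZeroDivisors R) x).2.2, hs⟩
  intro h0
  rw [h0, map_zero] at hs
  have hd0 : algebraMap R F ((IsLocalization.sec (nonZeroDivisors R) x).2 : R) ≠ 0 := by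
    rw [Ne, map_eq_zero_iff _ (IsFractionRing.injective R F)]
    exact nonZeroDivisors.ne_zero (IsLocalization.sec (nonZeroDivisors R) x).2.2
  exact mul_ne_zero hx hd0 hs

theorem h7_w_mul (g : R) (hg : Prime g) (x y : F) (hx : x ≠ 0) (hy : y ≠ 0) :
    h7_w g (x * y) = h7_w g x + h7_w g y := by
  obtain ⟨a, b, ha, hb, hab⟩ := h7_exists_rep (R := R) x hx
  obtain ⟨c, d, hc, hd, hcd⟩ := h7_exists_rep (R := R) y hy
  rw [h7_w_eq g hg x a b ha hb hab, h7_w_eq g hg y c d hc hd hcd,
    h7_w_eq g hg (x * y) (a * c) (b * d) (mul_ne_zero ha hc) (mul_ne_zero hb hd)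
      (by rw [map_mul, map_mul, ← hab, ← hcd]; ring),
    h7_mult_mul g hg a c ha hc, h7_mult_mul g hg b d hb hd]
  push_cast
  ring

theorem h7_w_add (g : R) (hg : Prime g) (x y : F) (hx : x ≠ 0) (hy : y ≠ 0)
    (hxy : x + y ≠ 0) : min (h7_w g x) (h7_w g y) ≤ h7_w g (x + y) := by
  obtain ⟨a, b, ha, hb, hab⟩ := h7_exists_rep (R := R) x hx
  obtain ⟨c, d, hc, hd, hcd⟩ := h7_exists_rep (R := R) y hy
  have hinj : Function.Injective (algebraMap R F) := IsFractionRing.injective R F
  have hsum : (x + y) * algebraMap R F (b * d) = algebraMap R F (a * d + c * b) := by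
    rw [map_add, map_mul, map_mul, map_mul, ← hab, ← hcd]
    ring
  have hs0 : a * d + c * b ≠ 0 := by
    intro h0
    rw [h0, map_zero] at hsum
    have : algebraMap R F (b * d) ≠ 0 := by
      rw [Ne, map_eq_zero_iff _ hinj]
      exact mul_ne_zero hb hd
    exact mul_ne_zero hxy this hsum
  rw [h7_w_eq g hg x a b ha hb hab, h7_w_eq g hg y c d hc hd hcd,
    h7_w_eq g hg (x + y) (a * d + c * b) (b * d) hs0 (mul_ne_zero hb hd) hsum,
    h7_mult_mul g hg b d hb hd]
  have h1 : min (multiplicity g (a * d)) (multiplicity g (c * b)) ≤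
      multiplicity g (a * d + c * b) := by
    have hfin : FiniteMultiplicity g (a * d + c * b) := FiniteMultiplicity.of_prime_left hg hs0
    apply hfin.le_multiplicity_of_pow_dvd
    apply dvd_add
    · exact (pow_dvd_pow g (min_le_left _ _)).trans (pow_multiplicity_dvd g (a * d))
    · exact (pow_dvd_pow g (min_le_right _ _)).trans (pow_multiplicity_dvd g (c * b))
  rw [h7_mult_mul g hg a d ha hd, h7_mult_mul g hg c b hc hb] at h1
  push_cast
  omega

/-- **(DIV) in multiplicity form from (DIV) in place form.** -/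
theorem h7_dvd_of_place (g : R) (hg : Prime g)
    (hK : ∀ c : K, ∃ a b : R, ¬ g ∣ b ∧
      algebraMap K F c * algebraMap R F b = algebraMap R F a)
    (m : ℕ) (f : F) (hdiv : ∀ P : Place K F, (m : ℤ) ∣ P.ord f)
    (a b : R) (ha : a ≠ 0) (hb : b ≠ 0) (hf : f * algebraMap R F b = algebraMap R F a) :
    (m : ℤ) ∣ (multiplicity g a : ℤ) - multiplicity g b := by
  have hinj : Function.Injective (algebraMap R F) := IsFractionRing.injective R F
  have hf0 : f ≠ 0 := by
    rintro rfl
    rw [zero_mul] at hf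
    exact ha (hinj (by rw [← hf, map_zero]))
  have hKw : ∀ c : K, algebraMap K F c ≠ 0 → 0 ≤ h7_w g (algebraMap K F c) := by
    intro c hc
    obtain ⟨a', b', hgb, hab⟩ := hK c
    have hb0 : b' ≠ 0 := by
      rintro rfl
      exact hgb (dvd_zero g)
    have ha0 : a' ≠ 0 := by
      rintro rfl
      rw [map_zero] at hab
      have : algebraMap R F b' ≠ 0 := by
        rw [Ne, map_eq_zero_iff _ hinj]
        exact hb0
      exact mul_ne_zero hc this hab
    rw [h7_w_eq g hg _ a' b' ha0 hb0 hab, multiplicity_eq_zero.mpr hgb]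
    simp
  have hnt : ∃ t : F, t ≠ 0 ∧ h7_w g t ≠ 0 := by
    refine ⟨algebraMap R F g, ?_, ?_⟩
    · rw [Ne, map_eq_zero_iff _ hinj]
      exact hg.ne_zero
    · rw [h7_w_eq g hg _ g 1 hg.ne_zero one_ne_zero (by simp)]
      have h1 : multiplicity g g = 1 := by
        have := multiplicity_pow_self_of_prime hg 1
        rwa [pow_one] at this
      have h2 : multiplicity g (1 : R) = 0 := by
        rw [multiplicity_eq_zero]
        exact fun h => hg.not_isUnit (isUnit_of_dvd_one h)
      rw [h1, h2]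
      simp
  obtain ⟨P, m', hm', hw, -⟩ := Fermat.Agent.S24.Orb.exists_place_of_valuation (K := K)
    (h7_w (F := F) g) (fun x y hx hy => h7_w_mul g hg x y hx hy)
    (fun x y hx hy hxy => h7_w_add g hg x y hx hy hxy) hKw hnt
  have h1 := hw f hf0
  rw [h7_w_eq g hg f a b ha hb hf] at h1
  rw [h1]
  exact Dvd.dvd.mul_left (hdiv P) _

end PlaceAdapter

section Degenerate

variable {R : Type*} [CommRing R] [IsDomain R] [IsLocalRing R] [IsNoetherianRing R]

/-- `h7_loc` without the hypothesis `t ∉ (π)`. -/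
theorem h7_loc' (π t : R) (hm : maximalIdeal R = Ideal.span {π, t})
    (hπ : (Ideal.span {π} : Ideal R).IsPrime) (hπ0 : π ≠ 0)
    (m : ℕ) (hm0 : 0 < m) (a b : R) (hb : b ∉ Ideal.span {π}) (hab : a - b ∈ Ideal.span {π})
    (hdiv : ∀ g : R, Prime g → ¬ π ∣ g →
      (m : ℤ) ∣ (multiplicity g a : ℤ) - (multiplicity g b : ℤ)) :
    ∃ (u : Rˣ) (c d : R), c ∉ Ideal.span {π} ∧ d ∉ Ideal.span {π} ∧ c - d ∈ Ideal.span {π} ∧
      a * d ^ m = u * b * c ^ m := by
  by_cases ht : t ∈ Ideal.span {π}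
  · have hmax : maximalIdeal R = Ideal.span {π} := by
      rw [hm]
      apply le_antisymm
      · rw [Ideal.span_le]
        rintro x (rfl | rfl)
        · exact Ideal.mem_span_singleton_self _
        · exact ht
      · exact Ideal.span_mono (by simp)
    have ha : a ∉ Ideal.span {π} := by
      intro h
      apply hb
      have := Ideal.sub_mem _ h hab
      simp at this
      exact this
    have hau : IsUnit a := by
      rw [← hmax] at ha
      by_contra hnu
      exact ha ((mem_maximalIdeal a).mpr hnu)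
    have hbu : IsUnit b := by
      rw [← hmax] at hb
      by_contra hnu
      exact hb ((mem_maximalIdeal b).mpr hnu)
    have h1 : (1 : R) ∉ Ideal.span {π} := by
      intro h
      exact hπ.ne_top ((Ideal.eq_top_iff_one _).mpr h)
    refine ⟨hau.unit * hbu.unit⁻¹, 1, 1, h1, h1, by simp, ?_⟩
    have h2 : ((hbu.unit⁻¹ : Rˣ) : R) * b = 1 := by
      have := hbu.unit.inv_mul
      rw [← Units.val_mul] at *
      simpa using congrArg Units.val (inv_mul_cancel hbu.unit)
    simp only [one_pow, mul_one, Units.val_mul, IsUnit.unit_spec]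
    linear_combination (-a) * h2
  · exact h7_loc π t hm hπ hπ0 ht m hm0 a b hb hab hdiv

end Degenerate

section Abs

variable {K F B R : Type*} [Field K] [Field F] [Algebra K F]
  [CommRing B] [IsDomain B] [Algebra B F]
  [CommRing R] [IsDomain R] [IsLocalRing R] [IsNoetherianRing R] [Algebra B R] [Algebra R F]
  [IsScalarTower B R F] [IsFractionRing R F]

theorem h7_LOC_abs (𝔫 : Ideal B) [h𝔫 : 𝔫.IsPrime] [IsLocalization.AtPrime R 𝔫]
    (V : Subring F) (π t : B) (hπ0 : π ≠ 0)
    (hπp : (Ideal.span {π} : Ideal B).IsPrime)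
    (hK : ∀ c : K, ∃ (n : ℕ) (b : B),
      algebraMap B F π ^ n * algebraMap K F c = algebraMap B F b)
    (hV₀ : ∀ b : B, algebraMap B F b ∈ V)
    (hV₁ : ∀ b : B, b ∉ Ideal.span {π} → (algebraMap B F b)⁻¹ ∈ V)
    (m : ℕ) (hm : 0 < m) (f : F)
    (a₀ b₀ : B) (hb₀ : b₀ ∉ Ideal.span {π}) (hab₀ : a₀ - b₀ ∈ Ideal.span {π})
    (hf : f * algebraMap B F b₀ = algebraMap B F a₀)
    (hdiv : ∀ P : Place K F, (m : ℤ) ∣ P.ord f)
    (hπ𝔫 : π ∈ 𝔫) (ht𝔫 : t ∈ 𝔫)
    (hSM : ∀ x ∈ 𝔫, ∃ s : B, s ∉ 𝔫 ∧ ∃ u v : B, s * x = π * u + t * v) :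
    ∃ (h : F) (s : B), s ∉ 𝔫 ∧ (∃ c ∈ V, h - 1 = algebraMap B F π * c) ∧
      ∃ y : B, algebraMap B F s * f * h ^ m = algebraMap B F y := by
  classical
  have hφι : ∀ b : B, algebraMap R F (algebraMap B R b) = algebraMap B F b :=
    fun b => (IsScalarTower.algebraMap_apply B R F b).symm
  have hφinj : Function.Injective (algebraMap R F) := IsFractionRing.injective R F
  have hle : 𝔫.primeCompl ≤ nonZeroDivisors B := Ideal.primeCompl_le_nonZeroDivisors 𝔫
  have hιinj : Function.Injective (algebraMap B R) := IsLocalization.injective R hle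
  have hunit : ∀ s : B, s ∉ 𝔫 → IsUnit (algebraMap B R s) :=
    fun s hs => IsLocalization.map_units R (⟨s, hs⟩ : 𝔫.primeCompl)
  have hπ𝔫' : (Ideal.span {π} : Ideal B) ≤ 𝔫 := by
    rw [Ideal.span_le]
    simpa using hπ𝔫
  have hdisj : Disjoint (𝔫.primeCompl : Set B) ((Ideal.span {π} : Ideal B) : Set B) := by
    rw [Set.disjoint_left]
    intro x hx hx'
    exact hx (hπ𝔫' hx')
  have hmapspan : Ideal.map (algebraMap B R) (Ideal.span {π}) =
      Ideal.span {algebraMap B R π} := by
    rw [Ideal.map_span, Set.image_singleton]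
  -- 1. the maximal ideal
  have hmax : maximalIdeal R = Ideal.span {algebraMap B R π, algebraMap B R t} := by
    apply le_antisymm
    · intro x hx
      obtain ⟨b, s, rfl⟩ := IsLocalization.exists_mk'_eq 𝔫.primeCompl x
      have hb : b ∈ 𝔫 := (IsLocalization.AtPrime.mk'_mem_maximal_iff R 𝔫 b s).mp hx
      obtain ⟨s', hs', u, v, huv⟩ := hSM b hb
      have h1 : algebraMap B R (s' * s) * IsLocalization.mk' R b s =
          algebraMap B R π * algebraMap B R u + algebraMap B R t * algebraMap B R v := by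
        rw [map_mul, mul_assoc, mul_comm (algebraMap B R (s : B)), IsLocalization.mk'_spec,
          ← map_mul, huv, map_add, map_mul, map_mul]
      have h2 : algebraMap B R (s' * s) * IsLocalization.mk' R b s ∈
          Ideal.span {algebraMap B R π, algebraMap B R t} := by
        rw [h1, Ideal.mem_span_pair]
        exact ⟨algebraMap B R u, algebraMap B R v, by ring⟩
      have h3 : IsUnit (algebraMap B R (s' * s)) := by
        rw [map_mul]
        exact (hunit s' hs').mul (hunit s s.2)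
      exact (Ideal.unit_mul_mem_iff_mem _ h3).mp h2
    · rw [Ideal.span_le]
      rintro x (rfl | rfl)
      · exact (IsLocalization.AtPrime.to_map_mem_maximal_iff R 𝔫 π).mpr hπ𝔫
      · exact (IsLocalization.AtPrime.to_map_mem_maximal_iff R 𝔫 t).mpr ht𝔫
  -- 2. `(π)` is prime in `R`
  have hπR : (Ideal.span {algebraMap B R π} : Ideal R).IsPrime := by
    rw [← hmapspan]
    exact IsLocalization.isPrime_of_isPrime_disjoint 𝔫.primeCompl R _ hπp hdisj
  have hπR0 : algebraMap B R π ≠ 0 := by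
    rw [Ne, map_eq_zero_iff _ hιinj]
    exact hπ0
  -- 3. contraction of `(π)`
  have hcontr : ∀ b : B, algebraMap B R b ∈ Ideal.span {algebraMap B R π} →
      b ∈ Ideal.span {π} := by
    intro b hb
    rw [← hmapspan] at hb
    have := IsLocalization.under_map_of_isPrime_disjoint 𝔫.primeCompl R hπp hdisj
    rw [← this]
    exact hb
  have hRV : ∀ x : R, algebraMap R F x ∈ V := by
    intro x
    obtain ⟨b, s, rfl⟩ := IsLocalization.exists_mk'_eq 𝔫.primeCompl x
    have hs : (s : B) ∉ Ideal.span {π} := fun h => s.2 (hπ𝔫' h)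
    have h1 : algebraMap R F (IsLocalization.mk' R b s) =
        algebraMap B F b * (algebraMap B F (s : B))⁻¹ := by
      have hs0 : algebraMap B F (s : B) ≠ 0 := by
        rw [← hφι, Ne, map_eq_zero_iff _ hφinj, map_eq_zero_iff _ hιinj]
        rintro h0
        exact s.2 (h0 ▸ 𝔫.zero_mem)
      rw [eq_mul_inv_iff_mul_eq₀ hs0, ← hφι, ← hφι, ← map_mul, IsLocalization.mk'_spec]
    rw [h1]
    exact V.mul_mem (hV₀ b) (hV₁ _ hs)
  have hRV' : ∀ x : R, x ∉ Ideal.span {algebraMap B R π} → (algebraMap R F x)⁻¹ ∈ V := by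
    intro x hx
    obtain ⟨b, s, rfl⟩ := IsLocalization.exists_mk'_eq 𝔫.primeCompl x
    have hb : b ∉ Ideal.span {π} := by
      intro hb
      apply hx
      have h1 : IsLocalization.mk' R b s * algebraMap B R (s : B) ∈
          Ideal.span {algebraMap B R π} := by
        rw [IsLocalization.mk'_spec, ← hmapspan]
        exact Ideal.mem_map_of_mem _ hb
      exact (Ideal.mul_unit_mem_iff_mem _ (hunit s s.2)).mp h1
    have hs0 : algebraMap B F (s : B) ≠ 0 := by
      rw [← hφι, Ne, map_eq_zero_iff _ hφinj, map_eq_zero_iff _ hιinj]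
      rintro h0
      exact s.2 (h0 ▸ 𝔫.zero_mem)
    have h1 : algebraMap R F (IsLocalization.mk' R b s) =
        algebraMap B F b * (algebraMap B F (s : B))⁻¹ := by
      rw [eq_mul_inv_iff_mul_eq₀ hs0, ← hφι, ← hφι, ← map_mul, IsLocalization.mk'_spec]
    rw [h1, mul_inv, inv_inv]
    exact V.mul_mem (hV₁ b hb) (hV₀ s)
  -- 4. apply `h7_loc'`
  have hufm : UniqueFactorizationMonoid R := h7_ufm _ _ hmax hπR hπR0
  have hpR : Prime (algebraMap B R π) := h7_prime_pi _ hπR hπR0
  have hbR : algebraMap B R b₀ ∉ Ideal.span {algebraMap B R π} := fun h => hb₀ (hcontr _ h)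
  have habR : algebraMap B R a₀ - algebraMap B R b₀ ∈ Ideal.span {algebraMap B R π} := by
    rw [← map_sub, ← hmapspan]
    exact Ideal.mem_map_of_mem _ hab₀
  have hb₀0 : algebraMap B R b₀ ≠ 0 := fun h => hbR (h ▸ Ideal.zero_mem _)
  have ha₀0 : algebraMap B R a₀ ≠ 0 := by
    intro h
    apply hbR
    rw [h, zero_sub] at habR
    simpa using Ideal.neg_mem_iff _ |>.mp habR
  have hfR : f * algebraMap R F (algebraMap B R b₀) = algebraMap R F (algebraMap B R a₀) := by
    rw [hφι, hφι]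
    exact hf
  have hdivR : ∀ g : R, Prime g → ¬ algebraMap B R π ∣ g →
      (m : ℤ) ∣ (multiplicity g (algebraMap B R a₀) : ℤ) -
        (multiplicity g (algebraMap B R b₀) : ℤ) := by
    intro g hg hπg
    have hgπ : ¬ g ∣ algebraMap B R π := by
      intro h
      exact hπg (hg.associated_of_dvd hpR h).symm.dvd
    refine h7_dvd_of_place (K := K) (F := F) g hg ?_ m f hdiv _ _ ha₀0 hb₀0 hfR
    intro c
    obtain ⟨n, b, hb⟩ := hK c
    refine ⟨algebraMap B R b, algebraMap B R π ^ n, fun h => hgπ (hg.dvd_of_dvd_pow h), ?_⟩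
    rw [map_pow, hφι, hφι, ← hb]
    ring
  obtain ⟨u, c, d, hc, hd, hcd, hacd⟩ :=
    h7_loc' _ _ hmax hπR hπR0 m hm _ _ hbR habR hdivR
  -- 5. the output
  obtain ⟨e, he⟩ := Ideal.mem_span_singleton'.mp hcd
  have hc0 : algebraMap R F c ≠ 0 := by
    rw [Ne, map_eq_zero_iff _ hφinj]
    rintro rfl
    exact hc (Ideal.zero_mem _)
  have hbF0 : algebraMap B F b₀ ≠ 0 := by
    rw [← hφι, Ne, map_eq_zero_iff _ hφinj]
    exact hb₀0
  obtain ⟨y, s, hys⟩ := IsLocalization.exists_mk'_eq 𝔫.primeCompl (u : R)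
  refine ⟨algebraMap R F d * (algebraMap R F c)⁻¹, s, s.2,
    ⟨-(algebraMap R F e * (algebraMap R F c)⁻¹),
      V.neg_mem (V.mul_mem (hRV e) (hRV' c hc)), ?_⟩, y, ?_⟩
  · have h1 : algebraMap R F c - algebraMap R F d =
        algebraMap R F e * algebraMap B F π := by
      rw [← map_sub, ← he, map_mul, hφι]
    field_simp
    linear_combination (-1 : F) * h1
  · have h1 : algebraMap R F (algebraMap B R a₀) * algebraMap R F d ^ m =
        algebraMap R F (u : R) * algebraMap R F (algebraMap B R b₀) * algebraMap R F c ^ m := by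
      rw [← map_pow, ← map_pow, ← map_mul, ← map_mul, ← map_mul, hacd]
    rw [hφι, hφι] at h1
    have h2 : algebraMap B F (s : B) * algebraMap R F (u : R) = algebraMap B F y := by
      rw [← hφι, ← hφι, ← map_mul, ← hys, mul_comm, IsLocalization.mk'_spec]
    have h3 : f = algebraMap B F a₀ * (algebraMap B F b₀)⁻¹ := by
      rw [eq_mul_inv_iff_mul_eq₀ hbF0]
      exact hf
    rw [← h2, h3, mul_pow, inv_pow]
    field_simp
    linear_combination (algebraMap B F (s : B)) * h1

end Abs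

section Final

variable {K F : Type*} [Field K] [Field F] [Algebra K F]

/-- a nonzero element of a noetherian domain is a power of a prime `π` times an element
outside `(π)` -/
theorem h7_exists_pow_mul' {B : Type*} [CommRing B] [IsDomain B] [IsNoetherianRing B]
    (π : B) (hp : Prime π) (x : B) (hx : x ≠ 0) :
    ∃ (n : ℕ) (y : B), x = π ^ n * y ∧ y ∉ Ideal.span {π} := by
  have hfin : FiniteMultiplicity π x := FiniteMultiplicity.of_prime_left hp hx
  obtain ⟨c, hc, hc'⟩ := hfin.exists_eq_pow_mul_and_not_dvd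
  exact ⟨_, c, hc, by rwa [Ideal.mem_span_singleton]⟩

/-- **(LOC) from (SM) and (DIV)**: the local input of the gluing theorem `h17_spec` at a closed
point `𝔫` of the chart `B`, from the shape `(π, t)` of the maximal ideal of `B_𝔫` and the
divisibility of the divisor of `f` over `K`. -/
theorem h7_LOC (B V : Subring F) [IsNoetherianRing B] (π : F) (hπB : π ∈ B) (hπ0 : π ≠ 0)
    (hπp : (Ideal.span {(⟨π, hπB⟩ : B)}).IsPrime)
    (hK : ∀ c : K, ∃ n : ℕ, π ^ n * algebraMap K F c ∈ B)
    (hfrac : ∀ x : F, ∃ a b : B, b ≠ 0 ∧ x * (b : F) = (a : F))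
    (hBV : B ≤ V) (hVval : ∀ x ∈ V, (∃ v ∈ V, x = π * v) ∨ x⁻¹ ∈ V)
    (hsat : ∀ v ∈ V, π * v ∈ B → v ∈ B)
    (m : ℕ) (hm : 0 < m) (f : F) (hf : ∃ v ∈ V, f - 1 = π * v)
    (hdiv : ∀ P : Place K F, (m : ℤ) ∣ P.ord f)
    (𝔫 : Ideal B) (h𝔫 : 𝔫.IsMaximal) (hπ𝔫 : (⟨π, hπB⟩ : B) ∈ 𝔫)
    (t : B) (ht𝔫 : t ∈ 𝔫)
    (hSM : ∀ x ∈ 𝔫, ∃ s : B, s ∉ 𝔫 ∧ ∃ u v : B, s * x = ⟨π, hπB⟩ * u + t * v) :
    ∃ (h : F) (s : B), s ∉ 𝔫 ∧ (∃ c ∈ V, h - 1 = π * c) ∧ (s : F) * f * h ^ m ∈ B := by
  classical
  haveI : 𝔫.IsPrime := h𝔫.isPrime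
  set π' : B := ⟨π, hπB⟩ with hπ'
  have hπ'0 : π' ≠ 0 := by
    intro h
    exact hπ0 (congrArg Subtype.val h)
  have hp : Prime π' := (Ideal.span_singleton_prime hπ'0).mp hπp
  have hmemspan : ∀ b : B, b ∈ Ideal.span {π'} ↔ ∃ y : B, (b : F) = π * y := by
    intro b
    rw [Ideal.mem_span_singleton']
    constructor
    · rintro ⟨y, rfl⟩
      exact ⟨y, by rw [mul_comm]; rfl⟩
    · rintro ⟨y, hy⟩
      exact ⟨y, Subtype.ext (by rw [hy, mul_comm]; rfl)⟩
  -- `V ⊇ B_(π)`
  have hV₁ : ∀ b : B, b ∉ Ideal.span {π'} → (algebraMap B F b)⁻¹ ∈ V := by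
    intro b hb
    rcases hVval (b : F) (hBV b.2) with ⟨v, hv, hbv⟩ | h
    · exfalso
      apply hb
      have hvB : v ∈ B := hsat v hv (hbv ▸ b.2)
      exact (hmemspan b).mpr ⟨⟨v, hvB⟩, hbv⟩
    · exact h
  -- `(RED)`
  obtain ⟨v, hv, hfv⟩ := hf
  have hfV : f ∈ V := by
    have : f = 1 + π * v := by linear_combination hfv
    rw [this]
    exact V.add_mem V.one_mem (V.mul_mem (hBV hπB) hv)
  obtain ⟨a₀, b₀, hb₀, hfab⟩ : ∃ a₀ b₀ : B, b₀ ∉ Ideal.span {π'} ∧ f * (b₀ : F) = (a₀ : F) := by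
    obtain ⟨a, b, hb0, hab⟩ := hfrac f
    by_cases ha0 : a = 0
    · -- then `f = 0`
      have hf0 : f = 0 := by
        have hbF : (b : F) ≠ 0 := fun h => hb0 (Subtype.ext h)
        rw [ha0] at hab
        simpa [hbF] using hab
      refine ⟨0, 1, ?_, by simp [hf0]⟩
      intro h
      exact hπp.ne_top ((Ideal.eq_top_iff_one _).mpr h)
    obtain ⟨i, a', ha', ha'π⟩ := h7_exists_pow_mul' π' hp a ha0
    obtain ⟨j, b', hb', hb'π⟩ := h7_exists_pow_mul' π' hp b hb0
    have hab' : f * (π ^ j * (b' : F)) = π ^ i * (a' : F) := by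
      have h1 : (b : F) = π ^ j * (b' : F) := by rw [hb']; rfl
      have h2 : (a : F) = π ^ i * (a' : F) := by rw [ha']; rfl
      rw [← h1, ← h2]
      exact hab
    rcases le_or_gt j i with hji | hij
    · obtain ⟨k, rfl⟩ := Nat.exists_eq_add_of_le hji
      refine ⟨π' ^ k * a', b', hb'π, ?_⟩
      have hπj : π ^ j ≠ 0 := pow_ne_zero _ hπ0
      have h3 : π ^ j * (f * (b' : F)) = π ^ j * (π ^ k * (a' : F)) := by
        rw [pow_add] at hab'
        linear_combination hab'
      exact mul_left_cancel₀ hπj h3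
    · exfalso
      obtain ⟨k, rfl⟩ := Nat.exists_eq_add_of_lt hij
      apply ha'π
      have hπi : π ^ i ≠ 0 := pow_ne_zero _ hπ0
      have h3 : π ^ i * (π * (π ^ k * f * (b' : F))) = π ^ i * (a' : F) := by
        have : i + k + 1 = i + (k + 1) := by ring
        rw [this, pow_add, pow_succ] at hab'
        linear_combination hab'
      have h4 : π * (π ^ k * f * (b' : F)) = (a' : F) := mul_left_cancel₀ hπi h3
      have h5 : π ^ k * f * (b' : F) ∈ V :=
        V.mul_mem (V.mul_mem (V.pow_mem (hBV hπB) k) hfV) (hBV b'.2)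
      have h6 : π ^ k * f * (b' : F) ∈ B := hsat _ h5 (h4 ▸ a'.2)
      exact (hmemspan a').mpr ⟨⟨_, h6⟩, h4.symm⟩
  have hab₀ : a₀ - b₀ ∈ Ideal.span {π'} := by
    have h1 : ((a₀ - b₀ : B) : F) = π * (v * (b₀ : F)) := by
      have : ((a₀ - b₀ : B) : F) = (a₀ : F) - (b₀ : F) := rfl
      rw [this, ← hfab]
      linear_combination (b₀ : F) * hfv
    have h2 : v * (b₀ : F) ∈ V := V.mul_mem hv (hBV b₀.2)
    have h3 : v * (b₀ : F) ∈ B := hsat _ h2 (h1 ▸ (a₀ - b₀).2)
    exact (hmemspan _).mpr ⟨⟨_, h3⟩, h1⟩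
  -- the localisation
  have hu : ∀ y : 𝔫.primeCompl, IsUnit (algebraMap B F (y : B)) := by
    intro y
    refine IsUnit.mk0 _ ?_
    intro h0
    have : (y : B) = 0 := Subtype.ext h0
    exact y.2 (this ▸ 𝔫.zero_mem)
  letI : Algebra (Localization.AtPrime 𝔫) F :=
    (IsLocalization.lift (M := 𝔫.primeCompl) (S := Localization.AtPrime 𝔫)
      (g := algebraMap B F) hu).toAlgebra
  haveI : IsScalarTower B (Localization.AtPrime 𝔫) F :=
    IsScalarTower.of_algebraMap_eq (fun x => (IsLocalization.lift_eq hu x).symm)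
  haveI : IsFractionRing B F := by
    refine IsFractionRing.of_field B F ?_
    intro z
    obtain ⟨a, b, hb0, hab⟩ := hfrac z
    refine ⟨a, b, ?_⟩
    have hbF : (b : F) ≠ 0 := fun h => hb0 (Subtype.ext h)
    rw [eq_div_iff (by exact hbF)]
    exact hab
  haveI : IsFractionRing (Localization.AtPrime 𝔫) F :=
    IsFractionRing.isFractionRing_of_isDomain_of_isLocalization 𝔫.primeCompl
      (Localization.AtPrime 𝔫) F
  haveI : IsDomain (Localization.AtPrime 𝔫) :=
    IsLocalization.isDomain_localization (Ideal.primeCompl_le_nonZeroDivisors 𝔫)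
  haveI : IsNoetherianRing (Localization.AtPrime 𝔫) :=
    IsLocalization.isNoetherianRing 𝔫.primeCompl (Localization.AtPrime 𝔫) inferInstance
  have hK' : ∀ c : K, ∃ (n : ℕ) (b : B),
      algebraMap B F π' ^ n * algebraMap K F c = algebraMap B F b := by
    intro c
    obtain ⟨n, hn⟩ := hK c
    exact ⟨n, ⟨_, hn⟩, rfl⟩
  obtain ⟨h, s, hs, ⟨c, hc, hc'⟩, y, hy⟩ :=
    h7_LOC_abs (K := K) (F := F) (B := B) (R := Localization.AtPrime 𝔫) 𝔫 V π' t hπ'0 hπp hK'
      (fun b => hBV b.2) hV₁ m hm f a₀ b₀ hb₀ hab₀ hfab hdiv hπ𝔫 ht𝔫 hSM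
  exact ⟨h, s, hs, ⟨c, hc, hc'⟩, by
    have : (s : F) * f * h ^ m = (y : F) := hy
    rw [this]
    exact y.2⟩

end Final

end Fermat.Agent.S18x.Dict.H7
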