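import Mathlib
import Fermat.Agent.S18x.Spec.H26_Kum
import Fermat.Agent.S18x.IG.Defs
import Fermat.Agent.S18x.Dict.H22_GaussDescTop
import Fermat.Agent.S18x.Dict.H20_GaussModular
import Fermat.Agent.S18x.Dict.H23_Dvr
import Fermat.Agent.S18x.Dict.H23_Const

/-!
# S18 / [DICT] (D5b-INST) (helper7): the instance of `h26_kum_abs` over `(K, O = A ∩ K)`

`L = ℚ̄`, `A` a valuation subring of `L` over `ℓ`, `K` a number field inside `L`,
`O = A.comap (algebraMap K L)` (a discrete valuation ring), `F = modularFunctionFieldFullC K M`,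
`E = modularFunctionFieldBar M` (through `H22.iotaK`), `V = H20.gaussValM O M`.

* `H7IG A M K` : the inputs still owed by [IG] / (SAT-H) / (HM-F) at `(K, O)`: a uniformiser
  `π₀`, a base coordinate `x` (the Hauptmodul) with inverse `x'`, transcendental over `O`, with
  `F` finite over `K(x)`, `x, x' ∈ V`, the three saturation statements, and (SM) on both charts;
* `h7_stKumKO` : `H7IG A M K → H22.StKumKO A M p K` for a prime `p ≠ ℓ`;
* `h7_stKumVPrime` : `(∀ K₀ finite, ∃ K ≥ K₀ finite, H7IG A M K) → Kum.StKumVPrime A M ℓ`.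
-/

set_option autoImplicit false
set_option linter.unusedSectionVars false
set_option linter.style.haveILetI false
set_option synthInstance.maxHeartbeats 400000
set_option maxHeartbeats 1000000

noncomputable section

namespace Fermat.Agent.S18x.Dict.H7

open AlgebraicCurve ModularCurve IntermediateField Polynomial
open Fermat.Agent.S18x.Dict.H20 Fermat.Agent.S18x.Dict.H22 Fermat.Agent.S18x.Dict.H23
open Fermat.Agent.S18x.Spec.H26

local notation "Lbar" => AlgebraicClosure ℚ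

/-- **The inputs of the Kummer statement over `(K, O)` owed by [IG]** (coordinate inputs,
saturation of the three charts, (SM) on the two charts), for the base coordinate `x`. -/
def H7IG (A : ValuationSubring Lbar) (M : ℕ) [NeZero M] (K : IntermediateField ℚ Lbar)
    [IsDiscreteValuationRing (A.comap (algebraMap ↥K Lbar))] : Prop :=
  ∃ π₀ : A.comap (algebraMap ↥K Lbar), Irreducible π₀ ∧
  ∃ x x' : ↥(modularFunctionFieldFullC ↥K M), x * x' = 1 ∧
    Transcendental (A.comap (algebraMap ↥K Lbar)) x ∧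
    H26FinOver (A.comap (algebraMap ↥K Lbar)) x ∧
    x ∈ gaussValM (A.comap (algebraMap ↥K Lbar)) M ∧
    x' ∈ gaussValM (A.comap (algebraMap ↥K Lbar)) M ∧
    (∀ v ∈ gaussValM (A.comap (algebraMap ↥K Lbar)) M,
      algebraMap (A.comap (algebraMap ↥K Lbar)) ↥(modularFunctionFieldFullC ↥K M) π₀ * v ∈
        chart (A.comap (algebraMap ↥K Lbar)) x → v ∈ chart (A.comap (algebraMap ↥K Lbar)) x) ∧
    (∀ v ∈ gaussValM (A.comap (algebraMap ↥K Lbar)) M,
      algebraMap (A.comap (algebraMap ↥K Lbar)) ↥(modularFunctionFieldFullC ↥K M) π₀ * v ∈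
        chart (A.comap (algebraMap ↥K Lbar)) x' → v ∈ chart (A.comap (algebraMap ↥K Lbar)) x') ∧
    (∀ v ∈ gaussValM (A.comap (algebraMap ↥K Lbar)) M,
      algebraMap (A.comap (algebraMap ↥K Lbar)) ↥(modularFunctionFieldFullC ↥K M) π₀ * v ∈
        chart₁₂ (A.comap (algebraMap ↥K Lbar)) x x' →
        v ∈ chart₁₂ (A.comap (algebraMap ↥K Lbar)) x x') ∧
    Fermat.Agent.S18x.IG.HSMChart (A.comap (algebraMap ↥K Lbar)) x π₀ ∧
    Fermat.Agent.S18x.IG.HSMChart (A.comap (algebraMap ↥K Lbar)) x' π₀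

section Inst

variable {K : Type*} [Field K] (O : ValuationSubring K) [IsDiscreteValuationRing O] (M : ℕ)

/-- constants of `O` lie in the Gauss valuation ring -/
theorem h7_hOV (c : O) :
    algebraMap O ↥(modularFunctionFieldFullC K M) c ∈ gaussValM O M := by
  rw [mem_gaussValM_iff]
  have h1 : ((algebraMap O ↥(modularFunctionFieldFullC K M) c :
      ↥(modularFunctionFieldFullC K M)) : LaurentSeries K) = HahnSeries.C (c : K) := by
    show algebraMap K (LaurentSeries K) (c : K) = _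
    rw [algebraMap_laurentSeries_eq_single, HahnSeries.C_apply]
  rw [h1]
  exact C_mem_gaussRing O c

theorem h7_algebraMap_eq_unifM (π₀ : O) :
    algebraMap O ↥(modularFunctionFieldFullC K M) π₀ = unifM O M π₀ := rfl

/-- the uniformiser is not a unit of the Gauss valuation ring -/
theorem h7_hπV (π₀ : O) (hπ₀ : Irreducible π₀) (v : ↥(modularFunctionFieldFullC K M))
    (hv : v ∈ gaussValM O M) :
    algebraMap O ↥(modularFunctionFieldFullC K M) π₀ * v ≠ 1 := by
  intro h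
  have hirr := gaussVal_irreducible_unif O (inclM M) (inclM_mem_fracLam O M) π₀ hπ₀
    (unifM O M π₀) (inclM_unifM O M π₀)
  apply hirr.not_isUnit
  refine IsUnit.of_mul_eq_one (⟨v, hv⟩ : gaussValSubring O (inclM M) (inclM_mem_fracLam O M)) ?_
  apply Subtype.ext
  exact h

/-- the maximal ideal of the Gauss valuation ring is generated by the uniformiser -/
theorem h7_hVmax (π₀ : O) (hπ₀ : Irreducible π₀) (y : ↥(modularFunctionFieldFullC K M))
    (hy : y ∈ gaussValM O M) (hyinv : y⁻¹ ∉ gaussValM O M) :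
    ∃ v ∈ gaussValM O M, y = algebraMap O ↥(modularFunctionFieldFullC K M) π₀ * v := by
  have hnu : ¬ IsUnit (⟨y, hy⟩ : gaussValM O M) := by
    intro hu
    obtain ⟨u, hu⟩ := hu
    apply hyinv
    have h1 : ((u⁻¹ : (gaussValM O M)ˣ) : gaussValM O M) * ⟨y, hy⟩ = 1 := by
      rw [← hu]
      exact Units.inv_mul u
    have h2 : ((((u⁻¹ : (gaussValM O M)ˣ) : gaussValM O M)) :
        ↥(modularFunctionFieldFullC K M)) * y = 1 := congrArg Subtype.val h1
    rw [← eq_inv_of_mul_eq_one_left h2]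
    exact (((u⁻¹ : (gaussValM O M)ˣ) : gaussValM O M)).2
  have hred : gaussRedM O M ⟨y, hy⟩ = 0 := by
    by_contra hne
    exact hnu ((isUnit_iff_gaussRedM_ne_zero O M).mpr hne)
  obtain ⟨w, hw⟩ := exists_eq_mul_of_gaussRedM_eq_zero O M π₀ hπ₀ hred
  exact ⟨w, w.2, hw⟩

/-- `K` is algebraically closed in `F_M ⊆ K((q))` -/
theorem h7_hK (y : ↥(modularFunctionFieldFullC K M)) (hy : IsAlgebraic K y) :
    y ∈ (algebraMap K ↥(modularFunctionFieldFullC K M)).range := by
  have hy' : IsAlgebraic K (y : LaurentSeries K) := by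
    have := hy.algebraMap (A := LaurentSeries K)
    exact this
  obtain ⟨c, hc⟩ := h23_algebraic_const (y : LaurentSeries K) hy'
  exact ⟨c, Subtype.ext hc⟩

end Inst

section Main

variable (A : ValuationSubring Lbar) {ℓ : ℕ} (hℓ : ℓ.Prime) (hA : A.LiesOverPrime ℓ)
  (M : ℕ) [NeZero M]

/-- every monic irreducible polynomial over `K` has a root in `F_L` (through `iotaK`) -/
theorem h7_hE (K : IntermediateField ℚ Lbar) (P : (↥K)[X]) (_hP : P.Monic)
    (hirr : Irreducible P) :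
    ∃ r : ↥(modularFunctionFieldBar M),
      Polynomial.eval₂ (iotaK ↥K M) r
        (P.map (algebraMap ↥K ↥(modularFunctionFieldFullC ↥K M))) = 0 := by
  have hdeg : (P.map (algebraMap ↥K Lbar)).degree ≠ 0 := by
    rw [Polynomial.degree_map]
    exact (Polynomial.degree_pos_of_irreducible hirr).ne'
  obtain ⟨r₀, hr₀⟩ := IsAlgClosed.exists_root (P.map (algebraMap ↥K Lbar)) hdeg
  refine ⟨algebraMap Lbar ↥(modularFunctionFieldBar M) r₀, ?_⟩
  rw [Polynomial.eval₂_map]
  have hcomp : (iotaK ↥K M).comp (algebraMap ↥K ↥(modularFunctionFieldFullC ↥K M)) =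
      (algebraMap Lbar ↥(modularFunctionFieldBar M)).comp (algebraMap ↥K Lbar) := by
    refine RingHom.ext (fun a => ?_)
    exact iotaK_algebraMap ↥K M a
  rw [hcomp, ← Polynomial.eval₂_map, Polynomial.eval₂_at_apply]
  have h0 : Polynomial.eval r₀ (P.map (algebraMap ↥K Lbar)) = 0 := hr₀
  rw [h0, map_zero]

include hℓ hA in
/-- **(D5b-INST)**: the Kummer statement over `(K, O)` from the [IG] inputs. -/
theorem h7_stKumKO (p : ℕ) (hp : p.Prime) (hpℓ : p ≠ ℓ) (K : IntermediateField ℚ Lbar)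
    [FiniteDimensional ℚ K] [IsDiscreteValuationRing (A.comap (algebraMap ↥K Lbar))]
    (hIG : H7IG A M K) : StKumKO A M p K := by
  intro f _hG hπ hv
  obtain ⟨π₀, hπ₀, x, x', hxx', hx, hfin, hxV, hx'V, hs1, hs2, hs12, hSM1, hSM2⟩ := hIG
  obtain ⟨v, hvV, hfv⟩ := hπ π₀ hπ₀
  haveI : IsScalarTower (A.comap (algebraMap ↥K Lbar)) ↥K ↥(modularFunctionFieldFullC ↥K M) :=
    IsScalarTower.of_algebraMap_eq (fun c => rfl)
  letI : Algebra ↥(modularFunctionFieldFullC ↥K M) ↥(modularFunctionFieldBar M) :=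
    (iotaK ↥K M).toAlgebra
  have hnd : ¬ ℓ ∣ p := by
    intro h
    exact hpℓ ((Nat.prime_dvd_prime_iff_eq hℓ hp).mp h).symm
  obtain ⟨u, hu⟩ := h23_isUnit_natCast (K := ↥K) A hℓ hA p hnd
  have hμ : ((u⁻¹ : (A.comap (algebraMap ↥K Lbar))ˣ) : A.comap (algebraMap ↥K Lbar)) *
      ((p : ℕ) : A.comap (algebraMap ↥K Lbar)) = 1 := by
    rw [← hu]
    exact Units.inv_mul u
  exact h26_kum_abs (O := A.comap (algebraMap ↥K Lbar)) (K := ↥K)
    (F := ↥(modularFunctionFieldFullC ↥K M)) (E := ↥(modularFunctionFieldBar M))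
    π₀ hπ₀ x x' hxx' hx hfin (gaussValM (A.comap (algebraMap ↥K Lbar)) M)
    (h7_hOV _ M) hxV hx'V (h7_hπV _ M π₀ hπ₀) (h7_hVmax _ M π₀ hπ₀) hs1 hs2 hs12 p hp _ hμ f v
    hvV hfv hv hSM1 hSM2 (h7_hK M) (fun P hP hirr => h7_hE M K P hP hirr)

include hℓ hA in
/-- **(D5b)**: `Kum.StKumVPrime A M ℓ` from the [IG] inputs over a cofinal family of number
fields inside `ℚ̄`. -/
theorem h7_stKumVPrime
    (hIG : ∀ K₀ : IntermediateField ℚ Lbar, FiniteDimensional ℚ K₀ →
      ∃ K : IntermediateField ℚ Lbar, K₀ ≤ K ∧ FiniteDimensional ℚ K ∧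
        ∀ _ : IsDiscreteValuationRing (A.comap (algebraMap ↥K Lbar)), H7IG A M K) :
    Fermat.Agent.S18x.Kum.StKumVPrime A M ℓ := by
  intro p hp hpℓ y hy hred hdiv
  obtain ⟨K₀, hfin₀, hK₀⟩ := h22_kum_descent A hℓ hA M p y hy hred hdiv ∅
  obtain ⟨K, hK, hfinK, hIGK⟩ := hIG K₀ hfin₀
  haveI := hfinK
  haveI hdvr : IsDiscreteValuationRing (A.comap (algebraMap ↥K Lbar)) :=
    h23_isDVR_intermediate A hℓ hA K
  obtain ⟨-, f, hf, hG, hπ, hv⟩ := hK₀ K hK hfinK
  obtain ⟨u, hu⟩ := h7_stKumKO A hℓ hA M p hp hpℓ K (hIGK hdvr) f hG hπ hv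
  exact ⟨u, by rw [hu, hf]⟩

include hℓ hA in
/-- **(D5b)**, `∀ K` form. -/
theorem h7_stKumVPrime_of_forall
    (hIG : ∀ K : IntermediateField ℚ Lbar, FiniteDimensional ℚ K →
      ∀ _ : IsDiscreteValuationRing (A.comap (algebraMap ↥K Lbar)), H7IG A M K) :
    Fermat.Agent.S18x.Kum.StKumVPrime A M ℓ :=
  h7_stKumVPrime A hℓ hA M (fun K₀ hK₀ => ⟨K₀, le_rfl, hK₀, hIG K₀ hK₀⟩)

end Main

end Fermat.Agent.S18x.Dict.H7
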