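import Mathlib
import Fermat.Agent.S18x.Qepo.H1_Red
import Fermat.Agent.S18x.Dict.H20_GaussDefs

/-!
# S18, package Dict/Qepo (BR): the Gauss ring is the `OW` of the abstract reduction datum
(helper20)

`gaussRing O = (Qepo.redData O π hπ).OW` and `gaussRed O = (Qepo.redData O π hπ).rhoW`, so that
all the generic results of `S28/Alg/H6_RedAbs`, `H6_RedQ`, `H29_Basis`, `H13_QepcAbs`,
`H18_QepbAbs` apply to `gaussRing` / `gaussRed`.
-/

set_option autoImplicit false
set_option linter.unusedSectionVars false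

open ModularCurve

noncomputable section

namespace Fermat.Agent.S18x.Dict.H20

open Fermat.Agent.S18x.Qepo Fermat.Agent.S28.Alg.RedAbs

variable {K : Type*} [Field K] (O : ValuationSubring K) [IsDiscreteValuationRing O]
  (π : O) (hπ : Irreducible π)

theorem redData_Lam : (redData O π hπ).Lam = lamO O := rfl

theorem redData_red_iotaO (a : LaurentSeries O) :
    (redData O π hπ).red ⟨iotaO O a, iotaO_mem_lamO O a⟩
      = coeffMap (IsLocalRing.residue O) a :=
  redLam_iotaO O a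

theorem redData_pi : (redData O π hπ).π = (HahnSeries.C (π : K) : LaurentSeries K) := rfl

/-- **(BR)** The Gauss ring is the ring `OW` of the abstract reduction datum. -/
theorem gaussRing_eq_OW : gaussRing O = (redData O π hπ).OW := by
  ext x
  constructor
  · rintro ⟨a, b, hb, h⟩
    refine ⟨⟨iotaO O a, iotaO_mem_lamO O a⟩, ⟨iotaO O b, iotaO_mem_lamO O b⟩, ?_, h⟩
    rw [redData_red_iotaO]
    exact hb
  · rintro ⟨⟨a, a', rfl⟩, ⟨b, b', rfl⟩, hb, h⟩
    refine ⟨a', b', ?_, h⟩
    have h1 := redData_red_iotaO O π hπ b'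
    rw [← h1]
    exact hb

theorem mem_OW_of_mem_gaussRing {x : LaurentSeries K} (hx : x ∈ gaussRing O) :
    x ∈ (redData O π hπ).OW := by
  rw [← gaussRing_eq_OW]
  exact hx

theorem mem_gaussRing_of_mem_OW {x : LaurentSeries K} (hx : x ∈ (redData O π hπ).OW) :
    x ∈ gaussRing O := by
  rw [gaussRing_eq_OW O π hπ]
  exact hx

/-- **(BR)** The Gauss reduction is the `rhoW` of the abstract reduction datum. -/
theorem gaussRed_eq_rhoW (x : gaussRing O) :
    gaussRed O x
      = (redData O π hπ).rhoW ⟨(x : LaurentSeries K), mem_OW_of_mem_gaussRing O π hπ x.2⟩ := by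
  obtain ⟨x, a, b, hb, h⟩ := x
  have h1 : gaussRed O ⟨x, a, b, hb, h⟩
      = coeffMap (IsLocalRing.residue O) a / coeffMap (IsLocalRing.residue O) b :=
    gaussRed_eq O ⟨x, a, b, hb, h⟩ a b hb h
  have hb' : (redData O π hπ).red ⟨iotaO O b, iotaO_mem_lamO O b⟩ ≠ 0 := by
    rw [redData_red_iotaO]
    exact hb
  have h' : x * iotaO O b = iotaO O a := h
  have h2 : (redData O π hπ).rhoW ⟨x, mem_OW_of_mem_gaussRing O π hπ ⟨a, b, hb, h⟩⟩
      = (redData O π hπ).red ⟨iotaO O a, iotaO_mem_lamO O a⟩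
        / (redData O π hπ).red ⟨iotaO O b, iotaO_mem_lamO O b⟩ :=
    (redData O π hπ).rhoW_eq ⟨x, mem_OW_of_mem_gaussRing O π hπ ⟨a, b, hb, h⟩⟩
      ⟨iotaO O a, iotaO_mem_lamO O a⟩ ⟨iotaO O b, iotaO_mem_lamO O b⟩ hb' h'
  rw [redData_red_iotaO, redData_red_iotaO] at h2
  rw [h1]
  exact h2.symm

theorem rhoW_eq_gaussRed (x : (redData O π hπ).OW) :
    (redData O π hπ).rhoW x
      = gaussRed O ⟨(x : LaurentSeries K), mem_gaussRing_of_mem_OW O π hπ x.2⟩ := by
  rw [gaussRed_eq_rhoW O π hπ]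

end Fermat.Agent.S18x.Dict.H20
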