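import Mathlib
import Fermat.Agent.S24.H13_Transc
import Fermat.Agent.S18x.Dict.H20_GaussModular

/-!
# S18, package Dict/Qepo (G2'): the Gauss lemma for a general coordinate `t` (helper20)

`K` a field, `O : ValuationSubring K` a discrete valuation ring with uniformiser `π`,
`κ` its residue field, `t ∈ O((q))` a parameter whose reduction `t̄ ∈ κ((q))` is transcendental
over `κ` (for example `t = j`, `1/j`, or a Hauptmodul with integral `q`-expansion of order `±1`).

* `exists_unit_mul_zpow`: every `x ≠ 0` in `K` is `u * π ^ n`, `u ∈ Oˣ`, `n ∈ ℤ`;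
* `exists_content_normal_form`: every `P ≠ 0` in `K[X]` is `π ^ e * P'`, `P' ∈ O[X]` with
  nonzero reduction;
* `coeff_mem_of_aeval_mem` (G2): `P(t) ∈` Gauss ring `⇒ P ∈ O[X]`;
* `gaussRed_mem_adjoin` (G1): the reduction of `K(t) ∩` Gauss ring lies in `κ(t̄)`;
* `exists_gaussRed_eq_of_mem_adjoin` (G3): and it is onto `κ(t̄)`;
* `exists_normal_form_of_mem_adjoin`: every `x ≠ 0` in `K(t)` is `π ^ e * P'(t) / Q'(t)` with
  `P', Q' ∈ O[X]` of nonzero reduction.
-/

set_option autoImplicit false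
set_option linter.unusedSectionVars false
set_option linter.style.haveILetI false

open ModularCurve Polynomial

noncomputable section

namespace Fermat.Agent.S18x.Dict.H20

variable {K : Type*} [Field K] (O : ValuationSubring K)

/-! ### Evaluation of polynomials at a parameter -/

theorem algebraMap_laurent_eq_C (R : Type*) [Field R] :
    algebraMap R (LaurentSeries R) = (HahnSeries.C : R →+* LaurentSeries R) := by
  ext x : 1
  rw [algebraMap_laurentSeries_eq_single, HahnSeries.C_apply]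

theorem aeval_eq_eval₂_C (R : Type*) [Field R] (x : LaurentSeries R) (P : R[X]) :
    aeval x P = P.eval₂ (HahnSeries.C : R →+* LaurentSeries R) x := by
  rw [aeval_def, algebraMap_laurent_eq_C]

theorem gIota_eval₂ (t : LaurentSeries O) (P : O[X]) :
    gIota O (P.eval₂ HahnSeries.C t)
      = aeval (gIota O t) (P.map (O.subtype : O →+* K)) := by
  rw [aeval_eq_eval₂_C, hom_eval₂, eval₂_map]
  congr 1
  ext x : 1
  exact gIota_C O x

theorem gRed_eval₂ (t : LaurentSeries O) (P : O[X]) :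
    gRed O (P.eval₂ HahnSeries.C t)
      = aeval (gRed O t) (P.map (IsLocalRing.residue O)) := by
  rw [aeval_eq_eval₂_C, hom_eval₂, eval₂_map]
  congr 1
  ext x : 1
  exact gRed_C O x

theorem aeval_C_mul (x : LaurentSeries K) (c : K) (P : K[X]) :
    aeval x (C c * P) = HahnSeries.C c * aeval x P := by
  rw [map_mul, aeval_C, algebraMap_laurent_eq_C]

section DVR

variable [IsDiscreteValuationRing O] (π : O) (hπ : Irreducible π)

include hπ

/-- Normal form in the fraction field of a discrete valuation ring. -/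
theorem exists_unit_mul_zpow {x : K} (hx : x ≠ 0) :
    ∃ (n : ℤ) (u : Oˣ), x = ((u : O) : K) * (π : K) ^ n := by
  rcases O.mem_or_inv_mem x with h | h
  · have hx' : (⟨x, h⟩ : O) ≠ 0 := fun h0 => hx (congrArg Subtype.val h0)
    obtain ⟨n, u, hu⟩ := IsDiscreteValuationRing.eq_unit_mul_pow_irreducible hx' hπ
    refine ⟨n, u, ?_⟩
    have h1 := congrArg Subtype.val hu
    rw [zpow_natCast]
    simpa using h1
  · have hx' : (⟨x⁻¹, h⟩ : O) ≠ 0 := fun h0 => inv_ne_zero hx (congrArg Subtype.val h0)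
    obtain ⟨n, u, hu⟩ := IsDiscreteValuationRing.eq_unit_mul_pow_irreducible hx' hπ
    refine ⟨-(n : ℤ), u⁻¹, ?_⟩
    have h1 : x⁻¹ = ((u : O) : K) * (π : K) ^ n := by
      have := congrArg Subtype.val hu
      simpa using this
    have h2 : ((u : O) : K) * (((u⁻¹ : Oˣ) : O) : K) = 1 := by
      have := congrArg (O.subtype : O →+* K) (Units.mul_inv u)
      rw [map_mul, map_one] at this
      exact this
    have hu0 : ((u : O) : K) ≠ 0 := left_ne_zero_of_mul_eq_one h2
    have h3 : (((u⁻¹ : Oˣ) : O) : K) = (((u : O) : K))⁻¹ := eq_inv_of_mul_eq_one_right h2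
    rw [h3, zpow_neg, zpow_natCast, ← mul_inv, ← h1, inv_inv]

/-- **Content normal form**: a nonzero `P ∈ K[X]` is `π ^ e * P'` with `P' ∈ O[X]` of nonzero
reduction. -/
theorem exists_content_normal_form {P : K[X]} (hP : P ≠ 0) :
    ∃ (e : ℤ) (P' : O[X]), P'.map (IsLocalRing.residue O) ≠ 0 ∧
      P = C ((π : K) ^ e) * P'.map (O.subtype : O →+* K) := by
  classical
  have hval : ∀ i, i ∈ P.support →
      ∃ (n : ℤ) (u : Oˣ), P.coeff i = ((u : O) : K) * (π : K) ^ n :=
    fun i hi => exists_unit_mul_zpow O π hπ (mem_support_iff.mp hi)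
  choose! n u hnu using hval
  obtain ⟨i₀, hi₀, hmin⟩ :=
    Finset.exists_min_image P.support n (nonempty_support_iff.mpr hP)
  have hπK : (π : K) ≠ 0 := unif_coe_ne_zero O π hπ
  have hcoef : ∀ i, (π : K) ^ (-(n i₀)) * P.coeff i ∈ O := by
    intro i
    by_cases hi : i ∈ P.support
    · rw [hnu i hi]
      have h1 : (π : K) ^ (-(n i₀)) * (((u i : O) : K) * (π : K) ^ (n i))
          = ((u i : O) : K) * (π : K) ^ (n i - n i₀) := by
        rw [zpow_sub₀ hπK, zpow_neg]
        field_simp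
      rw [h1]
      obtain ⟨k, hk⟩ := Int.eq_ofNat_of_zero_le (sub_nonneg.mpr (hmin i hi))
      rw [hk, zpow_natCast]
      exact mul_mem (u i : O).2 (pow_mem π.2 k)
    · rw [notMem_support_iff.mp hi, mul_zero]
      exact O.zero_mem
  have hlift : (C ((π : K) ^ (-(n i₀))) * P) ∈ Polynomial.lifts (O.subtype : O →+* K) := by
    rw [lifts_iff_coeff_lifts]
    intro i
    rw [coeff_C_mul]
    exact ⟨⟨_, hcoef i⟩, rfl⟩
  obtain ⟨P', hP'⟩ := hlift
  refine ⟨n i₀, P', ?_, ?_⟩
  · intro h0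
    have h1 := congrArg (fun Q : (IsLocalRing.ResidueField O)[X] => Q.coeff i₀) h0
    simp only [coeff_map, coeff_zero] at h1
    have h2 : ((P'.coeff i₀ : O) : K) = ((u i₀ : O) : K) := by
      have h5 : P'.map (O.subtype : O →+* K) = C ((π : K) ^ (-(n i₀))) * P := hP'
      have h3 := congrArg (fun Q : K[X] => Q.coeff i₀) h5
      simp only [coeff_map, coeff_C_mul] at h3
      have h4 : ((P'.coeff i₀ : O) : K) = (π : K) ^ (-(n i₀)) * P.coeff i₀ := h3
      rw [h4, hnu i₀ hi₀, zpow_neg]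
      field_simp
    have h3 : P'.coeff i₀ = (u i₀ : O) := Subtype.ext h2
    rw [h3] at h1
    exact (IsLocalRing.residue_ne_zero_iff_isUnit _).2 (u i₀).isUnit h1
  · have h5 : P'.map (O.subtype : O →+* K) = C ((π : K) ^ (-(n i₀))) * P := hP'
    rw [h5, ← mul_assoc, ← C_mul, ← zpow_add₀ hπK, add_neg_cancel, zpow_zero, C_1, one_mul]

variable (t : LaurentSeries O)
  (ht : Transcendental (IsLocalRing.ResidueField O) (gRed O t))

include ht

omit hπ in
theorem gRed_eval₂_ne_zero {P : O[X]} (hP : P.map (IsLocalRing.residue O) ≠ 0) :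
    gRed O (P.eval₂ HahnSeries.C t) ≠ 0 := by
  rw [gRed_eval₂]
  intro h
  exact hP ((transcendental_iff.mp ht) _ h)

/-- The Gauss normal form of `P(t)`, `P ∈ K[X]`. -/
theorem exists_normal_form_aeval {P : K[X]} (hP : P ≠ 0) :
    ∃ (e : ℤ) (a : LaurentSeries O), gRed O a ≠ 0 ∧
      gRed O a ∈ IntermediateField.adjoin (IsLocalRing.ResidueField O) {gRed O t} ∧
      (∀ i, (π : K) ^ (-e) * P.coeff i ∈ O) ∧
      aeval (gIota O t) P = HahnSeries.C ((π : K) ^ e) * gIota O a := by
  obtain ⟨e, P', hP', hPe⟩ := exists_content_normal_form O π hπ hP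
  have hπK : (π : K) ≠ 0 := unif_coe_ne_zero O π hπ
  refine ⟨e, P'.eval₂ HahnSeries.C t, gRed_eval₂_ne_zero O t ht hP', ?_, ?_, ?_⟩
  · rw [gRed_eval₂]
    have : aeval (gRed O t) (P'.map (IsLocalRing.residue O))
        ∈ Algebra.adjoin (IsLocalRing.ResidueField O) {gRed O t} := by
      rw [Algebra.adjoin_singleton_eq_range_aeval]
      exact ⟨_, rfl⟩
    exact IntermediateField.algebra_adjoin_le_adjoin _ _ this
  · intro i
    rw [hPe, coeff_C_mul, ← mul_assoc, ← zpow_add₀ hπK, neg_add_cancel, zpow_zero, one_mul,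
      coeff_map]
    exact (P'.coeff i).2
  · rw [hPe, aeval_C_mul, gIota_eval₂]

/-- **(G2)** If `P(t)` lies in the Gauss ring, then `P ∈ O[X]`. -/
theorem coeff_mem_of_aeval_mem (P : K[X]) (h : aeval (gIota O t) P ∈ gaussRing O) (i : ℕ) :
    P.coeff i ∈ O := by
  by_cases hP : P = 0
  · rw [hP, coeff_zero]
    exact O.zero_mem
  obtain ⟨e, a, ha, -, hcoef, hPa⟩ := exists_normal_form_aeval O π hπ t ht hP
  have hπK : (π : K) ≠ 0 := unif_coe_ne_zero O π hπ
  by_cases he : 0 ≤ e
  · obtain ⟨m, rfl⟩ := Int.eq_ofNat_of_zero_le he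
    have h1 : P.coeff i = (π : K) ^ m * ((π : K) ^ (-(m : ℤ)) * P.coeff i) := by
      rw [← mul_assoc, zpow_neg, zpow_natCast, mul_inv_cancel₀ (pow_ne_zero _ hπK), one_mul]
    rw [h1]
    exact mul_mem (pow_mem π.2 m) (hcoef i)
  · exfalso
    push Not at he
    obtain ⟨m, hm⟩ : ∃ m : ℕ, e = -((m : ℤ) + 1) := ⟨(-e - 1).toNat, by omega⟩
    have hC0 := C_unif_ne_zero O π hπ
    have h2 : aeval (gIota O t) P * (HahnSeries.C (π : K) : LaurentSeries K) ^ (m + 1)
        = gIota O a := by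
      rw [hPa, hm, map_zpow₀, zpow_neg, ← Nat.cast_add_one, zpow_natCast]
      field_simp
    have h3 : (⟨aeval (gIota O t) P, h⟩ : gaussRing O) * (gaussC O π) ^ (m + 1)
        = ⟨gIota O a, coeffMap_subtype_mem_gaussRing O a⟩ := Subtype.ext h2
    have h4 := congrArg (gaussRed O) h3
    rw [map_mul, map_pow, gaussRed_gaussC_unif O π hπ, zero_pow (Nat.succ_ne_zero m), mul_zero,
      gaussRed_coeffMap_subtype] at h4
    exact ha h4.symm

/-- Normal form in `K(t)`. -/
theorem exists_normal_form_of_mem_adjoin {x : LaurentSeries K}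
    (hx : x ∈ IntermediateField.adjoin K {gIota O t}) (hx0 : x ≠ 0) :
    ∃ (e : ℤ) (a b : LaurentSeries O), gRed O a ≠ 0 ∧ gRed O b ≠ 0 ∧
      gRed O a ∈ IntermediateField.adjoin (IsLocalRing.ResidueField O) {gRed O t} ∧
      gRed O b ∈ IntermediateField.adjoin (IsLocalRing.ResidueField O) {gRed O t} ∧
      x * gIota O b = HahnSeries.C ((π : K) ^ e) * gIota O a := by
  obtain ⟨P, Q, hPQ⟩ := (IntermediateField.mem_adjoin_simple_iff K x).mp hx
  have hQ0 : aeval (gIota O t) Q ≠ 0 := by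
    intro h
    rw [h, div_zero] at hPQ
    exact hx0 hPQ
  have hP0 : aeval (gIota O t) P ≠ 0 := by
    intro h
    rw [h, zero_div] at hPQ
    exact hx0 hPQ
  have hP : P ≠ 0 := by
    rintro rfl
    exact hP0 (map_zero _)
  have hQ : Q ≠ 0 := by
    rintro rfl
    exact hQ0 (map_zero _)
  obtain ⟨e₁, a, ha, ha', -, hPa⟩ := exists_normal_form_aeval O π hπ t ht hP
  obtain ⟨e₂, b, hb, hb', -, hQb⟩ := exists_normal_form_aeval O π hπ t ht hQ
  have hπK : (π : K) ≠ 0 := unif_coe_ne_zero O π hπ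
  refine ⟨e₁ - e₂, a, b, ha, hb, ha', hb', ?_⟩
  have hb0 : gIota O b ≠ 0 := gIota_ne_zero O (ne_zero_of_gRed_ne_zero O hb)
  have hc2 : (HahnSeries.C ((π : K) ^ e₂) : LaurentSeries K) ≠ 0 := by
    intro h
    exact zpow_ne_zero e₂ hπK (HahnSeries.C_injective (by rw [h, map_zero]))
  rw [hPQ, hPa, hQb, zpow_sub₀ hπK, map_div₀]
  field_simp

/-- **(G1)** The reduction of `K(t) ∩` Gauss ring lies in `κ(t̄)`. -/
theorem gaussRed_mem_adjoin (x : gaussRing O)
    (hx : (x : LaurentSeries K) ∈ IntermediateField.adjoin K {gIota O t}) :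
    gaussRed O x ∈ IntermediateField.adjoin (IsLocalRing.ResidueField O) {gRed O t} := by
  by_cases hx0 : (x : LaurentSeries K) = 0
  · have : x = 0 := Subtype.ext hx0
    rw [this, map_zero]
    exact zero_mem _
  obtain ⟨e, a, b, ha, hb, ha', hb', h⟩ :=
    exists_normal_form_of_mem_adjoin O π hπ t ht hx hx0
  have hπK : (π : K) ≠ 0 := unif_coe_ne_zero O π hπ
  by_cases he : 0 ≤ e
  · obtain ⟨m, rfl⟩ := Int.eq_ofNat_of_zero_le he
    have h1 : (x : LaurentSeries K) * gIota O b = gIota O (HahnSeries.C π ^ m * a) := by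
      rw [h, map_mul, map_pow, gIota_C, zpow_natCast, map_pow]
    rw [gaussRed_eq O x _ b hb h1]
    refine div_mem ?_ hb'
    rw [map_mul, map_pow]
    refine mul_mem (pow_mem ?_ m) ha'
    rw [gRed_C]
    have := IntermediateField.algebraMap_mem
      (IntermediateField.adjoin (IsLocalRing.ResidueField O) {gRed O t})
      (IsLocalRing.residue O π)
    rwa [algebraMap_laurent_eq_C] at this
  · exfalso
    push Not at he
    obtain ⟨m, hm⟩ : ∃ m : ℕ, e = -((m : ℤ) + 1) := ⟨(-e - 1).toNat, by omega⟩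
    have hC0 := C_unif_ne_zero O π hπ
    have h2 : (x : LaurentSeries K) * (HahnSeries.C (π : K) : LaurentSeries K) ^ (m + 1)
        * gIota O b = gIota O a := by
      have h3 : (x : LaurentSeries K) * (HahnSeries.C (π : K) : LaurentSeries K) ^ (m + 1)
          * gIota O b = (x * gIota O b) * (HahnSeries.C (π : K) : LaurentSeries K) ^ (m + 1) := by
        ring
      rw [h3, h, hm, map_zpow₀, zpow_neg, ← Nat.cast_add_one, zpow_natCast]
      field_simp
    have h3 : x * (gaussC O π) ^ (m + 1) * ⟨gIota O b, coeffMap_subtype_mem_gaussRing O b⟩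
        = ⟨gIota O a, coeffMap_subtype_mem_gaussRing O a⟩ := Subtype.ext h2
    have h4 := congrArg (gaussRed O) h3
    rw [map_mul, map_mul, map_pow, gaussRed_gaussC_unif O π hπ, zero_pow (Nat.succ_ne_zero m),
      mul_zero, zero_mul, gaussRed_coeffMap_subtype] at h4
    exact ha h4.symm

/-- Normal form in `K(t)`, polynomial version: every `x ≠ 0` in `K(t)` is
`π ^ e * P'(t) / Q'(t)` with `P', Q' ∈ O[X]` of nonzero reduction. -/
theorem exists_poly_normal_form_of_mem_adjoin {x : LaurentSeries K}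
    (hx : x ∈ IntermediateField.adjoin K {gIota O t}) (hx0 : x ≠ 0) :
    ∃ (e : ℤ) (P' Q' : O[X]), P'.map (IsLocalRing.residue O) ≠ 0 ∧
      Q'.map (IsLocalRing.residue O) ≠ 0 ∧
      x * aeval (gIota O t) (Q'.map (O.subtype : O →+* K))
        = HahnSeries.C ((π : K) ^ e) * aeval (gIota O t) (P'.map (O.subtype : O →+* K)) := by
  obtain ⟨P, Q, hPQ⟩ := (IntermediateField.mem_adjoin_simple_iff K x).mp hx
  have hQ0 : aeval (gIota O t) Q ≠ 0 := by
    intro h
    rw [h, div_zero] at hPQ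
    exact hx0 hPQ
  have hP0 : aeval (gIota O t) P ≠ 0 := by
    intro h
    rw [h, zero_div] at hPQ
    exact hx0 hPQ
  have hP : P ≠ 0 := by
    rintro rfl
    exact hP0 (map_zero _)
  have hQ : Q ≠ 0 := by
    rintro rfl
    exact hQ0 (map_zero _)
  obtain ⟨e₁, P', hP', hPe⟩ := exists_content_normal_form O π hπ hP
  obtain ⟨e₂, Q', hQ', hQe⟩ := exists_content_normal_form O π hπ hQ
  have hπK : (π : K) ≠ 0 := unif_coe_ne_zero O π hπ
  refine ⟨e₁ - e₂, P', Q', hP', hQ', ?_⟩
  have hb0 : aeval (gIota O t) (Q'.map (O.subtype : O →+* K)) ≠ 0 := by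
    rw [← gIota_eval₂]
    exact gIota_ne_zero O (ne_zero_of_gRed_ne_zero O (gRed_eval₂_ne_zero O t ht hQ'))
  have hc2 : (HahnSeries.C ((π : K) ^ e₂) : LaurentSeries K) ≠ 0 := by
    intro h
    exact zpow_ne_zero e₂ hπK (HahnSeries.C_injective (by rw [h, map_zero]))
  have h1 : aeval (gIota O t) P
      = HahnSeries.C ((π : K) ^ e₁) * aeval (gIota O t) (P'.map (O.subtype : O →+* K)) := by
    conv_lhs => rw [hPe]
    rw [aeval_C_mul]
  have h2 : aeval (gIota O t) Q
      = HahnSeries.C ((π : K) ^ e₂) * aeval (gIota O t) (Q'.map (O.subtype : O →+* K)) := by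
    conv_lhs => rw [hQe]
    rw [aeval_C_mul]
  rw [hPQ, h1, h2, zpow_sub₀ hπK, map_div₀]
  field_simp

/-- **`K(t) ∩ V = O[t]_(π)`**: an element of `K(t)` in the Gauss ring is a fraction `a(t) / b(t)`
with `a, b ∈ O[X]`, `b` of nonzero reduction. -/
theorem exists_locFrac_of_mem (x : gaussRing O)
    (hx : (x : LaurentSeries K) ∈ IntermediateField.adjoin K {gIota O t}) :
    ∃ a b : O[X], b.map (IsLocalRing.residue O) ≠ 0 ∧
      (x : LaurentSeries K) * aeval (gIota O t) (b.map (O.subtype : O →+* K))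
        = aeval (gIota O t) (a.map (O.subtype : O →+* K)) := by
  by_cases hx0 : (x : LaurentSeries K) = 0
  · refine ⟨0, 1, ?_, ?_⟩
    · rw [Polynomial.map_one]
      exact one_ne_zero
    · rw [hx0, zero_mul, Polynomial.map_zero, map_zero]
  obtain ⟨e, P', Q', hP', hQ', h⟩ :=
    exists_poly_normal_form_of_mem_adjoin O π hπ t ht hx hx0
  have hπK : (π : K) ≠ 0 := unif_coe_ne_zero O π hπ
  by_cases he : 0 ≤ e
  · obtain ⟨m, rfl⟩ := Int.eq_ofNat_of_zero_le he
    refine ⟨C (π ^ m) * P', Q', hQ', ?_⟩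
    rw [h, Polynomial.map_mul, Polynomial.map_C, aeval_C_mul, zpow_natCast]
    rfl
  · exfalso
    push Not at he
    obtain ⟨m, hm⟩ : ∃ m : ℕ, e = -((m : ℤ) + 1) := ⟨(-e - 1).toNat, by omega⟩
    have hC0 := C_unif_ne_zero O π hπ
    have h2 : (x : LaurentSeries K) * (HahnSeries.C (π : K) : LaurentSeries K) ^ (m + 1)
        * gIota O (Q'.eval₂ HahnSeries.C t) = gIota O (P'.eval₂ HahnSeries.C t) := by
      have h3 : (x : LaurentSeries K) * (HahnSeries.C (π : K) : LaurentSeries K) ^ (m + 1)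
          * gIota O (Q'.eval₂ HahnSeries.C t)
          = (x * aeval (gIota O t) (Q'.map (O.subtype : O →+* K)))
            * (HahnSeries.C (π : K) : LaurentSeries K) ^ (m + 1) := by
        rw [gIota_eval₂]
        ring
      rw [h3, h, hm, map_zpow₀, zpow_neg, ← Nat.cast_add_one, zpow_natCast, gIota_eval₂]
      field_simp
    have h3 : x * (gaussC O π) ^ (m + 1)
        * ⟨gIota O (Q'.eval₂ HahnSeries.C t), coeffMap_subtype_mem_gaussRing O _⟩
        = ⟨gIota O (P'.eval₂ HahnSeries.C t), coeffMap_subtype_mem_gaussRing O _⟩ :=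
      Subtype.ext h2
    have h4 := congrArg (gaussRed O) h3
    rw [map_mul, map_mul, map_pow, gaussRed_gaussC_unif O π hπ, zero_pow (Nat.succ_ne_zero m),
      mul_zero, zero_mul, gaussRed_coeffMap_subtype] at h4
    exact gRed_eval₂_ne_zero O t ht hP' h4.symm

/-- The reduction of `a(t) / b(t)`. -/
theorem gaussRed_eq_of_locFrac (x : gaussRing O) (a b : O[X])
    (hb : b.map (IsLocalRing.residue O) ≠ 0)
    (h : (x : LaurentSeries K) * aeval (gIota O t) (b.map (O.subtype : O →+* K))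
        = aeval (gIota O t) (a.map (O.subtype : O →+* K))) :
    gaussRed O x = aeval (gRed O t) (a.map (IsLocalRing.residue O))
      / aeval (gRed O t) (b.map (IsLocalRing.residue O)) := by
  have h1 : (x : LaurentSeries K) * gIota O (b.eval₂ HahnSeries.C t)
      = gIota O (a.eval₂ HahnSeries.C t) := by
    rw [gIota_eval₂, gIota_eval₂]
    exact h
  have h2 := gaussRed_eq O x (a.eval₂ HahnSeries.C t) (b.eval₂ HahnSeries.C t)
    (gRed_eval₂_ne_zero O t ht hb) h1
  rw [h2]
  show gRed O (a.eval₂ HahnSeries.C t) / gRed O (b.eval₂ HahnSeries.C t) = _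
  rw [gRed_eval₂, gRed_eval₂]


omit hπ in
/-- **(G3)** The reduction of `K(t) ∩` Gauss ring is onto `κ(t̄)`. -/
theorem exists_gaussRed_eq_of_mem_adjoin (y : LaurentSeries (IsLocalRing.ResidueField O))
    (hy : y ∈ IntermediateField.adjoin (IsLocalRing.ResidueField O) {gRed O t}) :
    ∃ x : gaussRing O, (x : LaurentSeries K) ∈ IntermediateField.adjoin K {gIota O t} ∧
      gaussRed O x = y := by
  obtain ⟨P, Q, hPQ⟩ :=
    (IntermediateField.mem_adjoin_simple_iff (IsLocalRing.ResidueField O) y).mp hy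
  by_cases hQ0 : aeval (gRed O t) Q = 0
  · refine ⟨0, zero_mem _, ?_⟩
    rw [map_zero, hPQ, hQ0, div_zero]
  obtain ⟨P', rfl⟩ := Polynomial.map_surjective (IsLocalRing.residue O)
    IsLocalRing.residue_surjective P
  obtain ⟨Q', rfl⟩ := Polynomial.map_surjective (IsLocalRing.residue O)
    IsLocalRing.residue_surjective Q
  rw [← gRed_eval₂] at hQ0 hPQ
  rw [← gRed_eval₂] at hPQ
  set a : LaurentSeries O := P'.eval₂ HahnSeries.C t with ha
  set b : LaurentSeries O := Q'.eval₂ HahnSeries.C t with hb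
  have hb0 : gIota O b ≠ 0 := gIota_ne_zero O (ne_zero_of_gRed_ne_zero O hQ0)
  have hrel : gIota O a / gIota O b * gIota O b = gIota O a := div_mul_cancel₀ _ hb0
  have hmem : gIota O a / gIota O b ∈ gaussRing O := ⟨a, b, hQ0, hrel⟩
  have hAK : ∀ R : O[X], gIota O (R.eval₂ HahnSeries.C t)
      ∈ IntermediateField.adjoin K {gIota O t} := by
    intro R
    rw [gIota_eval₂]
    have : aeval (gIota O t) (R.map (O.subtype : O →+* K))
        ∈ Algebra.adjoin K {gIota O t} := by
      rw [Algebra.adjoin_singleton_eq_range_aeval]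
      exact ⟨_, rfl⟩
    exact IntermediateField.algebra_adjoin_le_adjoin _ _ this
  have hred : gaussRed O ⟨gIota O a / gIota O b, hmem⟩ = gRed O a / gRed O b :=
    gaussRed_eq O ⟨gIota O a / gIota O b, hmem⟩ a b hQ0 hrel
  refine ⟨⟨gIota O a / gIota O b, hmem⟩, div_mem (hAK P') (hAK Q'), ?_⟩
  rw [hred, hPQ]

end DVR

end Fermat.Agent.S18x.Dict.H20
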