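import Mathlib
import Fermat.Agent.S18x.Dict.H20_GaussModular

/-!
# S18, package Dict/Qepo: the `V`-inputs of `h26_spec_val` / `h26_kum_abs` for the Gauss
valuation subring of the modular function field (helper20)

`K` a field, `O : ValuationSubring K` a discrete valuation ring with uniformiser `π`,
`F = ↥(modularFunctionFieldFullC K M)` with ANY `[Algebra O F] [IsScalarTower O K F]`,
`V = gaussValM O M`.

* `hOV_gaussValM`   : `∀ c : O, algebraMap O F c ∈ V`;
* `hπV_gaussValM`   : `∀ v ∈ V, algebraMap O F π * v ≠ 1`;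
* `hVmax_gaussValM` : `∀ y ∈ V, y⁻¹ ∉ V → ∃ v ∈ V, y = algebraMap O F π * v`;
* `hVval_gaussValM` : `∀ y ∈ V, (∃ v ∈ V, y = algebraMap O F π * v) ∨ y⁻¹ ∈ V`;
* `hf_gaussValM`    : `gaussRedM f = 1 → ∃ v ∈ V, f - 1 = algebraMap O F π * v`;
* `mem_gaussValM_of_coe`, `inv_mem_gaussValM_of_gRed_ne_zero`: a coordinate `x : F` whose
  `q`-expansion is `gIota t`, `t ∈ O((q))` of nonzero reduction, is a unit of `V`
  (`hjV`, `hj'V` for any such coordinate).
-/

set_option autoImplicit false
set_option linter.unusedSectionVars false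
set_option linter.style.haveILetI false

open ModularCurve

noncomputable section

namespace Fermat.Agent.S18x.Dict.H20

variable {K : Type*} [Field K] (O : ValuationSubring K) [IsDiscreteValuationRing O] (M : ℕ)
  [Algebra O ↥(modularFunctionFieldFullC K M)]
  [IsScalarTower O K ↥(modularFunctionFieldFullC K M)]

theorem coe_algebraMap_O (c : O) :
    ((algebraMap O ↥(modularFunctionFieldFullC K M) c : ↥(modularFunctionFieldFullC K M)) :
      LaurentSeries K) = HahnSeries.C (c : K) := by
  rw [IsScalarTower.algebraMap_apply O K ↥(modularFunctionFieldFullC K M)]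
  show algebraMap K (LaurentSeries K) (algebraMap O K c) = _
  rw [algebraMap_laurentSeries_eq_single, HahnSeries.C_apply]
  rfl

theorem algebraMap_O_eq_unifM (π : O) :
    algebraMap O ↥(modularFunctionFieldFullC K M) π = unifM O M π := by
  apply Subtype.ext
  rw [coe_algebraMap_O]
  exact (inclM_unifM O M π).symm

/-- `hOV`. -/
theorem hOV_gaussValM (c : O) :
    algebraMap O ↥(modularFunctionFieldFullC K M) c ∈ gaussValM O M := by
  rw [mem_gaussValM_iff, coe_algebraMap_O]
  exact C_mem_gaussRing O c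

theorem gaussRedM_algebraMap_O (c : O) :
    gaussRedM O M ⟨algebraMap O ↥(modularFunctionFieldFullC K M) c, hOV_gaussValM O M c⟩
      = HahnSeries.C (IsLocalRing.residue O c) := by
  have h1 : (⟨((algebraMap O ↥(modularFunctionFieldFullC K M) c :
      ↥(modularFunctionFieldFullC K M)) : LaurentSeries K), hOV_gaussValM O M c⟩ : gaussRing O)
      = gaussC O c := Subtype.ext (coe_algebraMap_O O M c)
  rw [gaussRedM_apply]
  show gaussRed O ⟨_, _⟩ = _
  rw [h1, gaussRed_gaussC]

section Unif

variable (π : O) (hπ : Irreducible π)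

include hπ

theorem gaussRedM_algebraMap_unif :
    gaussRedM O M ⟨algebraMap O ↥(modularFunctionFieldFullC K M) π, hOV_gaussValM O M π⟩
      = 0 := by
  rw [gaussRedM_algebraMap_O, residue_unif O π hπ, map_zero]

/-- `hπV`: the uniformiser is not a unit of the Gauss valuation subring. -/
theorem hπV_gaussValM (v : ↥(modularFunctionFieldFullC K M)) (hv : v ∈ gaussValM O M) :
    algebraMap O ↥(modularFunctionFieldFullC K M) π * v ≠ 1 := by
  intro h
  have h1 : (⟨algebraMap O ↥(modularFunctionFieldFullC K M) π, hOV_gaussValM O M π⟩ :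
      gaussValM O M) * ⟨v, hv⟩ = 1 := Subtype.ext h
  have h2 := congrArg (gaussRedM O M) h1
  rw [map_mul, gaussRedM_algebraMap_unif O M π hπ, zero_mul, map_one] at h2
  exact zero_ne_one h2

/-- The kernel of the reduction is `π V`, in the spelling of `algebraMap O F π`. -/
theorem exists_eq_algebraMap_mul_of_gaussRedM_eq_zero {y : gaussValM O M}
    (hy : gaussRedM O M y = 0) :
    ∃ v ∈ gaussValM O M, (y : ↥(modularFunctionFieldFullC K M))
      = algebraMap O ↥(modularFunctionFieldFullC K M) π * v := by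
  obtain ⟨w, hw⟩ := exists_eq_mul_of_gaussRedM_eq_zero O M π hπ hy
  exact ⟨w, w.2, by rw [hw, algebraMap_O_eq_unifM]⟩

/-- `hVmax`: a non-unit of `V` is divisible by `π` in `V`. -/
theorem hVmax_gaussValM (y : ↥(modularFunctionFieldFullC K M)) (hy : y ∈ gaussValM O M)
    (hinv : y⁻¹ ∉ gaussValM O M) :
    ∃ v ∈ gaussValM O M, y = algebraMap O ↥(modularFunctionFieldFullC K M) π * v := by
  have h0 : gaussRedM O M ⟨y, hy⟩ = 0 := by
    by_contra hne
    apply hinv
    rw [mem_gaussValM_iff]
    have := inv_mem_gaussRing O (x := ⟨(y : LaurentSeries K), hy⟩) hne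
    show ((y⁻¹ : ↥(modularFunctionFieldFullC K M)) : LaurentSeries K) ∈ gaussRing O
    have h1 : ((y⁻¹ : ↥(modularFunctionFieldFullC K M)) : LaurentSeries K)
        = ((y : LaurentSeries K))⁻¹ := rfl
    rw [h1]
    exact this
  exact exists_eq_algebraMap_mul_of_gaussRedM_eq_zero O M π hπ h0

/-- `hVval` (the form used by `h7_LOC`). -/
theorem hVval_gaussValM (y : ↥(modularFunctionFieldFullC K M)) (hy : y ∈ gaussValM O M) :
    (∃ v ∈ gaussValM O M, y = algebraMap O ↥(modularFunctionFieldFullC K M) π * v)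
      ∨ y⁻¹ ∈ gaussValM O M := by
  by_cases h : y⁻¹ ∈ gaussValM O M
  · exact Or.inr h
  · exact Or.inl (hVmax_gaussValM O M π hπ y hy h)

/-- `hf`: an element of reduction `1` is `≡ 1 mod π V`. -/
theorem hf_gaussValM (f : gaussValM O M) (hf : gaussRedM O M f = 1) :
    ∃ v ∈ gaussValM O M, (f : ↥(modularFunctionFieldFullC K M)) - 1
      = algebraMap O ↥(modularFunctionFieldFullC K M) π * v := by
  have h0 : gaussRedM O M (f - 1) = 0 := by
    rw [map_sub, hf, map_one, sub_self]
  obtain ⟨v, hv, h⟩ := exists_eq_algebraMap_mul_of_gaussRedM_eq_zero O M π hπ h0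
  exact ⟨v, hv, h⟩

end Unif

/-! ### Coordinates -/

omit [Algebra O ↥(modularFunctionFieldFullC K M)]
  [IsScalarTower O K ↥(modularFunctionFieldFullC K M)] in
/-- `hjV` for a coordinate with integral `q`-expansion. -/
theorem mem_gaussValM_of_coe (x : ↥(modularFunctionFieldFullC K M)) (t : LaurentSeries O)
    (hx : (x : LaurentSeries K) = gIota O t) : x ∈ gaussValM O M := by
  rw [mem_gaussValM_iff, hx]
  exact coeffMap_subtype_mem_gaussRing O t

omit [Algebra O ↥(modularFunctionFieldFullC K M)]
  [IsScalarTower O K ↥(modularFunctionFieldFullC K M)] in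
theorem gaussRedM_of_coe (x : ↥(modularFunctionFieldFullC K M)) (t : LaurentSeries O)
    (hx : (x : LaurentSeries K) = gIota O t) :
    gaussRedM O M ⟨x, mem_gaussValM_of_coe O M x t hx⟩ = gRed O t := by
  have h1 : (⟨(x : LaurentSeries K), mem_gaussValM_of_coe O M x t hx⟩ : gaussRing O)
      = ⟨gIota O t, coeffMap_subtype_mem_gaussRing O t⟩ := Subtype.ext hx
  rw [gaussRedM_apply]
  show gaussRed O ⟨_, _⟩ = _
  rw [h1]
  exact gaussRed_coeffMap_subtype O t

omit [Algebra O ↥(modularFunctionFieldFullC K M)]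
  [IsScalarTower O K ↥(modularFunctionFieldFullC K M)] in
/-- `hj'V` for a coordinate with integral `q`-expansion of nonzero reduction. -/
theorem inv_mem_gaussValM_of_gRed_ne_zero (x : ↥(modularFunctionFieldFullC K M))
    (t : LaurentSeries O) (hx : (x : LaurentSeries K) = gIota O t) (ht : gRed O t ≠ 0) :
    x⁻¹ ∈ gaussValM O M := by
  have hne : gaussRed O ⟨(x : LaurentSeries K), mem_gaussValM_of_coe O M x t hx⟩ ≠ 0 := by
    have := gaussRedM_of_coe O M x t hx
    rw [gaussRedM_apply] at this
    rw [this]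
    exact ht
  have := inv_mem_gaussRing O hne
  rw [mem_gaussValM_iff]
  show ((x⁻¹ : ↥(modularFunctionFieldFullC K M)) : LaurentSeries K) ∈ gaussRing O
  have h1 : ((x⁻¹ : ↥(modularFunctionFieldFullC K M)) : LaurentSeries K)
      = ((x : LaurentSeries K))⁻¹ := rfl
  rw [h1]
  exact this

end Fermat.Agent.S18x.Dict.H20
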