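import Fermat.Agent.S18x.Dict.H29_Div
import Fermat.Agent.S18x.Desc.H19_Bridge

/-!
# S18 [DICT] (D3) (helper29): DIV descent, hypothesis-free

`d0c M : D0c M` from helper19's `h19_exists_descent` / `h19_descends_mono` / `h19_bar_eq`, and the
hypothesis-free forms `div_descent`, `div_descent₂` of `h29_div_descent`, `h29_div_descent₂`.
-/

set_option autoImplicit false
set_option linter.unusedSectionVars false
set_option synthInstance.maxHeartbeats 400000
set_option maxHeartbeats 1000000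

noncomputable section

namespace Fermat.Agent.S18x.Dict.H29

open AlgebraicCurve ModularCurve IntermediateField Fermat.Agent.S18x.Dict.H22
  Fermat.Agent.S18x.Desc.H19

local notation "Lbar" => AlgebraicClosure ℚ

variable (M : ℕ) [NeZero M]

/-- **(D0c)**, finite-family form. -/
theorem d0c : D0c M := by
  classical
  intro T
  induction T using Finset.induction_on with
  | empty => exact ⟨⊥, inferInstance, fun K _ x hx => absurd hx (Finset.notMem_empty x)⟩
  | insert a s _ ih =>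
    obtain ⟨K₁, hfin₁, hK₁⟩ := ih
    have ha' : (a : LaurentSeries Lbar) ∈ modularFunctionFieldFullC Lbar M := by
      rw [← h19_bar_eq]
      exact a.2
    have : Algebra.IsAlgebraic ℚ Lbar := AlgebraicClosure.isAlgebraic ℚ
    obtain ⟨K₂, hfin₂, hK₂⟩ := h19_exists_descent M ha'
    refine ⟨K₁ ⊔ K₂, IntermediateField.finiteDimensional_sup K₁ K₂, fun K hK x hx => ?_⟩
    rcases Finset.mem_insert.mp hx with rfl | hx
    · obtain ⟨x', hx', hxx⟩ := h19_descends_mono (le_sup_right.trans hK) hK₂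
      exact ⟨⟨x', hx'⟩, Subtype.ext (by rw [coe_iotaK]; exact hxx)⟩
    · exact hK₁ K (le_sup_left.trans hK) x hx

/-- **(D3) DIV descent**, hypothesis-free. -/
theorem div_descent (m : ℕ) (y : ↥(modularFunctionFieldBar M)) (hy : y ≠ 0)
    (hdiv : ∀ P : Place Lbar ↥(modularFunctionFieldBar M), (m : ℤ) ∣ P.ord y)
    (T : Finset ↥(modularFunctionFieldBar M)) :
    ∃ K₀ : IntermediateField ℚ Lbar, FiniteDimensional ℚ K₀ ∧
      ∀ K : IntermediateField ℚ Lbar, K₀ ≤ K →
        (∀ x ∈ T, ∃ x' : ↥(modularFunctionFieldFullC ↥K M), iotaK ↥K M x' = x) ∧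
        ∃ f : ↥(modularFunctionFieldFullC ↥K M), iotaK ↥K M f = y ∧
          ∀ v : Place ↥K ↥(modularFunctionFieldFullC ↥K M), (m : ℤ) ∣ v.ord f :=
  h29_div_descent M (d0c M) m y hy hdiv T

/-- **(D3), two-element form**, hypothesis-free. -/
theorem div_descent₂ (m : ℕ) (y₁ y₂ : ↥(modularFunctionFieldBar M))
    (hy₁ : y₁ ≠ 0) (hy₂ : y₂ ≠ 0)
    (hdiv : ∀ P : Place Lbar ↥(modularFunctionFieldBar M), (m : ℤ) ∣ P.ord y₁ - P.ord y₂)
    (T : Finset ↥(modularFunctionFieldBar M)) :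
    ∃ K₀ : IntermediateField ℚ Lbar, FiniteDimensional ℚ K₀ ∧
      ∀ K : IntermediateField ℚ Lbar, K₀ ≤ K →
        (∀ x ∈ T, ∃ x' : ↥(modularFunctionFieldFullC ↥K M), iotaK ↥K M x' = x) ∧
        ∃ f₁ f₂ : ↥(modularFunctionFieldFullC ↥K M), iotaK ↥K M f₁ = y₁ ∧ iotaK ↥K M f₂ = y₂ ∧
          f₁ ≠ 0 ∧ f₂ ≠ 0 ∧
          ∀ v : Place ↥K ↥(modularFunctionFieldFullC ↥K M), (m : ℤ) ∣ v.ord f₁ - v.ord f₂ :=
  h29_div_descent₂ M (d0c M) m y₁ y₂ hy₁ hy₂ hdiv T

end Fermat.Agent.S18x.Dict.H29
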