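import Mathlib
import Fermat.Agent.S18x.Dict.H7_KumInst
import Fermat.Agent.S18x.IG.H29_Coord
import Fermat.Agent.S18x.IG.H28_HmLaurent
import Fermat.Agent.S18x.IG.H21_HmF
import Fermat.Agent.S18x.IG.H6_HmbInst
import Fermat.Agent.S18x.Qepo.H1_Sat
import Fermat.Agent.S18x.Qepo.H2_SatH

/-!
# S18 / [DICT] (helper7): `H7IG` from the landed parts, modulo (SM) on the two `h`-charts

* `h7IG_of_identity` : for a base coordinate `x₀ = q⁻¹ + … ∈ ℤ((q))` lying in `F_M` with an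
  identity `j * D(x₀) = N(x₀)` (`N`, `D` monic, `deg D < deg N`, `D(0) = 0`, `N(0)` prime to `ℓ`),
  `ℓ ∤ M`: the coordinate inputs (helper29), the three saturations (helper1 + helper2) hold, so
  `H7IG A M K` follows from (SM) on the charts of `x` and `x⁻¹`;
* `h7IG_two` (`ℓ ≠ 2`, `2 ∣ M`), `h7IG_three` (`ℓ ≠ 3`, `3 ∣ M`) : the Hauptmoduln of levels 2, 3
  (helper28's identities, helper21's membership);
* `h7_stKumVPrime_two`, `h7_stKumVPrime_three` : `Kum.StKumVPrime A M ℓ` from (SM) alone.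
-/

set_option autoImplicit false
set_option linter.unusedSectionVars false
set_option linter.style.haveILetI false
set_option synthInstance.maxHeartbeats 400000
set_option maxHeartbeats 1000000

noncomputable section

namespace Fermat.Agent.S18x.Dict.H7

open AlgebraicCurve ModularCurve IntermediateField Polynomial
open Fermat.Agent.S18x.Dict.H20 Fermat.Agent.S18x.Dict.H22 Fermat.Agent.S18x.Dict.H23
open Fermat.Agent.S18x.Spec.H26

local notation "Lbar" => AlgebraicClosure ℚ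

section Transport

variable {K : Type} [Field K] (O : ValuationSubring K) (M : ℕ) [NeZero M]

/-- polynomial expressions with integer coefficients in an element of `F_M`, computed over `O` -/
theorem h7_coe_aeval_map (h : ↥(modularFunctionFieldFullC K M)) (P : ℤ[X]) :
    ((aeval h (P.map (Int.castRingHom O)) : ↥(modularFunctionFieldFullC K M)) :
      LaurentSeries K) = aeval (h : LaurentSeries K) (P.map (Int.castRingHom K)) := by
  induction P using Polynomial.induction_on' with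
  | add p q hp hq =>
    rw [Polynomial.map_add, Polynomial.map_add, map_add, map_add, ← hp, ← hq]
    rfl
  | monomial n a =>
    rw [Polynomial.map_monomial, Polynomial.map_monomial, aeval_monomial, aeval_monomial]
    show algebraMap K (LaurentSeries K) (((Int.castRingHom O a : O) : K)) *
      (h : LaurentSeries K) ^ n = _
    congr 2

/-- the identity `j * D(x₀) = N(x₀)` in `F_M`, over `O` -/
theorem h7_identity_FM (x₀ : LaurentSeries ℤ)
    (hmem : coeffMap (Int.castRingHom K) x₀ ∈ modularFunctionFieldFullC K M)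
    (N D : ℤ[X]) (hid : jqModC ℤ * aeval x₀ D = aeval x₀ N) :
    Fermat.Agent.S28.Asm.jbFull K M *
        aeval (Fermat.Agent.S18x.IG.H29.coordM K M x₀ hmem) (D.map (Int.castRingHom O)) =
      aeval (Fermat.Agent.S18x.IG.H29.coordM K M x₀ hmem) (N.map (Int.castRingHom O)) := by
  apply Subtype.ext
  have h1 := congrArg (coeffMap (Int.castRingHom K)) hid
  rw [map_mul, coeffMap_jqModC, Fermat.Agent.S18x.IG.H6.h6_coeffMap_aeval,
    Fermat.Agent.S18x.IG.H6.h6_coeffMap_aeval] at h1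
  rw [h7_coe_aeval_map]
  show jqModC K * ((aeval (Fermat.Agent.S18x.IG.H29.coordM K M x₀ hmem)
    (D.map (Int.castRingHom O)) : ↥(modularFunctionFieldFullC K M)) : LaurentSeries K) = _
  rw [h7_coe_aeval_map]
  exact h1

end Transport

section Parts

variable (A : ValuationSubring Lbar) {ℓ : ℕ} (hℓ : ℓ.Prime) (hA : A.LiesOverPrime ℓ)
  (M : ℕ) [NeZero M]

include hℓ hA in
/-- **`H7IG` from an identity `j * D(x₀) = N(x₀)` and (SM) on the two charts.** -/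
theorem h7IG_of_identity (hℓM : ¬ ℓ ∣ M) (K : IntermediateField ℚ Lbar)
    [IsDiscreteValuationRing (A.comap (algebraMap ↥K Lbar))]
    (x₀ : LaurentSeries ℤ) (hord : x₀.order = -1) (hlead : x₀.coeff (-1) = 1)
    (hmem : coeffMap (Int.castRingHom ↥K) x₀ ∈ modularFunctionFieldFullC ↥K M)
    (N D : ℤ[X]) (hN : N.Monic) (hD : D.Monic) (hdeg : D.natDegree < N.natDegree)
    (hD0 : D.coeff 0 = 0) (n₀ : ℕ) (hn₀ : N.coeff 0 = (n₀ : ℤ)) (hℓn₀ : ¬ ℓ ∣ n₀)
    (hid : jqModC ℤ * aeval x₀ D = aeval x₀ N)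
    (π₀ : A.comap (algebraMap ↥K Lbar)) (hπ₀ : Irreducible π₀)
    (hSM₁ : Fermat.Agent.S18x.IG.HSMChart (A.comap (algebraMap ↥K Lbar))
      (Fermat.Agent.S18x.IG.H29.coordM ↥K M x₀ hmem) π₀)
    (hSM₂ : Fermat.Agent.S18x.IG.HSMChart (A.comap (algebraMap ↥K Lbar))
      (Fermat.Agent.S18x.IG.H29.coordM ↥K M x₀ hmem)⁻¹ π₀) :
    H7IG A M K := by
  haveI : IsScalarTower (A.comap (algebraMap ↥K Lbar)) ↥K ↥(modularFunctionFieldFullC ↥K M) :=
    IsScalarTower.of_algebraMap_eq (fun c => rfl)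
  haveI : Fact ℓ.Prime := ⟨hℓ⟩
  haveI : CharP (IsLocalRing.ResidueField (A.comap (algebraMap ↥K Lbar))) ℓ :=
    h23_charP_residueField (K := ↥K) A hℓ hA
  obtain ⟨h1, h2, h3, h4, h5⟩ := Fermat.Agent.S18x.IG.H29.coord_inputs
    (A.comap (algebraMap ↥K Lbar)) M x₀ hmem hord hlead
  obtain ⟨u, hu⟩ := h23_isUnit_natCast (K := ↥K) A hℓ hA n₀ hℓn₀
  have hμ : ((u⁻¹ : (A.comap (algebraMap ↥K Lbar))ˣ) : A.comap (algebraMap ↥K Lbar)) *
      (N.map (Int.castRingHom (A.comap (algebraMap ↥K Lbar)))).coeff 0 = 1 := by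
    rw [Polynomial.coeff_map, hn₀]
    have : (Int.castRingHom (A.comap (algebraMap ↥K Lbar))) ((n₀ : ℕ) : ℤ) =
        ((n₀ : ℕ) : A.comap (algebraMap ↥K Lbar)) := by simp
    rw [this, ← hu]
    exact Units.inv_mul u
  have hD0' : (D.map (Int.castRingHom (A.comap (algebraMap ↥K Lbar)))).coeff 0 = 0 := by
    rw [Polynomial.coeff_map, hD0, map_zero]
  have hdeg' : (D.map (Int.castRingHom (A.comap (algebraMap ↥K Lbar)))).natDegree <
      (N.map (Int.castRingHom (A.comap (algebraMap ↥K Lbar)))).natDegree := by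
    rw [hD.natDegree_map, hN.natDegree_map]
    exact hdeg
  obtain ⟨s1, s2, s12⟩ := Fermat.Agent.S18x.Qepo.H2.h2sat_of_identity
    (O := A.comap (algebraMap ↥K Lbar)) (F := ↥(modularFunctionFieldFullC ↥K M))
    (Fermat.Agent.S28.Asm.jbFull ↥K M) (Fermat.Agent.S18x.IG.H29.coordM ↥K M x₀ hmem)
    (N.map (Int.castRingHom (A.comap (algebraMap ↥K Lbar))))
    (D.map (Int.castRingHom (A.comap (algebraMap ↥K Lbar))))
    (gaussValM (A.comap (algebraMap ↥K Lbar)) M).toSubring h2 π₀ hπ₀.prime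
    (hN.map _) (hD.map _) hdeg'
    (h7_identity_FM (A.comap (algebraMap ↥K Lbar)) M x₀ hmem N D hid) hD0' _ hμ h4
    (Fermat.Agent.S18x.Qepo.sat_chart (A.comap (algebraMap ↥K Lbar)) π₀ hπ₀ M ℓ hℓM)
  exact ⟨π₀, hπ₀, Fermat.Agent.S18x.IG.H29.coordM ↥K M x₀ hmem,
    (Fermat.Agent.S18x.IG.H29.coordM ↥K M x₀ hmem)⁻¹, h1, h2, h3, h4, h5, s1, s2, s12,
    hSM₁, hSM₂⟩

end Parts

section Levels

variable (A : ValuationSubring Lbar) {ℓ : ℕ} (hℓ : ℓ.Prime) (hA : A.LiesOverPrime ℓ)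
  (M : ℕ) [NeZero M]

open Fermat.Agent.S18x.IG.H28

theorem h7_order_eq_neg_one (x₀ : LaurentSeries ℤ) (hlead : x₀.coeff (-1) = 1)
    (hlt : ∀ k : ℤ, k < -1 → x₀.coeff k = 0) : x₀.order = -1 := by
  have h0 : x₀ ≠ 0 := by
    intro h
    rw [h, HahnSeries.coeff_zero] at hlead
    exact zero_ne_one hlead
  apply le_antisymm
  · exact HahnSeries.order_le_of_coeff_ne_zero (by rw [hlead]; exact one_ne_zero)
  · by_contra hlt'
    push Not at hlt'
    exact h0 (HahnSeries.coeff_order_eq_zero.mp (hlt _ hlt'))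

theorem h7_order_h2 : h2.order = -1 :=
  h7_order_eq_neg_one h2 coeff_h2_neg_one (fun _ hk => coeff_h2_of_lt hk)

theorem h7_order_h3 : h3.order = -1 :=
  h7_order_eq_neg_one h3 coeff_h3_neg_one (fun _ hk => coeff_h3_of_lt hk)

/-- the Hauptmodul of level 2 lies in `F_M` for `2 ∣ M` -/
theorem h7_mem_two (K : Type) [Field K] [CharZero K] (h2M : 2 ∣ M) :
    coeffMap (Int.castRingHom K) h2 ∈ modularFunctionFieldFullC K M :=
  Fermat.Agent.S18x.IG.H21.h21_hmF_two K (h2R K) (j_h2R K) (j2_h2R K) M h2M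

/-- the Hauptmodul of level 3 lies in `F_M` for `3 ∣ M` -/
theorem h7_mem_three (K : Type) [Field K] [CharZero K] (h3M : 3 ∣ M) :
    coeffMap (Int.castRingHom K) h3 ∈ modularFunctionFieldFullC K M :=
  Fermat.Agent.S18x.IG.H21.h21_hmF_three K (h3R K) (j_h3R K) (j3_h3R K) M h3M

/-- the Hauptmodul of level 2 as an element of `F_M`, `2 ∣ M` -/
def h7x2 (K : Type) [Field K] [CharZero K] (h2M : 2 ∣ M) : ↥(modularFunctionFieldFullC K M) :=
  Fermat.Agent.S18x.IG.H29.coordM K M h2 (h7_mem_two M K h2M)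

/-- the Hauptmodul of level 3 as an element of `F_M`, `3 ∣ M` -/
def h7x3 (K : Type) [Field K] [CharZero K] (h3M : 3 ∣ M) : ↥(modularFunctionFieldFullC K M) :=
  Fermat.Agent.S18x.IG.H29.coordM K M h3 (h7_mem_three M K h3M)

include hℓ hA in
/-- **Level 2, `ℓ` odd**: `H7IG` from (SM) on the charts of `h₂` and `h₂⁻¹`. -/
theorem h7IG_two (hℓ2 : ℓ ≠ 2) (h2M : 2 ∣ M) (hℓM : ¬ ℓ ∣ M) (K : IntermediateField ℚ Lbar)
    [IsDiscreteValuationRing (A.comap (algebraMap ↥K Lbar))]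
    (π₀ : A.comap (algebraMap ↥K Lbar)) (hπ₀ : Irreducible π₀)
    (hSM₁ : Fermat.Agent.S18x.IG.HSMChart (A.comap (algebraMap ↥K Lbar)) (h7x2 M ↥K h2M) π₀)
    (hSM₂ : Fermat.Agent.S18x.IG.HSMChart (A.comap (algebraMap ↥K Lbar)) (h7x2 M ↥K h2M)⁻¹ π₀) :
    H7IG A M K := by
  refine h7IG_of_identity A hℓ hA M hℓM K h2 h7_order_h2 coeff_h2_neg_one (h7_mem_two M ↥K h2M)
    ((X + C 256) ^ 3) (X ^ 2) ((monic_X_add_C 256).pow 3) (monic_X_pow 2) ?_ ?_ (256 ^ 3) ?_ ?_ ?_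
    π₀ hπ₀ hSM₁ hSM₂
  · rw [natDegree_X_pow, natDegree_pow, natDegree_X_add_C]
    norm_num
  · rw [coeff_X_pow]
    norm_num
  · rw [coeff_zero_eq_eval_zero, eval_pow, eval_add, eval_X, eval_C]
    norm_num
  · intro h
    have h1 : ℓ ∣ 2 := by
      have h2 : (256 : ℕ) ^ 3 = 2 ^ 24 := by norm_num
      rw [h2] at h
      exact hℓ.dvd_of_dvd_pow h
    exact hℓ2 ((Nat.prime_dvd_prime_iff_eq hℓ Nat.prime_two).mp h1)
  · rw [map_pow, map_pow, map_add, aeval_X, aeval_C]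
    have e : algebraMap ℤ (LaurentSeries ℤ) 256 = 256 := map_ofNat _ 256
    rw [e]
    exact j_h2

include hℓ hA in
/-- **Level 3, `ℓ ≠ 3`**: `H7IG` from (SM) on the charts of `h₃` and `h₃⁻¹`. -/
theorem h7IG_three (hℓ3 : ℓ ≠ 3) (h3M : 3 ∣ M) (hℓM : ¬ ℓ ∣ M) (K : IntermediateField ℚ Lbar)
    [IsDiscreteValuationRing (A.comap (algebraMap ↥K Lbar))]
    (π₀ : A.comap (algebraMap ↥K Lbar)) (hπ₀ : Irreducible π₀)
    (hSM₁ : Fermat.Agent.S18x.IG.HSMChart (A.comap (algebraMap ↥K Lbar)) (h7x3 M ↥K h3M) π₀)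
    (hSM₂ : Fermat.Agent.S18x.IG.HSMChart (A.comap (algebraMap ↥K Lbar)) (h7x3 M ↥K h3M)⁻¹ π₀) :
    H7IG A M K := by
  refine h7IG_of_identity A hℓ hA M hℓM K h3 h7_order_h3 coeff_h3_neg_one
    (h7_mem_three M ↥K h3M)
    ((X + C 243) ^ 3 * (X + C 27)) (X ^ 3)
    (((monic_X_add_C 243).pow 3).mul (monic_X_add_C 27)) (monic_X_pow 3) ?_ ?_
    (243 ^ 3 * 27) ?_ ?_ ?_ π₀ hπ₀ hSM₁ hSM₂
  · rw [natDegree_X_pow,
      (((monic_X_add_C (243 : ℤ)).pow 3).natDegree_mul (monic_X_add_C 27)),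
      natDegree_pow, natDegree_X_add_C, natDegree_X_add_C]
    norm_num
  · rw [coeff_X_pow]
    norm_num
  · rw [coeff_zero_eq_eval_zero, eval_mul, eval_pow, eval_add, eval_add, eval_X, eval_C, eval_C]
    norm_num
  · intro h
    have h1 : ℓ ∣ 3 := by
      have h2 : (243 : ℕ) ^ 3 * 27 = 3 ^ 18 := by norm_num
      rw [h2] at h
      exact hℓ.dvd_of_dvd_pow h
    exact hℓ3 ((Nat.prime_dvd_prime_iff_eq hℓ Nat.prime_three).mp h1)
  · rw [map_pow, map_mul, map_pow, map_add, map_add, aeval_X, aeval_C, aeval_C]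
    have e : algebraMap ℤ (LaurentSeries ℤ) 243 = 243 := map_ofNat _ 243
    have e' : algebraMap ℤ (LaurentSeries ℤ) 27 = 27 := map_ofNat _ 27
    rw [e, e']
    exact j_h3

include hℓ hA in
/-- **`Kum.StKumVPrime A M ℓ` at a level `M` divisible by 2, `ℓ` odd, from (SM) alone.** -/
theorem h7_stKumVPrime_two (hℓ2 : ℓ ≠ 2) (h2M : 2 ∣ M) (hℓM : ¬ ℓ ∣ M)
    (hSM : ∀ K : IntermediateField ℚ Lbar, FiniteDimensional ℚ K →
      ∀ _ : IsDiscreteValuationRing (A.comap (algebraMap ↥K Lbar)),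
      ∃ π₀ : A.comap (algebraMap ↥K Lbar), Irreducible π₀ ∧
        Fermat.Agent.S18x.IG.HSMChart (A.comap (algebraMap ↥K Lbar)) (h7x2 M ↥K h2M) π₀ ∧
        Fermat.Agent.S18x.IG.HSMChart (A.comap (algebraMap ↥K Lbar)) (h7x2 M ↥K h2M)⁻¹ π₀) :
    Fermat.Agent.S18x.Kum.StKumVPrime A M ℓ := by
  refine h7_stKumVPrime_of_forall A hℓ hA M (fun K hK hdvr => ?_)
  obtain ⟨π₀, hπ₀, h1, h2⟩ := hSM K hK hdvr
  exact h7IG_two A hℓ hA M hℓ2 h2M hℓM K π₀ hπ₀ h1 h2

include hℓ hA in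
/-- **`Kum.StKumVPrime A M ℓ` at a level `M` divisible by 3, `ℓ ≠ 3`, from (SM) alone.** -/
theorem h7_stKumVPrime_three (hℓ3 : ℓ ≠ 3) (h3M : 3 ∣ M) (hℓM : ¬ ℓ ∣ M)
    (hSM : ∀ K : IntermediateField ℚ Lbar, FiniteDimensional ℚ K →
      ∀ _ : IsDiscreteValuationRing (A.comap (algebraMap ↥K Lbar)),
      ∃ π₀ : A.comap (algebraMap ↥K Lbar), Irreducible π₀ ∧
        Fermat.Agent.S18x.IG.HSMChart (A.comap (algebraMap ↥K Lbar)) (h7x3 M ↥K h3M) π₀ ∧
        Fermat.Agent.S18x.IG.HSMChart (A.comap (algebraMap ↥K Lbar)) (h7x3 M ↥K h3M)⁻¹ π₀) :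
    Fermat.Agent.S18x.Kum.StKumVPrime A M ℓ := by
  refine h7_stKumVPrime_of_forall A hℓ hA M (fun K hK hdvr => ?_)
  obtain ⟨π₀, hπ₀, h1, h2⟩ := hSM K hK hdvr
  exact h7IG_three A hℓ hA M hℓ3 h3M hℓM K π₀ hπ₀ h1 h2

end Levels

end Fermat.Agent.S18x.Dict.H7
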